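import Fermat.Agent.CFT.EulerBounds

/-!
The primes at which a nontrivial class group character is nontrivial cannot all split completely
in an extension of degree at least three.
-/

set_option autoImplicit false

noncomputable section

open NumberField Filter Topology IsDedekindDomain
open scoped Classical nonZeroDivisors

namespace FermatAgent.CFT

variable {K : Type*} [Field K] [NumberField K]

/-- If every prime of prime norm (outside a finite set) at which the class group character `ψ` is
nontrivial has `p ≥ 3` primes of `L` of the same norm attached to it, injectively, we have a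
contradiction. -/
theorem false_of_classChar_split (ψ : ClassGroup (𝓞 K) →* ℂˣ) (hψ : ψ ≠ 1) {p : ℕ} (hp : 3 ≤ p)
    (L : Type*) [Field L] [NumberField L] (T : Set (HeightOneSpectrum (𝓞 K)))
    (E : Finset (HeightOneSpectrum (𝓞 K)))
    (hT : ∀ P, ψ (ClassGroup.mk0 (primeIdeal P)) ≠ 1 → (Ideal.absNorm P.asIdeal).Prime →
      P ∉ E → P ∈ T)
    (lift : T × Fin p → HeightOneSpectrum (𝓞 L)) (hinj : Function.Injective lift)
    (hnorm : ∀ z, Ideal.absNorm (lift z).asIdeal = Ideal.absNorm z.1.1.asIdeal) : False := by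
  obtain ⟨c, C₀, hc, hzK⟩ := eventually_zetaSum_bounds K
  obtain ⟨c', C, hc', hzL⟩ := eventually_zetaSum_bounds L
  obtain ⟨B, hB⟩ := eventually_norm_classL_le ψ hψ
  obtain ⟨T₁, hT₁⟩ := exists_zetaSum_le_exp K
  obtain ⟨T₂, hT₂⟩ := exists_tsum_nonPrimeNorm_le K
  set D : ℝ := (max B 1 * Real.exp (2 * ((E.card : ℝ) + T₂) + T₁)) ^ p * C ^ 2
  have key : ∀ᶠ s in 𝓝[>] (1 : ℝ), c ^ p * ((s - 1)⁻¹) ^ (p - 2) ≤ D := by
    filter_upwards [hzK, hzL, hB, self_mem_nhdsWithin] with s hsK hsL hsB (hs : 1 < s)
    set Bset : Set (HeightOneSpectrum (𝓞 K)) := {P | ψ (ClassGroup.mk0 (primeIdeal P)) ≠ 1}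
    have hsum := summable_primePow (K := K) hs
    have hsumS : ∀ X : Set (HeightOneSpectrum (𝓞 K)), Summable fun P : X => primePow s P.1 :=
      fun X => hsum.comp_injective Subtype.val_injective
    -- the sum over `Bset`
    have hBle : ∑' P : Bset, primePow s P.1 ≤
        (∑' P : T, primePow s P.1) + ((E.card : ℝ) + T₂) := by
      rw [tsum_subtype Bset (primePow s), tsum_subtype T (primePow s)]
      have h1 : ∑' P, (↑E : Set (HeightOneSpectrum (𝓞 K))).indicator (primePow s) P ≤ E.card := by
        rw [← tsum_subtype, Finset.tsum_subtype']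
        refine (Finset.sum_le_card_nsmul E _ 1 fun P _ => ?_).trans (by simp)
        linarith [primePow_le_half hs.le P]
      have h2 := hT₂ s hs
      rw [show (∑' P : {P : HeightOneSpectrum (𝓞 K) // ¬ (Ideal.absNorm P.asIdeal).Prime},
        primePow s P.1) = ∑' P, ({P : HeightOneSpectrum (𝓞 K) |
          ¬ (Ideal.absNorm P.asIdeal).Prime}).indicator (primePow s) P from tsum_subtype _ _] at h2
      refine le_trans ?_ (add_le_add le_rfl (add_le_add h1 h2))
      rw [← (hsum.indicator _).tsum_add (hsum.indicator _),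
        ← (hsum.indicator _).tsum_add ((hsum.indicator _).add (hsum.indicator _))]
      refine (hsum.indicator _).tsum_le_tsum (fun P => ?_)
        ((hsum.indicator _).add ((hsum.indicator _).add (hsum.indicator _)))
      have h0 : ∀ X : Set (HeightOneSpectrum (𝓞 K)), 0 ≤ X.indicator (primePow s) P := fun X =>
        Set.indicator_nonneg (fun P _ => (primePow_pos s P).le) P
      by_cases hP : P ∈ Bset
      · rw [Set.indicator_of_mem hP]
        by_cases hPE : P ∈ E
        · rw [Set.indicator_of_mem (show P ∈ (↑E : Set _) from hPE)]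
          linarith [h0 T, h0 {P | ¬ (Ideal.absNorm P.asIdeal).Prime}]
        by_cases hPp : (Ideal.absNorm P.asIdeal).Prime
        · rw [Set.indicator_of_mem (hT P hP hPp hPE)]
          linarith [h0 (↑E : Set _), h0 {P | ¬ (Ideal.absNorm P.asIdeal).Prime}]
        · rw [Set.indicator_of_mem
            (show P ∈ {P : HeightOneSpectrum (𝓞 K) | ¬ (Ideal.absNorm P.asIdeal).Prime} from hPp)]
          linarith [h0 (↑E : Set _), h0 T]
      · rw [Set.indicator_of_notMem hP]
        linarith [h0 (↑E : Set _), h0 T, h0 {P | ¬ (Ideal.absNorm P.asIdeal).Prime}]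
    -- the sum over `T` against the zeta function of `L`
    have hTle : Real.exp (∑' P : T, primePow s P.1) ^ p ≤ C / (s - 1) := by
      refine le_trans ?_ hsL.2
      refine le_trans ?_ (exp_tsum_primePow_le_zetaSum hs)
      rw [← Real.exp_nat_mul]
      refine Real.exp_le_exp.mpr ?_
      have hg : ∀ z : T × Fin p, primePow s (lift z) = primePow s z.1.1 := fun z => by
        simp only [primePow, normPow, coe_primeIdeal, hnorm]
      have hsl : Summable fun z : T × Fin p => primePow s z.1.1 :=
        ((summable_primePow hs).comp_injective hinj).congr hg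
      calc (p : ℝ) * ∑' P : T, primePow s P.1 = ∑' z : T × Fin p, primePow s z.1.1 := by
            rw [hsl.tsum_prod, ← tsum_mul_left]
            exact tsum_congr fun P => by simp
        _ ≤ ∑' Q : HeightOneSpectrum (𝓞 L), primePow s Q :=
            Summable.tsum_le_tsum_of_inj lift hinj (fun _ _ => (primePow_pos s _).le)
              (fun z => (hg z).ge) hsl (summable_primePow hs)
    -- combine
    have hall : ∑' P : HeightOneSpectrum (𝓞 K), primePow s P =
        (∑' P : {P : HeightOneSpectrum (𝓞 K) // ψ (ClassGroup.mk0 (primeIdeal P)) = 1},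
          primePow s P.1) + ∑' P : Bset, primePow s P.1 := by
      set Aset : Set (HeightOneSpectrum (𝓞 K)) :=
        {P | ψ (ClassGroup.mk0 (primeIdeal P)) = 1} with hAset
      have hBA : Bset = Asetᶜ := rfl
      have := Summable.tsum_add_tsum_compl (f := primePow s) (s := Aset) (hsumS Aset) (hsumS Asetᶜ)
      rw [← this, hBA]
      rfl
    have h3 := (exp_sub_le_norm_classL ψ hs).trans (hsB.trans (le_max_left B 1))
    set SA : ℝ := ∑' P : {P : HeightOneSpectrum (𝓞 K) // ψ (ClassGroup.mk0 (primeIdeal P)) = 1},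
      primePow s P.1
    set SB : ℝ := ∑' P : Bset, primePow s P.1
    set ST : ℝ := ∑' P : T, primePow s P.1
    change Real.exp (SA - SB) ≤ max B 1 at h3
    have h4 : c / (s - 1) ≤
        (max B 1 * Real.exp (2 * ((E.card : ℝ) + T₂) + T₁)) * Real.exp ST ^ 2 := by
      refine (hsK.1.trans (hT₁ s hs)).trans ?_
      rw [hall, ← Real.exp_nat_mul, mul_assoc, ← Real.exp_add]
      refine le_trans ?_ (mul_le_mul_of_nonneg_right h3 (Real.exp_pos _).le)
      rw [← Real.exp_add]
      refine Real.exp_le_exp.mpr ?_
      push_cast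
      linarith
    have hs0 : 0 < s - 1 := sub_pos.mpr hs
    have h5 : (c / (s - 1)) ^ p ≤ D * ((s - 1)⁻¹) ^ 2 := by
      refine (pow_le_pow_left₀ (by positivity) h4 p).trans ?_
      rw [mul_pow, ← pow_mul, mul_comm 2 p, pow_mul]
      refine le_trans (mul_le_mul_of_nonneg_left (pow_le_pow_left₀ (by positivity) hTle 2)
        (by positivity)) (le_of_eq ?_)
      simp only [D, div_eq_mul_inv, mul_pow]
      ring
    obtain ⟨m, rfl⟩ : ∃ m, p = m + 2 := ⟨p - 2, by omega⟩
    simp only [add_tsub_cancel_right]
    rw [div_eq_mul_inv, mul_pow, pow_add ((s - 1)⁻¹) m 2, ← mul_assoc] at h5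
    exact le_of_mul_le_mul_right h5 (by positivity)
  -- but the left side is unbounded
  have htend : Tendsto (fun s : ℝ => c ^ p * ((s - 1)⁻¹) ^ (p - 2)) (𝓝[>] 1) atTop := by
    refine Tendsto.const_mul_atTop (pow_pos hc p)
      ((tendsto_pow_atTop (by omega)).comp (tendsto_inv_nhdsGT_zero.comp ?_))
    refine tendsto_nhdsWithin_iff.mpr ⟨?_, ?_⟩
    · have h : Tendsto (fun s : ℝ => s - 1) (𝓝 1) (𝓝 (1 - 1)) :=
        (continuous_sub_right 1).tendsto 1
      rw [sub_self] at h
      exact h.mono_left nhdsWithin_le_nhds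
    · filter_upwards [self_mem_nhdsWithin] with s (hs : 1 < s)
      exact sub_pos.mpr hs
  obtain ⟨s, h1, h2⟩ := ((htend.eventually_gt_atTop D).and key).exists
  linarith

end FermatAgent.CFT
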