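import Mathlib

/-!
The cyclotomic unit in the `ω²` component and its logarithmic coefficient modulo `p`.

`cycUnit` is the product of the conjugated quotient units `quotUnit` with exponents `ω(σ)²`.
Sending `ζ` to `exp T` in `𝔽_p[T]/T³` (`truncMap`) defines additive coefficients `logOne`, `logTwo`
on units, which vanish on units congruent to `p`-th powers modulo `p`
(`log_eq_zero_of_congr_pow`); that of `cycUnit` in degree two is nonzero
(`logTwo_cycUnit_ne_zero`).
-/

set_option autoImplicit false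

noncomputable section

open NumberField Polynomial
open scoped Classical

namespace FermatAgent.CFT

section Cyclo

variable (p : ℕ) [hp : Fact p.Prime] (K : Type*) [Field K] [NumberField K]
  [IsCyclotomicExtension {p} ℚ K]

/-- The chosen primitive `p`-th root of unity in `𝓞 K`. -/
def zetaInt : 𝓞 K := (IsCyclotomicExtension.zeta_spec p ℚ K).toInteger

/-- The integral root of unity is primitive. -/
lemma zetaInt_spec : IsPrimitiveRoot (zetaInt p K) p :=
  (IsCyclotomicExtension.zeta_spec p ℚ K).toInteger_isPrimitiveRoot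

/-- The cyclotomic character of `K`. -/
def omega : (K ≃ₐ[ℚ] K) ≃* (ZMod p)ˣ := IsCyclotomicExtension.Rat.galEquivZMod p K

/-- The Galois action on the root of unity is given by the cyclotomic character. -/
lemma smul_zetaInt (σ : K ≃ₐ[ℚ] K) :
    σ • zetaInt p K = zetaInt p K ^ (omega p K σ : ZMod p).val :=
  IsCyclotomicExtension.Rat.galEquivZMod_smul_of_pow_eq p K σ (zetaInt_spec p K).pow_eq_one

/-- `1 + ζ + ⋯ + ζ^(d-1)`. -/
def geomElt (d : ℕ) : 𝓞 K := ∑ i ∈ Finset.range d, zetaInt p K ^ i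

/-- The defining identity of the geometric element. -/
lemma geomElt_mul (d : ℕ) : geomElt p K d * (zetaInt p K - 1) = zetaInt p K ^ d - 1 :=
  geom_sum_mul _ _

/-- The geometric elements prime to `p` are units. -/
lemma isUnit_geomElt {d : ℕ} (hd : d.Coprime p) : IsUnit (geomElt p K d) :=
  (zetaInt_spec p K).geom_sum_isUnit hp.out.two_le hd

/-- `(σ⁻¹ ζ - 1) / (ζ - 1)`. -/
def quotUnit (σ : K ≃ₐ[ℚ] K) : (𝓞 K)ˣ :=
  (isUnit_geomElt p K (ZMod.val_coe_unit_coprime (omega p K σ⁻¹))).unit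

lemma coe_quotUnit (σ : K ≃ₐ[ℚ] K) :
    (quotUnit p K σ : 𝓞 K) = geomElt p K (omega p K σ⁻¹ : ZMod p).val := rfl

/-- The defining identity of the quotient unit. -/
lemma quotUnit_mul (σ : K ≃ₐ[ℚ] K) :
    (quotUnit p K σ : 𝓞 K) * (zetaInt p K - 1) = σ⁻¹ • zetaInt p K - 1 := by
  rw [coe_quotUnit, geomElt_mul, smul_zetaInt]

/-- The exponent `ω(σ)²`. -/
def omegaSq (σ : K ≃ₐ[ℚ] K) : ℕ := ((omega p K σ : ZMod p) ^ 2).val

/-- The square character modulo `p`. -/
lemma natCast_omegaSq (σ : K ≃ₐ[ℚ] K) :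
    (omegaSq p K σ : ZMod p) = (omega p K σ : ZMod p) ^ 2 := ZMod.natCast_zmod_val _

/-- The cyclotomic unit in the `ω²` component. -/
def cycUnit : (𝓞 K)ˣ := ∏ σ : K ≃ₐ[ℚ] K, quotUnit p K σ ^ omegaSq p K σ

end Cyclo

section Coeff

/-- `R[T]/(T³)`. -/
abbrev TruncThree (p : ℕ) : Type :=
  (ZMod p)[X] ⧸ Ideal.span {(X : (ZMod p)[X]) ^ 3}

/-- Coefficients of `R[T]/(T³)`. -/
def truncCoeff (p : ℕ) (i : Fin 3) : TruncThree p →+ ZMod p :=
  QuotientAddGroup.lift _ (lcoeff (ZMod p) (i : ℕ)).toAddMonoidHom (by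
    intro f hf
    obtain ⟨g, rfl⟩ := Ideal.mem_span_singleton.mp hf
    simp only [AddMonoidHom.mem_ker, LinearMap.toAddMonoidHom_coe, lcoeff_apply]
    rw [mul_comm, coeff_mul_X_pow', if_neg (by omega)])

lemma truncCoeff_mk (p : ℕ) (i : Fin 3) (f : (ZMod p)[X]) :
    truncCoeff p i (Ideal.Quotient.mk _ f) = f.coeff (i : ℕ) := rfl

lemma truncCoeff_one (p : ℕ) (i : Fin 3) :
    truncCoeff p i 1 = if i = 0 then 1 else 0 := by
  rw [← map_one (Ideal.Quotient.mk (Ideal.span {(X : (ZMod p)[X]) ^ 3})), truncCoeff_mk, coeff_one]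
  fin_cases i <;> simp

lemma truncCoeff_mul (p : ℕ) (x y : TruncThree p) :
    truncCoeff p 0 (x * y) = truncCoeff p 0 x * truncCoeff p 0 y ∧
    truncCoeff p 1 (x * y) = truncCoeff p 0 x * truncCoeff p 1 y +
      truncCoeff p 1 x * truncCoeff p 0 y ∧
    truncCoeff p 2 (x * y) = truncCoeff p 0 x * truncCoeff p 2 y +
      truncCoeff p 1 x * truncCoeff p 1 y + truncCoeff p 2 x * truncCoeff p 0 y := by
  obtain ⟨f, rfl⟩ := Ideal.Quotient.mk_surjective x
  obtain ⟨g, rfl⟩ := Ideal.Quotient.mk_surjective y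
  rw [← map_mul]
  simp only [truncCoeff_mk, Fin.val_zero, Fin.val_one, Fin.val_two, coeff_mul,
    Finset.Nat.sum_antidiagonal_eq_sum_range_succ (fun i j => f.coeff i * g.coeff j),
    Finset.sum_range_succ, Finset.sum_range_zero]
  refine ⟨by simp, by simp, by simp⟩

end Coeff

section Log

variable (p : ℕ) [hp : Fact p.Prime] (K : Type*) [Field K] [NumberField K]
  [IsCyclotomicExtension {p} ℚ K]

/-- `exp T` modulo `T³`. -/
def truncExp : TruncThree p :=
  Ideal.Quotient.mk _ (1 + X + C ((2 : ZMod p)⁻¹) * X ^ 2)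

lemma truncExp_pow_eq_one (hp5 : 5 ≤ p) : ∑ i ∈ Finset.range p, truncExp p ^ i = 0 := by
  set u : TruncThree p := Ideal.Quotient.mk _ (X + C ((2 : ZMod p)⁻¹) * X ^ 2)
  have hu : truncExp p = u + 1 := by
    rw [show (1 : TruncThree p) = Ideal.Quotient.mk _ 1 from rfl, ← map_add, truncExp]
    congr 1; ring
  have hu3 : u ^ 3 = 0 := by
    rw [← map_pow, Ideal.Quotient.eq_zero_iff_mem, Ideal.mem_span_singleton]
    exact ⟨(1 + C ((2 : ZMod p)⁻¹) * X) ^ 3, by ring⟩
  have key : ∀ m : ℕ, ∑ i ∈ Finset.range m, (u + 1) ^ i =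
      (m : TruncThree p) + (m.choose 2 : TruncThree p) * u +
        (m.choose 3 : TruncThree p) * u ^ 2 := by
    intro m
    induction m with
    | zero => simp
    | succ m ih =>
      rw [Finset.sum_range_succ, ih]
      have hm : (u + 1) ^ m =
          1 + (m : TruncThree p) * u + (m.choose 2 : TruncThree p) * u ^ 2 := by
        clear ih
        induction m with
        | zero => simp
        | succ m ih =>
          rw [pow_succ, ih, Nat.choose_succ_succ', Nat.choose_one_right]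
          push_cast
          linear_combination (m.choose 2 : TruncThree p) * hu3
      rw [hm, Nat.choose_succ_succ' m 1, Nat.choose_succ_succ' m 2, Nat.choose_one_right]
      push_cast
      ring
  have hz : ∀ n : ℕ, p ∣ n → (n : TruncThree p) = 0 := fun n hn => by
    rw [show (n : TruncThree p) = Ideal.Quotient.mk _ (C (n : ZMod p)) by simp,
      (ZMod.natCast_eq_zero_iff n p).mpr hn]
    simp
  rw [hu, key, hz p dvd_rfl, hz _ (hp.out.dvd_choose_self two_ne_zero (by omega)),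
    hz _ (hp.out.dvd_choose_self three_ne_zero (by omega))]
  ring

/-- The map `ζ ↦ exp T` to `F_p[T]/T³`. -/
def truncMap (hp5 : 5 ≤ p) : 𝓞 K →ₐ[ℤ] TruncThree p :=
  (IsCyclotomicExtension.zeta_spec p ℚ K).integralPowerBasis.lift (truncExp p) (by
    have hm : cyclotomic p ℤ =
        minpoly ℤ (IsCyclotomicExtension.zeta_spec p ℚ K).integralPowerBasis.gen := by
      rw [IsPrimitiveRoot.integralPowerBasis_gen]
      rw [cyclotomic_eq_minpoly (IsCyclotomicExtension.zeta_spec p ℚ K) hp.out.pos,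
        ← RingOfIntegers.minpoly_coe]
      rfl
    rw [← hm, cyclotomic_prime, map_sum]
    simpa using truncExp_pow_eq_one p hp5)

lemma truncMap_zeta (hp5 : 5 ≤ p) : truncMap p K hp5 (zetaInt p K) = truncExp p := by
  rw [truncMap, zetaInt, ← IsPrimitiveRoot.integralPowerBasis_gen]
  exact PowerBasis.lift_gen _ _ _

/-- The coefficients of an integer of `K`. -/
def expCoeff (hp5 : 5 ≤ p) (i : Fin 3) (x : 𝓞 K) : ZMod p := truncCoeff p i (truncMap p K hp5 x)

variable {p K} (hp5 : 5 ≤ p)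

lemma expCoeff_mul (x y : 𝓞 K) :
    expCoeff p K hp5 0 (x * y) = expCoeff p K hp5 0 x * expCoeff p K hp5 0 y ∧
    expCoeff p K hp5 1 (x * y) =
      expCoeff p K hp5 0 x * expCoeff p K hp5 1 y + expCoeff p K hp5 1 x * expCoeff p K hp5 0 y ∧
    expCoeff p K hp5 2 (x * y) = expCoeff p K hp5 0 x * expCoeff p K hp5 2 y +
      expCoeff p K hp5 1 x * expCoeff p K hp5 1 y +
        expCoeff p K hp5 2 x * expCoeff p K hp5 0 y := by
  simp only [expCoeff, map_mul]
  exact truncCoeff_mul p _ _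

lemma expCoeff_zero_ne_zero (x : (𝓞 K)ˣ) : expCoeff p K hp5 0 (x : 𝓞 K) ≠ 0 := by
  intro h
  have h1 := (expCoeff_mul hp5 (x : 𝓞 K) (x⁻¹ : (𝓞 K)ˣ)).1
  rw [h, zero_mul, Units.mul_inv] at h1
  simp [expCoeff, map_one, truncCoeff_one] at h1

/-- The first two coefficients of the logarithm, on units. -/
def logCoeff : (𝓞 K)ˣ →* Multiplicative (ZMod p × ZMod p) where
  toFun x := Multiplicative.ofAdd
    (expCoeff p K hp5 1 x / expCoeff p K hp5 0 x,
     expCoeff p K hp5 2 x / expCoeff p K hp5 0 x -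
       (expCoeff p K hp5 1 x) ^ 2 / (2 * (expCoeff p K hp5 0 x) ^ 2))
  map_one' := by simp [expCoeff, truncCoeff_one]
  map_mul' x y := by
    obtain ⟨h0, h1, h2⟩ := expCoeff_mul hp5 (x : 𝓞 K) y
    have hx := expCoeff_zero_ne_zero hp5 x
    have hy := expCoeff_zero_ne_zero hp5 y
    have htwo : (2 : ZMod p) ≠ 0 := by
      intro h
      have : ((2 : ℕ) : ZMod p) = 0 := by exact_mod_cast h
      rw [ZMod.natCast_eq_zero_iff] at this
      have := Nat.le_of_dvd two_pos this
      omega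
    rw [← ofAdd_add, Units.val_mul, h0, h1, h2]
    congr 1
    ext
    · simp only [Prod.mk_add_mk]; field_simp; ring
    · simp only [Prod.mk_add_mk]; field_simp; ring

/-- The second logarithmic coefficient. -/
def logTwo (x : (𝓞 K)ˣ) : ZMod p := (logCoeff hp5 x).toAdd.2

/-- The first logarithmic coefficient. -/
def logOne (x : (𝓞 K)ˣ) : ZMod p := (logCoeff hp5 x).toAdd.1

/-- The quadratic logarithm is additive. -/
lemma logTwo_mul (x y : (𝓞 K)ˣ) : logTwo hp5 (x * y) = logTwo hp5 x + logTwo hp5 y := by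
  simp [logTwo]

/-- The linear logarithm is additive. -/
lemma logOne_mul (x y : (𝓞 K)ˣ) : logOne hp5 (x * y) = logOne hp5 x + logOne hp5 y := by
  simp [logOne]

/-- The quadratic logarithm of a power. -/
lemma logTwo_pow (x : (𝓞 K)ˣ) (n : ℕ) : logTwo hp5 (x ^ n) = n * logTwo hp5 x := by
  simp [logTwo, map_pow]

/-- The linear logarithm of a power. -/
lemma logOne_pow (x : (𝓞 K)ˣ) (n : ℕ) : logOne hp5 (x ^ n) = n * logOne hp5 x := by
  simp [logOne, map_pow]

/-- Units congruent to a `p`-th power modulo `p` have vanishing logarithmic coefficients. -/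
lemma log_eq_zero_of_congr_pow (x : (𝓞 K)ˣ) (y : 𝓞 K) (h : (p : 𝓞 K) ∣ (x : 𝓞 K) - y ^ p) :
    logOne hp5 x = 0 ∧ logTwo hp5 x = 0 := by
  obtain ⟨z, hz⟩ := h
  have hx : truncMap p K hp5 (x : 𝓞 K) = truncMap p K hp5 (y ^ p) := by
    rw [← sub_eq_zero, ← map_sub, hz, map_mul, map_natCast]
    rw [show (p : TruncThree p) = Ideal.Quotient.mk _ (C (p : ZMod p)) by
      rw [map_natCast, map_natCast], ZMod.natCast_self, map_zero, map_zero, zero_mul]
  obtain ⟨f, hf⟩ := Ideal.Quotient.mk_surjective (truncMap p K hp5 y)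
  have hfp : ∀ i : Fin 3, i ≠ 0 → expCoeff p K hp5 i (x : 𝓞 K) = 0 := by
    intro i hi
    have hi0 : (i : ℕ) ≠ 0 := fun h => hi (Fin.ext h)
    rw [expCoeff, hx, map_pow, ← hf, ← map_pow, truncCoeff_mk]
    conv_lhs => rw [← X_mul_divX_add f, add_pow_char, mul_pow, ← C_pow]
    rw [coeff_add, coeff_C, if_neg hi0, add_zero, mul_comm, coeff_mul_X_pow', if_neg]
    omega
  simp [logOne, logTwo, logCoeff, hfp 1 (by decide), hfp 2 (by decide)]

lemma expCoeff_zeta_pow (i : ℕ) :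
    expCoeff p K hp5 0 (zetaInt p K ^ i) = 1 ∧ expCoeff p K hp5 1 (zetaInt p K ^ i) = i ∧
      expCoeff p K hp5 2 (zetaInt p K ^ i) = (i : ZMod p) ^ 2 / 2 := by
  induction i with
  | zero => simp [expCoeff, truncCoeff_one]
  | succ i ih =>
    obtain ⟨i0, i1, i2⟩ := ih
    obtain ⟨m0, m1, m2⟩ := expCoeff_mul hp5 (zetaInt p K ^ i) (zetaInt p K)
    have e : ∀ j : Fin 3, expCoeff p K hp5 j (zetaInt p K) =
        (1 + X + C ((2 : ZMod p)⁻¹) * X ^ 2 : (ZMod p)[X]).coeff (j : ℕ) := fun j => by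
      rw [expCoeff, truncMap_zeta]; rfl
    have htwo : (2 : ZMod p) ≠ 0 := by
      intro h
      have : ((2 : ℕ) : ZMod p) = 0 := by exact_mod_cast h
      rw [ZMod.natCast_eq_zero_iff] at this
      have := Nat.le_of_dvd two_pos this
      omega
    rw [pow_succ, m0, m1, m2, i0, i1, i2, e 0, e 1, e 2]
    simp [coeff_one, coeff_X, coeff_C_mul, coeff_X_pow]
    field_simp
    ring_nf
    trivial

lemma natCast_ne_zero_of_pos_lt {n : ℕ} (h0 : 0 < n) (hn : n < p) : (n : ZMod p) ≠ 0 := by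
  rw [ne_eq, ZMod.natCast_eq_zero_iff]
  intro h
  have := Nat.le_of_dvd h0 h
  omega

lemma sum_range_cast (R : Type*) [CommRing R] (d : ℕ) :
    2 * ∑ i ∈ Finset.range d, (i : R) = (d : R) * ((d : R) - 1) ∧
    6 * ∑ i ∈ Finset.range d, (i : R) ^ 2 = ((d : R) - 1) * d * (2 * d - 1) := by
  induction d with
  | zero => simp
  | succ d ih =>
    rw [Finset.sum_range_succ, Finset.sum_range_succ]
    constructor
    · push_cast; linear_combination ih.1
    · push_cast; linear_combination ih.2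

lemma expCoeff_geomElt (d : ℕ) :
    expCoeff p K hp5 0 (geomElt p K d) = d ∧
    expCoeff p K hp5 1 (geomElt p K d) = ∑ i ∈ Finset.range d, (i : ZMod p) ∧
    expCoeff p K hp5 2 (geomElt p K d) = (∑ i ∈ Finset.range d, (i : ZMod p) ^ 2) / 2 := by
  have hlin : ∀ j, expCoeff p K hp5 j (geomElt p K d) =
      ∑ i ∈ Finset.range d, expCoeff p K hp5 j (zetaInt p K ^ i) := fun j => by
    simp only [geomElt, expCoeff, map_sum]
  simp only [hlin]
  refine ⟨?_, ?_, ?_⟩
  · rw [Finset.sum_congr rfl fun i _ => (expCoeff_zeta_pow hp5 (K := K) i).1]; simp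
  · rw [Finset.sum_congr rfl fun i _ => (expCoeff_zeta_pow hp5 (K := K) i).2.1]
  · rw [Finset.sum_congr rfl fun i _ => (expCoeff_zeta_pow hp5 (K := K) i).2.2, Finset.sum_div]

lemma logTwo_quotUnit (σ : K ≃ₐ[ℚ] K) :
    24 * logTwo hp5 (quotUnit p K σ) = (omega p K σ⁻¹ : ZMod p) ^ 2 - 1 := by
  obtain ⟨h0, h1, h2⟩ := expCoeff_geomElt hp5 (K := K) (omega p K σ⁻¹ : ZMod p).val
  obtain ⟨s1, s2⟩ := sum_range_cast (ZMod p) (omega p K σ⁻¹ : ZMod p).val
  rw [ZMod.natCast_zmod_val] at h0 s1 s2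
  have hd : (omega p K σ⁻¹ : ZMod p) ≠ 0 := Units.ne_zero _
  have htwo : (2 : ZMod p) ≠ 0 := by
    simpa using natCast_ne_zero_of_pos_lt (n := 2) two_pos (by omega)
  simp only [logTwo, logCoeff, MonoidHom.coe_mk, OneHom.coe_mk, toAdd_ofAdd, coe_quotUnit,
    h0, h1, h2]
  field_simp
  linear_combination (4 * (omega p K σ⁻¹ : ZMod p)) * s2 -
    (12 * (∑ i ∈ Finset.range (omega p K σ⁻¹ : ZMod p).val, (i : ZMod p)) +
      6 * (omega p K σ⁻¹ : ZMod p) * ((omega p K σ⁻¹ : ZMod p) - 1)) * s1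

/-- The squares of the units modulo `p ≥ 5` sum to zero. -/
lemma sum_units_sq (hp5 : 5 ≤ p) : ∑ v : (ZMod p)ˣ, (v : ZMod p) ^ 2 = 0 := by
  rw [FiniteField.sum_pow_units (ZMod p) 2, if_neg]
  intro h
  rw [ZMod.card] at h
  have := Nat.le_of_dvd two_pos h
  omega

/-- The quadratic logarithm of the cyclotomic unit is not zero. -/
lemma logTwo_cycUnit_ne_zero : logTwo hp5 (cycUnit p K) ≠ 0 := by
  intro h
  have hsum : logTwo hp5 (cycUnit p K) =
      ∑ σ : K ≃ₐ[ℚ] K, (omega p K σ : ZMod p) ^ 2 * logTwo hp5 (quotUnit p K σ) := by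
    simp only [cycUnit, logTwo, map_prod, toAdd_prod, Prod.snd_sum]
    refine Finset.sum_congr rfl fun σ _ => ?_
    rw [← natCast_omegaSq, ← logTwo, ← logTwo, logTwo_pow]
  have h24 : (0 : ZMod p) =
      ∑ σ : K ≃ₐ[ℚ] K, (1 - (omega p K σ : ZMod p) ^ 2) := by
    calc (0 : ZMod p) = 24 * logTwo hp5 (cycUnit p K) := by rw [h, mul_zero]
      _ = _ := by
        rw [hsum, Finset.mul_sum]
        refine Finset.sum_congr rfl fun σ _ => ?_
        rw [mul_left_comm, logTwo_quotUnit, map_inv, Units.val_inv_eq_inv_val]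
        have hd : (omega p K σ : ZMod p) ≠ 0 := Units.ne_zero _
        field_simp
  rw [show (∑ σ : K ≃ₐ[ℚ] K, (1 - (omega p K σ : ZMod p) ^ 2)) =
      ∑ v : (ZMod p)ˣ, (1 - (v : ZMod p) ^ 2) from
        (omega p K).toEquiv.sum_comp (fun v => 1 - (v : ZMod p) ^ 2), Finset.sum_sub_distrib,
    sum_units_sq hp5, sub_zero, Finset.sum_const, Finset.card_univ, ZMod.card_units p,
    nsmul_eq_mul, mul_one] at h24
  exact natCast_ne_zero_of_pos_lt (n := p - 1) (by omega) (by omega) h24.symm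

/-- The unit `ζ`. -/
def zetaUnit : (𝓞 K)ˣ := ((zetaInt_spec p K).isUnit hp.out.ne_zero).unit

/-- The logarithms of the root of unity. -/
lemma log_zetaUnit : logOne hp5 (zetaUnit (p := p) (K := K)) = 1 ∧
    logTwo hp5 (zetaUnit (p := p) (K := K)) = 0 := by
  obtain ⟨h0, h1, h2⟩ := expCoeff_zeta_pow hp5 (K := K) 1
  rw [pow_one] at h0 h1 h2
  have hv : ((zetaUnit (p := p) (K := K) : (𝓞 K)ˣ) : 𝓞 K) = zetaInt p K := IsUnit.unit_spec _
  simp [logOne, logTwo, logCoeff, hv, h0, h1, h2]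

end Log

end FermatAgent.CFT
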