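import Fermat.Agent.CFT.UnitTent
import Fermat.Agent.CFT.CycloUnit

/-!
The `ω²`-component of the units of `ℚ(ζ_p)` modulo `p`-th powers is generated by the cyclotomic
unit; hence a unit in this component congruent to a `p`-th power modulo `p` is a `p`-th power.
-/

set_option autoImplicit false

noncomputable section

open NumberField NumberField.InfinitePlace Module
open NumberField.Units NumberField.Units.dirichletUnitTheorem
open scoped Classical

namespace FermatAgent.CFT

section Expo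

variable {K : Type*} [Field K] [NumberField K]

/-- The exponents in a fundamental system. -/
def unitExpo (u : (𝓞 K)ˣ) : Fin (Units.rank K) → ℤ := (unitsEquivProd u).2

lemma unit_decomp (u : (𝓞 K)ˣ) :
    u = ((unitsEquivProd u).1 : (𝓞 K)ˣ) * ∏ i, fundSystem K i ^ unitExpo u i :=
  (unitsEquivProd.symm_apply_apply u).symm

lemma unitExpo_eq_of {u : (𝓞 K)ˣ} (t : torsion K) (n : Fin (Units.rank K) → ℤ)
    (h : u = (t : (𝓞 K)ˣ) * ∏ i, fundSystem K i ^ n i) : unitExpo u = n := by
  have : unitsEquivProd u = (t, n) := by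
    rw [← Equiv.eq_symm_apply]; exact h
  simp [unitExpo, this]

lemma unitExpo_mul (u v : (𝓞 K)ˣ) : unitExpo (u * v) = unitExpo u + unitExpo v := by
  refine unitExpo_eq_of ((unitsEquivProd u).1 * (unitsEquivProd v).1) _ ?_
  conv_lhs => rw [unit_decomp u, unit_decomp v]
  simp only [Subgroup.coe_mul, Pi.add_apply, zpow_add, Finset.prod_mul_distrib]
  ac_rfl

lemma unitExpo_torsion {t : (𝓞 K)ˣ} (ht : t ∈ torsion K) : unitExpo t = 0 :=
  unitExpo_eq_of ⟨t, ht⟩ _ (by simp)

lemma unitExpo_one : unitExpo (1 : (𝓞 K)ˣ) = 0 := unitExpo_torsion (one_mem _)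

/-- The exponents modulo `p`, as a homomorphism. -/
def unitExpoMod (p : ℕ) : (𝓞 K)ˣ →* Multiplicative (Fin (Units.rank K) → ZMod p) where
  toFun u := Multiplicative.ofAdd fun i => (unitExpo u i : ZMod p)
  map_one' := by simp [unitExpo_one]; rfl
  map_mul' u v := by rw [← ofAdd_add]; congr 1; ext i; simp [unitExpo_mul]

lemma exists_torsion_mul_pow {p : ℕ} {u : (𝓞 K)ˣ} (h : unitExpoMod p u = 1) :
    ∃ t ∈ torsion K, ∃ z : (𝓞 K)ˣ, u = t * z ^ p := by
  have h' : ∀ i, (p : ℤ) ∣ unitExpo u i := fun i => by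
    rw [← ZMod.intCast_zmod_eq_zero_iff_dvd]
    exact congrFun (Multiplicative.ofAdd.injective (h.trans ofAdd_zero.symm)) i
  choose k hk using h'
  refine ⟨_, (unitsEquivProd u).1.2, ∏ i, fundSystem K i ^ k i, ?_⟩
  conv_lhs => rw [unit_decomp u]
  rw [← Finset.prod_pow]
  congr 1
  refine Finset.prod_congr rfl fun i _ => ?_
  rw [hk i, mul_comm, zpow_mul, zpow_natCast]

/-- The Galois action on units. -/
def galUnit (σ : K ≃ₐ[ℚ] K) : (𝓞 K)ˣ →* (𝓞 K)ˣ :=
  Units.map (MulDistribMulAction.toMonoidHom (𝓞 K) σ)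

/-- The Galois action on units. -/
lemma coe_galUnit (σ : K ≃ₐ[ℚ] K) (u : (𝓞 K)ˣ) : (galUnit σ u : 𝓞 K) = σ • (u : 𝓞 K) := rfl

lemma galUnit_mul (σ τ : K ≃ₐ[ℚ] K) (u : (𝓞 K)ˣ) :
    galUnit (σ * τ) u = galUnit σ (galUnit τ u) := Units.ext (mul_smul σ τ (u : 𝓞 K))

lemma galUnit_mem_torsion (σ : K ≃ₐ[ℚ] K) {t : (𝓞 K)ˣ} (ht : t ∈ torsion K) :
    galUnit σ t ∈ torsion K := by
  rw [torsion, CommGroup.mem_torsion] at ht ⊢
  exact (galUnit σ).isOfFinOrder ht

variable (K) in
/-- The integer matrix of the Galois action on the exponents. -/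
def galMatrix (σ : K ≃ₐ[ℚ] K) : Matrix (Fin (Units.rank K)) (Fin (Units.rank K)) ℤ :=
  Matrix.of fun i j => unitExpo (galUnit σ (fundSystem K j)) i

lemma unitExpo_galUnit (σ : K ≃ₐ[ℚ] K) (u : (𝓞 K)ˣ) :
    unitExpo (galUnit σ u) = (galMatrix K σ).mulVec (unitExpo u) := by
  have hz : ∀ (x : (𝓞 K)ˣ) (m : ℤ), unitExpo (x ^ m) = m • unitExpo x := fun x m => by
    let φ : (𝓞 K)ˣ →* Multiplicative (Fin (Units.rank K) → ℤ) :=
      { toFun := fun u => Multiplicative.ofAdd (unitExpo u)
        map_one' := by simp [unitExpo_one]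
        map_mul' := fun a b => by simp [unitExpo_mul] }
    exact Multiplicative.ofAdd.injective ((map_zpow φ x m).trans (by rfl))
  have hp : ∀ (s : Finset (Fin (Units.rank K))) (f : Fin (Units.rank K) → (𝓞 K)ˣ),
      unitExpo (∏ i ∈ s, f i) = ∑ i ∈ s, unitExpo (f i) := fun s f => by
    induction s using Finset.induction with
    | empty => simp [unitExpo_one]
    | insert a s ha ih => rw [Finset.prod_insert ha, Finset.sum_insert ha, unitExpo_mul, ih]
  conv_lhs => rw [unit_decomp u]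
  rw [map_mul, map_prod, unitExpo_mul,
    unitExpo_torsion (galUnit_mem_torsion σ (unitsEquivProd u).1.2), zero_add, hp]
  ext i
  simp only [Finset.sum_apply, map_zpow, hz, Pi.smul_apply, smul_eq_mul, Matrix.mulVec,
    dotProduct, galMatrix, Matrix.of_apply]
  exact Finset.sum_congr rfl fun j _ => mul_comm _ _

lemma galMatrix_mul (σ τ : K ≃ₐ[ℚ] K) :
    galMatrix K (σ * τ) = galMatrix K σ * galMatrix K τ := by
  ext i j
  simp only [Matrix.mul_apply, galMatrix, Matrix.of_apply]
  rw [galUnit_mul, unitExpo_galUnit]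
  rfl

/-- The logarithms of the absolute values. -/
def unitLog (u : (𝓞 K)ˣ) : InfinitePlace K → ℝ := fun w => Real.log (w ((u : 𝓞 K) : K))

omit [NumberField K] in
lemma unitLog_mul (u v : (𝓞 K)ˣ) : unitLog (u * v) = unitLog u + unitLog v := by
  ext w
  simp only [unitLog, Pi.add_apply]
  push_cast
  rw [map_mul, Real.log_mul] <;>
    exact (map_ne_zero _).mpr (RingOfIntegers.coe_ne_zero_iff.mpr (Units.ne_zero _))

lemma unitLog_torsion {t : (𝓞 K)ˣ} (ht : t ∈ torsion K) : unitLog t = 0 := by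
  ext w
  simp [unitLog, (mem_torsion K).mp ht w]

/-- `unitLog` as a homomorphism. -/
def unitLogHom : (𝓞 K)ˣ →* Multiplicative (InfinitePlace K → ℝ) where
  toFun u := Multiplicative.ofAdd (unitLog u)
  map_one' := by simp [unitLog_torsion (one_mem _)]
  map_mul' u v := by simp [unitLog_mul]

lemma unitLog_eq_sum (u : (𝓞 K)ˣ) :
    unitLog u = ∑ i, (unitExpo u i : ℝ) • unitLog (fundSystem K i) := by
  conv_lhs => rw [unit_decomp u]
  rw [unitLog_mul, unitLog_torsion (unitsEquivProd u).1.2, zero_add]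
  have h := congrArg Multiplicative.toAdd
    (map_prod (unitLogHom (K := K)) (fun i => fundSystem K i ^ unitExpo u i) Finset.univ)
  simp only [toAdd_prod, map_zpow, toAdd_zpow] at h
  refine h.trans (Finset.sum_congr rfl fun i _ => ?_)
  ext w
  simp [unitLogHom]

variable (K) in
/-- `1` and the logarithms of a fundamental system. -/
def logFamily : Option (Fin (Units.rank K)) → (InfinitePlace K → ℝ)
  | none => fun _ => 1
  | some i => unitLog (fundSystem K i)

variable (K) in
lemma linearIndependent_logFamily : LinearIndependent ℝ (logFamily K) := by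
  rw [Fintype.linearIndependent_iff]
  intro g hg
  rw [Fintype.sum_option] at hg
  have hw : ∀ w : InfinitePlace K,
      g none + ∑ i, g (some i) * Real.log (w ((fundSystem K i : 𝓞 K) : K)) = 0 := fun w => by
    simpa [logFamily, unitLog] using congrFun hg w
  have hnone : g none = 0 := by
    have h : ∑ w : InfinitePlace K, (mult w : ℝ) *
        (g none + ∑ i, g (some i) * Real.log (w ((fundSystem K i : 𝓞 K) : K))) = 0 := by
      simp [hw]
    simp only [mul_add, Finset.sum_add_distrib, Finset.mul_sum] at h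
    rw [Finset.sum_comm (γ := InfinitePlace K)] at h
    have h0 : ∀ i, ∑ w : InfinitePlace K, (mult w : ℝ) *
        (g (some i) * Real.log (w ((fundSystem K i : 𝓞 K) : K))) = 0 := fun i => by
      simp_rw [mul_left_comm (_ : ℝ) (g (some i)), ← Finset.mul_sum]
      rw [Units.sum_mult_mul_log, mul_zero]
    simp only [h0, Finset.sum_const_zero, add_zero, ← Finset.sum_mul] at h
    exact (mul_eq_zero.mp h).resolve_left (by
      rw [← Nat.cast_sum, InfinitePlace.sum_mult_eq]
      exact Nat.cast_ne_zero.mpr finrank_pos.ne')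
  have hsome := Fintype.linearIndependent_iff.mp
    ((basisUnitLattice K).ofZLatticeBasis ℝ (unitLattice K)).linearIndependent (fun i => g (some i))
    (by
      ext w
      simp only [Basis.ofZLatticeBasis_apply, ← logEmbedding_fundSystem, Finset.sum_apply,
        Pi.smul_apply, smul_eq_mul, Pi.zero_apply, logEmbedding_component]
      have := hw w.1
      rw [hnone, zero_add] at this
      simp_rw [mul_left_comm (g _), ← Finset.mul_sum, this, mul_zero])
  rintro (_ | i)
  · exact hnone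
  · exact hsome i

variable (K) in
/-- A basis of `ℝ^(places)`. -/
def logBasis : Basis (Option (Fin (Units.rank K))) ℝ (InfinitePlace K → ℝ) :=
  basisOfLinearIndependentOfCardEqFinrank (linearIndependent_logFamily K) (by
    rw [Fintype.card_option, Fintype.card_fin, Module.finrank_fintype_fun_eq_card]
    have : 0 < Fintype.card (InfinitePlace K) := Fintype.card_pos
    simp only [Units.rank]; omega)

lemma coe_logBasis : (logBasis K : Option (Fin (Units.rank K)) → InfinitePlace K → ℝ) =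
    logFamily K := coe_basisOfLinearIndependentOfCardEqFinrank _ _

/-- The permutation action on `ℝ^(places)`. -/
def placePerm (σ : K ≃ₐ[ℚ] K) : (InfinitePlace K → ℝ) →ₗ[ℝ] (InfinitePlace K → ℝ) :=
  LinearMap.funLeft ℝ ℝ fun w => σ⁻¹ • w

lemma placePerm_unitLog (σ : K ≃ₐ[ℚ] K) (u : (𝓞 K)ˣ) :
    placePerm σ (unitLog u) = unitLog (galUnit σ u) := by
  ext w
  simp only [placePerm, LinearMap.funLeft_apply, unitLog, coe_galUnit]
  congr 1

lemma trace_galMatrix (σ : K ≃ₐ[ℚ] K) :
    (galMatrix K σ).trace + 1 =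
      ((Finset.univ.filter fun w : InfinitePlace K => σ • w = w).card : ℤ) := by
  have h1 := LinearMap.trace_eq_matrix_trace ℝ (logBasis K) (placePerm σ)
  have h2 := LinearMap.trace_eq_matrix_trace ℝ (Pi.basisFun ℝ (InfinitePlace K)) (placePerm σ)
  have hnone : LinearMap.toMatrix (logBasis K) (logBasis K) (placePerm σ) none none = 1 := by
    have h : placePerm σ (logBasis K none) = logBasis K none := by
      rw [coe_logBasis]; rfl
    rw [LinearMap.toMatrix_apply, h, Basis.repr_self, Finsupp.single_eq_same]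
  have hsome : ∀ j, LinearMap.toMatrix (logBasis K) (logBasis K) (placePerm σ) (some j) (some j) =
      (galMatrix K σ j j : ℝ) := by
    intro j
    have h : placePerm σ (logBasis K (some j)) =
        ∑ i, (galMatrix K σ i j : ℝ) • logBasis K (some i) := by
      rw [coe_logBasis]
      simp only [logFamily, galMatrix, Matrix.of_apply]
      rw [placePerm_unitLog, unitLog_eq_sum]
    rw [LinearMap.toMatrix_apply, h, map_sum, Finsupp.finsetSum_apply, Finset.sum_eq_single j]
    · simp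
    · intro i _ hi
      simp [hi]
    · intro h; exact absurd (Finset.mem_univ j) h
  have hfix : ∀ w : InfinitePlace K,
      LinearMap.toMatrix (Pi.basisFun ℝ (InfinitePlace K)) (Pi.basisFun ℝ (InfinitePlace K))
        (placePerm σ) w w = if σ • w = w then 1 else 0 := by
    intro w
    rw [LinearMap.toMatrix_apply, Pi.basisFun_apply, Pi.basisFun_repr]
    simp only [placePerm, LinearMap.funLeft_apply, Pi.single_apply]
    refine if_congr ?_ rfl rfl
    rw [inv_smul_eq_iff, eq_comm]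
  rw [h1, Matrix.trace, Fintype.sum_option] at h2
  simp only [Matrix.diag, hnone, hsome, Matrix.trace, hfix, Finset.sum_boole] at h2
  have : (((galMatrix K σ).trace + 1 : ℤ) : ℝ) =
      (((Finset.univ.filter fun w : InfinitePlace K => σ • w = w).card : ℤ) : ℝ) := by
    push_cast [Matrix.trace, Matrix.diag]
    rw [← h2]; ring
  exact_mod_cast this

end Expo

section Eigen

variable {p : ℕ} [hp : Fact p.Prime] {K : Type*} [Field K] [NumberField K]
  [IsCyclotomicExtension {p} ℚ K]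

lemma omega_coe_zeta (σ : K ≃ₐ[ℚ] K) :
    σ (zetaInt p K : K) = (zetaInt p K : K) ^ (omega p K σ : ZMod p).val := by
  have h := congrArg (fun x : 𝓞 K => (x : K)) (smul_zetaInt p K σ)
  simp only [map_pow] at h
  exact h

lemma omega_mem_pm_one (hp2 : 2 < p) {σ : K ≃ₐ[ℚ] K} {w : InfinitePlace K} (h : σ • w = w) :
    (omega p K σ : ZMod p) = 1 ∨ (omega p K σ : ZMod p) = -1 := by
  have : IsTotallyComplex K := IsCyclotomicExtension.Rat.isTotallyComplex (n := p) K hp2
  set φ := w.embedding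
  have h' : InfinitePlace.mk (φ.comp (σ.symm : K →+* K)) = InfinitePlace.mk φ := by
    rw [← InfinitePlace.comap_mk, InfinitePlace.mk_embedding]; exact h
  have hz : IsPrimitiveRoot (φ (zetaInt p K : K)) p :=
    ((IsCyclotomicExtension.zeta_spec p ℚ K)).map_of_injective φ.injective
  set a := (omega p K σ⁻¹ : ZMod p).val
  have ha : φ (σ.symm (zetaInt p K : K)) = φ (zetaInt p K : K) ^ a := by
    rw [← map_pow]; exact congrArg φ (omega_coe_zeta σ⁻¹)
  have key : (omega p K σ⁻¹ : ZMod p) = 1 ∨ (omega p K σ⁻¹ : ZMod p) = -1 := by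
    rcases InfinitePlace.mk_eq_iff.mp h' with h'' | h''
    · left
      have := RingHom.congr_fun h'' (zetaInt p K : K)
      rw [RingHom.comp_apply] at this
      have hpow : φ (zetaInt p K : K) ^ a = φ (zetaInt p K : K) ^ 1 := by
        rw [← ha, pow_one]; exact this
      have ha1 : a = 1 := hz.pow_inj (ZMod.val_lt _) hp.out.one_lt hpow
      have := congrArg (fun n : ℕ => (n : ZMod p)) ha1
      rwa [ZMod.natCast_zmod_val, Nat.cast_one] at this
    · right
      have := RingHom.congr_fun h'' (zetaInt p K : K)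
      rw [ComplexEmbedding.conjugate_coe_eq, RingHom.comp_apply] at this
      have hconj : (starRingEnd ℂ) (φ (zetaInt p K : K)) * φ (zetaInt p K : K) = 1 := by
        rw [mul_comm, Complex.mul_conj', Complex.norm_eq_one_of_pow_eq_one hz.pow_eq_one
          hp.out.ne_zero]
        simp
      have h1 : φ (zetaInt p K : K) ^ (a + 1) = 1 := by
        have h2 : (starRingEnd ℂ) (φ (zetaInt p K : K) ^ a) = φ (zetaInt p K : K) := by
          rw [← ha]; exact this
        have h3 : φ (zetaInt p K : K) ^ a = (starRingEnd ℂ) (φ (zetaInt p K : K)) := by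
          conv_rhs => rw [← h2, Complex.conj_conj]
        rw [pow_succ, h3, hconj]
      rw [hz.pow_eq_one_iff_dvd, ← ZMod.natCast_eq_zero_iff] at h1
      push_cast at h1
      simp only [a, ZMod.natCast_zmod_val] at h1
      exact eq_neg_of_add_eq_zero_left h1
  rw [map_inv, Units.val_inv_eq_inv_val] at key
  rcases key with k | k
  · left; exact inv_eq_one.mp k
  · right; rw [← inv_inv (omega p K σ : ZMod p), k, inv_neg, inv_one]

lemma card_stabilizer_place (hp2 : 2 < p) (w : InfinitePlace K) :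
    (Finset.univ.filter fun σ : K ≃ₐ[ℚ] K => σ • w = w).card = 2 := by
  have : IsTotallyComplex K := IsCyclotomicExtension.Rat.isTotallyComplex (n := p) K hp2
  have : IsGalois ℚ K := IsCyclotomicExtension.isGalois {p} ℚ K
  have hram : InfinitePlace.IsRamified ℚ w := by
    rw [InfinitePlace.isRamified_iff]
    exact ⟨IsTotallyComplex.isComplex w, IsTotallyReal.isReal _⟩
  have h : Nat.card (MulAction.stabilizer (K ≃ₐ[ℚ] K) w) = 2 :=
    InfinitePlace.isRamified_iff_card_stabilizer_eq_two.mp hram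
  rw [← h, Nat.card_eq_fintype_card, ← Fintype.card_subtype]
  rfl

lemma sum_inv_omega_sq_mul_trace (hp5 : 5 ≤ p) :
    ∑ σ : K ≃ₐ[ℚ] K, ((omega p K σ : ZMod p)⁻¹) ^ 2 * ((galMatrix K σ).trace : ZMod p) = -1 := by
  have : IsTotallyComplex K := IsCyclotomicExtension.Rat.isTotallyComplex (n := p) K (by omega)
  have h1 : ∀ σ : K ≃ₐ[ℚ] K, ((galMatrix K σ).trace : ZMod p) =
      (∑ w : InfinitePlace K, if σ • w = w then (1 : ZMod p) else 0) - 1 := fun σ => by
    rw [Finset.sum_boole, eq_sub_iff_add_eq]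
    exact_mod_cast congrArg (fun z : ℤ => (z : ZMod p)) (trace_galMatrix σ)
  simp only [h1, mul_sub, mul_one, Finset.sum_sub_distrib, Finset.mul_sum, mul_ite, mul_zero]
  have h0 : ∑ σ : K ≃ₐ[ℚ] K, ((omega p K σ : ZMod p)⁻¹) ^ 2 = 0 := by
    simp_rw [← Units.val_inv_eq_inv_val, ← map_inv]
    rw [← sum_units_sq (p := p) hp5]
    exact ((Equiv.inv (K ≃ₐ[ℚ] K)).trans (omega p K).toEquiv).sum_comp
      (fun v => ((v : ZMod p)) ^ 2)
  have hw : ∀ w : InfinitePlace K,
      ∑ σ : K ≃ₐ[ℚ] K, (if σ • w = w then ((omega p K σ : ZMod p)⁻¹) ^ 2 else 0) = 2 := by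
    intro w
    rw [← Finset.sum_filter, Finset.sum_congr rfl (g := fun _ => (1 : ZMod p)) fun σ hσ => by
      rcases omega_mem_pm_one (p := p) (by omega) (Finset.mem_filter.mp hσ).2 with h | h <;>
        simp [h],
      Finset.sum_const, card_stabilizer_place (p := p) (by omega)]
    simp
  rw [Finset.sum_comm, h0, sub_zero, Finset.sum_congr rfl fun w _ => hw w, Finset.sum_const,
    Finset.card_univ, nsmul_eq_mul]
  have hcard : Fintype.card (InfinitePlace K) * 2 = p - 1 := by
    rw [InfinitePlace.card_eq_nrRealPlaces_add_nrComplexPlaces]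
    have h := IsCyclotomicExtension.Rat.finrank p K
    rw [← InfinitePlace.card_add_two_mul_card_eq_rank] at h
    have hr : nrRealPlaces K = 0 := IsTotallyComplex.nrRealPlaces_eq_zero K
    rw [Nat.totient_prime hp.out] at h
    omega
  rw [← Nat.cast_ofNat (R := ZMod p) (n := 2), ← Nat.cast_mul, hcard,
    Nat.cast_sub hp.out.one_lt.le, ZMod.natCast_self, Nat.cast_one, zero_sub]

/-- `x ↦ x mod p`-th powers. -/
def modPow (p : ℕ) (K : Type*) [Field K] [NumberField K] :
    (𝓞 K)ˣ →* (𝓞 K)ˣ ⧸ (powMonoidHom p : (𝓞 K)ˣ →* (𝓞 K)ˣ).range :=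
  QuotientGroup.mk' _

omit hp [IsCyclotomicExtension {p} ℚ K] in
/-- Classes modulo `p`-th powers are killed by `p`. -/
lemma modPow_pow_self (x : (𝓞 K)ˣ) : modPow p K x ^ p = 1 := by
  rw [← map_pow]
  exact (QuotientGroup.eq_one_iff _).mpr ⟨x, rfl⟩

omit [IsCyclotomicExtension {p} ℚ K] in
lemma modPow_pow_congr (x : (𝓞 K)ˣ) {a b : ℕ} (h : (a : ZMod p) = b) :
    modPow p K x ^ a = modPow p K x ^ b := by
  rw [ZMod.natCast_eq_natCast_iff'] at h
  rw [← Nat.div_add_mod a p, ← Nat.div_add_mod b p, h, pow_add, pow_add, pow_mul, pow_mul,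
    modPow_pow_self, one_pow, one_pow]

/-- Lying in the `ω²`-component modulo `p`-th powers. -/
def IsOmegaSqUnit (v : (𝓞 K)ˣ) : Prop :=
  ∀ σ : K ≃ₐ[ℚ] K, modPow p K (galUnit σ v) = modPow p K v ^ omegaSq p K σ

lemma galUnit_quotUnit (τ σ : K ≃ₐ[ℚ] K) :
    galUnit τ (quotUnit p K σ) * quotUnit p K τ⁻¹ = quotUnit p K (σ * τ⁻¹) := by
  refine Units.ext (mul_right_cancel₀ (b := zetaInt p K - 1) ?_ ?_)
  · exact sub_ne_zero.mpr ((zetaInt_spec p K).ne_one hp.out.one_lt)
  · rw [Units.val_mul, mul_assoc, quotUnit_mul, quotUnit_mul, inv_inv, coe_galUnit, mul_inv_rev,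
      inv_inv, mul_smul]
    rw [show τ • zetaInt p K - 1 = τ • (zetaInt p K - 1) by rw [smul_sub, smul_one],
      ← smul_mul', quotUnit_mul, smul_sub, smul_one]

lemma isOmegaSqUnit_cycUnit (hp5 : 5 ≤ p) : IsOmegaSqUnit (p := p) (cycUnit p K) := by
  intro τ
  set q : (K ≃ₐ[ℚ] K) → (𝓞 K)ˣ := fun σ => quotUnit p K σ
  have hq : ∀ σ, galUnit τ (q σ) = q (σ * τ⁻¹) * (q τ⁻¹)⁻¹ := fun σ =>
    eq_mul_inv_iff_mul_eq.mpr (galUnit_quotUnit τ σ)
  have hN : (((∑ σ : K ≃ₐ[ℚ] K, omegaSq p K σ) : ℕ) : ZMod p) = 0 := by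
    push_cast
    simp only [natCast_omegaSq]
    rw [← sum_units_sq (p := p) hp5]
    exact (omega p K).toEquiv.sum_comp fun v => (v : ZMod p) ^ 2
  have e1 : galUnit τ (cycUnit p K) = (∏ σ : K ≃ₐ[ℚ] K, q (σ * τ⁻¹) ^ omegaSq p K σ) *
      ((q τ⁻¹)⁻¹) ^ (∑ σ : K ≃ₐ[ℚ] K, omegaSq p K σ) := by
    simp only [cycUnit, map_prod, map_pow]
    simp only [← show ∀ σ, q σ = quotUnit p K σ from fun σ => rfl, hq, mul_pow,
      Finset.prod_mul_distrib, Finset.prod_pow_eq_pow_sum]
  have e2 : cycUnit p K ^ omegaSq p K τ =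
      ∏ σ : K ≃ₐ[ℚ] K, q σ ^ (omegaSq p K σ * omegaSq p K τ) := by
    rw [cycUnit, ← Finset.prod_pow]
    exact Finset.prod_congr rfl fun σ _ => (pow_mul _ _ _).symm
  rw [← map_pow, e1, e2, map_mul, map_pow,
    modPow_pow_congr ((q τ⁻¹)⁻¹) (b := 0) (by rw [Nat.cast_zero]; exact hN), pow_zero, mul_one,
    map_prod, map_prod]
  refine Fintype.prod_equiv (Equiv.mulRight τ⁻¹) _ _ fun σ => ?_
  rw [Equiv.coe_mulRight, map_pow, map_pow]
  refine modPow_pow_congr _ ?_
  push_cast
  simp only [natCast_omegaSq]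
  rw [map_mul, map_inv, Units.val_mul, Units.val_inv_eq_inv_val]
  have := Units.ne_zero (omega p K τ)
  field_simp

lemma exists_zeta_pow_mul_pow_of_torsion (hp2 : p ≠ 2) {t : (𝓞 K)ˣ} (ht : t ∈ torsion K) :
    ∃ (k : ℕ) (z : (𝓞 K)ˣ), t = zetaUnit (p := p) (K := K) ^ k * z ^ p := by
  have hodd : ¬ Even p := Nat.not_even_iff_odd.mpr (hp.out.odd_of_ne_two hp2)
  have hord : t ^ (2 * p) = 1 := by
    have h := IsCyclotomicExtension.Rat.torsionOrder_eq (n := p) (K := K)
    rw [if_neg hodd] at h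
    rw [← h]
    exact congrArg Subtype.val (pow_card_eq_one' (x := (⟨t, ht⟩ : torsion K)))
  have h2 : (t ^ (p + 1)) ^ p = 1 := by
    obtain ⟨m, hm⟩ := hp.out.odd_of_ne_two hp2
    rw [← pow_mul, show (p + 1) * p = 2 * p * (m + 1) by rw [hm]; ring, pow_mul, hord, one_pow]
  obtain ⟨k, -, hk⟩ := (zetaInt_spec p K).eq_pow_of_pow_eq_one
    (ξ := ((t ^ (p + 1) : (𝓞 K)ˣ) : 𝓞 K))
    (by rw [← Units.val_pow_eq_pow_val, h2, Units.val_one])
  refine ⟨k, t⁻¹, ?_⟩
  have hk' : zetaUnit (p := p) (K := K) ^ k = t ^ (p + 1) := Units.ext (by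
    rw [Units.val_pow_eq_pow_val, zetaUnit, IsUnit.unit_spec, hk])
  rw [hk', inv_pow, pow_succ', mul_inv_cancel_right]

omit [IsCyclotomicExtension {p} ℚ K] in
lemma unitExpoMod_galUnit (σ : K ≃ₐ[ℚ] K) (v : (𝓞 K)ˣ) :
    (unitExpoMod p (galUnit σ v)).toAdd =
      ((galMatrix K σ).map fun z : ℤ => (z : ZMod p)).mulVec (unitExpoMod p v).toAdd := by
  ext i
  show ((unitExpo (galUnit σ v) i : ℤ) : ZMod p) = _
  rw [unitExpo_galUnit]
  simp [Matrix.mulVec, dotProduct, unitExpoMod]

/-- A unit in the `ω²`-component congruent to a `p`-th power mod `p` is a `p`-th power. -/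
theorem exists_pow_of_isOmegaSqUnit (hp5 : 5 ≤ p) {v : (𝓞 K)ˣ} (hv : IsOmegaSqUnit (p := p) v)
    {y : 𝓞 K} (hy : (p : 𝓞 K) ∣ (v : 𝓞 K) - y ^ p) : ∃ z : (𝓞 K)ˣ, v = z ^ p := by
  set A : (K ≃ₐ[ℚ] K) →
      (Fin (Units.rank K) → ZMod p) →ₗ[ZMod p] (Fin (Units.rank K) → ZMod p) := fun σ =>
    Matrix.toLin' ((galMatrix K σ).map fun z : ℤ => (z : ZMod p))
  set c : (K ≃ₐ[ℚ] K) → ZMod p := fun σ => ((omega p K σ : ZMod p)⁻¹) ^ 2
  set e : (Fin (Units.rank K) → ZMod p) →ₗ[ZMod p] (Fin (Units.rank K) → ZMod p) := -∑ σ, c σ • A σ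
  have hA : ∀ σ τ, A (σ * τ) = A σ ∘ₗ A τ := fun σ τ => by
    simp only [A, galMatrix_mul]
    rw [← Matrix.toLin'_mul]
    congr 1
    exact Matrix.map_mul (f := Int.castRingHom (ZMod p))
  have hc : ∀ σ τ, c (σ * τ) = c σ * c τ := fun σ τ => by
    simp only [c, map_mul, Units.val_mul, mul_inv, mul_pow]
  have hcard : (Fintype.card (K ≃ₐ[ℚ] K) : ZMod p) = -1 := by
    rw [← Nat.card_eq_fintype_card, Nat.card_congr (omega p K).toEquiv,
      Nat.card_eq_fintype_card, ZMod.card_units p, Nat.cast_sub hp.out.one_lt.le,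
      ZMod.natCast_self, Nat.cast_one, zero_sub]
  have hidem : e ∘ₗ e = e := by
    have h : (∑ σ, c σ • A σ) ∘ₗ (∑ σ, c σ • A σ) = (-1 : ZMod p) • ∑ σ, c σ • A σ := by
      rw [← Module.End.mul_eq_comp, Finset.sum_mul, ← hcard, Nat.cast_smul_eq_nsmul,
        ← Finset.card_univ, ← Finset.sum_const]
      refine Finset.sum_congr rfl fun σ _ => ?_
      rw [Finset.mul_sum]
      refine (Finset.sum_congr rfl ?_).trans (Equiv.sum_comp (Equiv.mulLeft σ) (fun ρ => c ρ • A ρ))
      intro τ _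
      rw [Equiv.coe_mulLeft, hc, hA, smul_mul_smul_comm, Module.End.mul_eq_comp]
    simp only [e, LinearMap.neg_comp, LinearMap.comp_neg, neg_neg, h]
    ext x i; simp
  have htr : LinearMap.trace (ZMod p) (Fin (Units.rank K) → ZMod p) e = 1 := by
    have hmat : ∀ σ, LinearMap.trace (ZMod p) (Fin (Units.rank K) → ZMod p) (A σ) =
        ((galMatrix K σ).trace : ZMod p) := by
      intro σ
      simp only [A]
      rw [Matrix.trace_toLin'_eq]
      simp [Matrix.trace, Matrix.diag]
    simp only [e, map_neg, map_sum, map_smul, hmat, smul_eq_mul, c]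
    rw [sum_inv_omega_sq_mul_trace hp5, neg_neg]
  have hrank : finrank (ZMod p) (LinearMap.range e) = 1 := by
    have hproj : LinearMap.IsProj (LinearMap.range e) e :=
      ⟨fun x => LinearMap.mem_range_self e x, fun x ⟨y, hy⟩ => by
        subst hy; exact LinearMap.congr_fun hidem y⟩
    have h := hproj.trace
    rw [htr] at h
    have hle : finrank (ZMod p) (LinearMap.range e) ≤ Units.rank K :=
      (Submodule.finrank_le _).trans_eq (Module.finrank_fin_fun _)
    have hr : Units.rank K < p - 1 := by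
      have h2 := InfinitePlace.card_add_two_mul_card_eq_rank K
      rw [IsCyclotomicExtension.Rat.finrank p K, Nat.totient_prime hp.out] at h2
      have h3 := InfinitePlace.card_eq_nrRealPlaces_add_nrComplexPlaces K
      have h4 : 0 < Fintype.card (InfinitePlace K) := Fintype.card_pos
      simp only [Units.rank]
      omega
    rw [← Nat.cast_one, ZMod.natCast_eq_natCast_iff', Nat.mod_eq_of_lt hp.out.one_lt,
      Nat.mod_eq_of_lt (by omega)] at h
    exact h.symm
  have hmem : ∀ x : (𝓞 K)ˣ, IsOmegaSqUnit (p := p) x →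
      (unitExpoMod p x).toAdd ∈ LinearMap.range e := by
    intro x hx
    have hAx : ∀ σ, A σ (unitExpoMod p x).toAdd =
        ((omega p K σ : ZMod p) ^ 2) • (unitExpoMod p x).toAdd := by
      intro σ
      simp only [A]
      rw [Matrix.toLin'_apply, ← unitExpoMod_galUnit]
      have h := hx σ
      rw [← map_pow, modPow, QuotientGroup.mk'_eq_mk'] at h
      obtain ⟨_, ⟨z, rfl⟩, hz⟩ := h
      have h2 := congrArg (fun w => (unitExpoMod p w).toAdd) hz
      simp only [powMonoidHom_apply, map_mul, map_pow, toAdd_mul, toAdd_pow] at h2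
      have hp0 : p • (unitExpoMod p z).toAdd = 0 := by
        ext i; simp
      rw [hp0, add_zero] at h2
      rw [h2, ← natCast_omegaSq, Nat.cast_smul_eq_nsmul]
    refine ⟨(unitExpoMod p x).toAdd, ?_⟩
    simp only [e, LinearMap.neg_apply, LinearMap.sum_apply, LinearMap.smul_apply, hAx, smul_smul]
    have : ∀ σ : K ≃ₐ[ℚ] K, c σ * (omega p K σ : ZMod p) ^ 2 = 1 := fun σ => by
      simp only [c]
      rw [← mul_pow, inv_mul_cancel₀ (Units.ne_zero _), one_pow]
    simp only [this, one_smul, Finset.sum_const, Finset.card_univ]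
    rw [← Nat.cast_smul_eq_nsmul (ZMod p), hcard, neg_one_smul, neg_neg]
  have hu0 : (unitExpoMod p (cycUnit p K)).toAdd ≠ 0 := by
    intro h
    have h' : unitExpoMod p (cycUnit p K) = 1 := toAdd_eq_zero.mp h
    obtain ⟨t, ht, z, hz⟩ := exists_torsion_mul_pow h'
    obtain ⟨k, w, rfl⟩ := exists_zeta_pow_mul_pow_of_torsion (p := p) (by omega) ht
    apply logTwo_cycUnit_ne_zero (K := K) hp5
    rw [hz, logTwo_mul, logTwo_mul, logTwo_pow, logTwo_pow, logTwo_pow, (log_zetaUnit hp5).2]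
    simp
  obtain ⟨a, ha⟩ := exists_smul_eq_of_finrank_eq_one hrank
    (x := ⟨_, hmem _ (isOmegaSqUnit_cycUnit hp5)⟩) (fun h => hu0 (congrArg Subtype.val h))
    ⟨_, hmem v hv⟩
  have ha' : a • (unitExpoMod p (cycUnit p K)).toAdd = (unitExpoMod p v).toAdd :=
    congrArg Subtype.val ha
  have hdiff : unitExpoMod p (v * (cycUnit p K ^ a.val)⁻¹) = 1 := by
    apply toAdd_eq_zero.mp
    rw [map_mul, map_inv, map_pow, toAdd_mul, toAdd_inv, toAdd_pow, ← ha',
      ← Nat.cast_smul_eq_nsmul (ZMod p), ZMod.natCast_zmod_val, add_neg_cancel]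
  obtain ⟨t, ht, z, hz⟩ := exists_torsion_mul_pow hdiff
  obtain ⟨k, w, rfl⟩ := exists_zeta_pow_mul_pow_of_torsion (p := p) (by omega) ht
  rw [mul_inv_eq_iff_eq_mul] at hz
  obtain ⟨hl1, hl2⟩ := log_eq_zero_of_congr_pow hp5 v y hy
  rw [hz, logTwo_mul, logTwo_mul, logTwo_mul, logTwo_pow, logTwo_pow, logTwo_pow, logTwo_pow,
    (log_zetaUnit hp5).2] at hl2
  simp only [mul_zero, ZMod.natCast_self, zero_mul, add_zero, zero_add, ZMod.natCast_zmod_val,
    mul_eq_zero] at hl2
  have ha0 : a = 0 := hl2.resolve_right (logTwo_cycUnit_ne_zero hp5)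
  subst ha0
  rw [ZMod.val_zero, pow_zero, mul_one] at hz
  rw [hz, logOne_mul, logOne_mul, logOne_pow, logOne_pow, logOne_pow, (log_zetaUnit hp5).1] at hl1
  simp only [mul_one, ZMod.natCast_self, zero_mul, add_zero, ZMod.natCast_eq_zero_iff] at hl1
  obtain ⟨m, rfl⟩ := hl1
  refine ⟨zetaUnit (p := p) (K := K) ^ m * w * z, ?_⟩
  rw [hz, mul_pow, mul_pow, ← pow_mul, mul_comm m p]

end Eigen

end FermatAgent.CFT
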