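import Fermat.Agent.CFT.Thaine
import Fermat.Agent.CFT.ClassDensity
import Fermat.Agent.CFT.UnitEigen
import Fermat.Prelude.Def_ClassGroup_GaloisAction

/-!
The `ω²`-component of the `p`-torsion of the class group of `ℚ(ζ_p)` is trivial for `p ≥ 5`
(`classGroup_eq_one_of_omegaSq`). A nontrivial class gives, by projection to the component, a
nontrivial `ω²`-equivariant functional on the class group. There is none
(`eq_one_of_isOmegaSqChar`): by Thaine's relation the cyclotomic unit `cycUnit` would be a `p`-th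
power modulo every prime of prime norm where the functional is nontrivial, so all these primes
would split completely in the extension by its `p`-th root (`exists_split_lift`), which the prime
sums of `ClassDensity` forbid.
-/

set_option autoImplicit false

noncomputable section

open NumberField Polynomial IsDedekindDomain
open scoped Classical nonZeroDivisors Pointwise

namespace FermatAgent.CFT

variable {p : ℕ} [hp : Fact p.Prime] {K : Type} [Field K] [NumberField K]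
  [IsCyclotomicExtension {p} ℚ K]

/-- The Galois action on the class group. -/
def galClass (σ : K ≃ₐ[ℚ] K) : ClassGroup (𝓞 K) ≃* ClassGroup (𝓞 K) :=
  ClassGroup.mulEquiv (MulSemiringAction.toRingEquiv (K ≃ₐ[ℚ] K) (𝓞 K) σ)

omit hp [IsCyclotomicExtension {p} ℚ K] in
/-- The class of the conjugate of an ideal is the conjugate of its class. -/
lemma galClass_mk0 (σ : K ≃ₐ[ℚ] K) (I J : (Ideal (𝓞 K))⁰)
    (h : (J : Ideal (𝓞 K)) = σ • (I : Ideal (𝓞 K))) :
    galClass σ (ClassGroup.mk0 I) = ClassGroup.mk0 J := by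
  rw [galClass, ClassGroup.mulEquiv_mk0]
  congr 1
  apply Subtype.ext
  rw [Ideal.coe_mapNonZero, h, Ideal.pointwise_smul_def]
  rfl

omit hp [IsCyclotomicExtension {p} ℚ K] in
lemma galClass_mul (σ τ : K ≃ₐ[ℚ] K) (C : ClassGroup (𝓞 K)) :
    galClass (σ * τ) C = galClass σ (galClass τ C) := by
  obtain ⟨I, rfl⟩ := ClassGroup.mk0_surjective C
  have h1 : τ • (I : Ideal (𝓞 K)) ∈ (Ideal (𝓞 K))⁰ := mem_nonZeroDivisors_iff_ne_zero.mpr fun h =>
    nonZeroDivisors.coe_ne_zero I (by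
      rw [← inv_smul_smul τ (I : Ideal (𝓞 K)), h, Ideal.zero_eq_bot, Ideal.pointwise_smul_def,
        Ideal.map_bot])
  have h2 : (σ * τ) • (I : Ideal (𝓞 K)) ∈ (Ideal (𝓞 K))⁰ := mem_nonZeroDivisors_iff_ne_zero.mpr
    fun h => nonZeroDivisors.coe_ne_zero I (by
      rw [← inv_smul_smul (σ * τ) (I : Ideal (𝓞 K)), h, Ideal.zero_eq_bot, Ideal.pointwise_smul_def,
        Ideal.map_bot])
  rw [galClass_mk0 τ I ⟨_, h1⟩ rfl, galClass_mk0 σ ⟨_, h1⟩ ⟨_, h2⟩ (mul_smul σ τ _),
    galClass_mk0 (σ * τ) I ⟨_, h2⟩ rfl]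

lemma cycUnit_not_pow (hp5 : 5 ≤ p) (x : K) : x ^ p ≠ ((cycUnit p K : 𝓞 K) : K) := by
  intro h
  have hx : IsIntegral ℤ x := IsIntegral.of_pow hp.out.pos (by
    rw [h]; exact (cycUnit p K : 𝓞 K).2)
  exact logTwo_cycUnit_ne_zero (K := K) hp5 (log_eq_zero_of_congr_pow hp5 (cycUnit p K) ⟨x, hx⟩
    ⟨0, by rw [mul_zero, sub_eq_zero]; exact RingOfIntegers.ext h.symm⟩).2

omit [NumberField K] [IsCyclotomicExtension {p} ℚ K] in
lemma pow_ne_mem_of_unit_congr {P : Ideal (𝓞 K)} [P.IsPrime] (u : (𝓞 K)ˣ) {y : 𝓞 K}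
    (h : (u : 𝓞 K) - y ^ p ∈ P) : y ∉ P := fun hy =>
  Ideal.IsPrime.ne_top inferInstance (P.eq_top_of_isUnit_mem (by
    have := P.add_mem h (P.pow_mem_of_mem hy p hp.out.pos)
    rwa [sub_add_cancel] at this) u.isUnit)

/-- The extension `K(c^{1/p})`. -/
abbrev KummerField (p : ℕ) (K : Type) [Field K] [NumberField K] [Fact p.Prime]
    [IsCyclotomicExtension {p} ℚ K] : Type :=
  AdjoinRoot (X ^ p - C ((cycUnit p K : 𝓞 K) : K))

/-- If `ζ ^ a β` and `ζ ^ b β` are congruent to the same `ζ ^ i y` modulo an ideal over a prime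
`P` avoiding `p` and `y`, then `a` and `b` differ by a multiple of `p`. -/
private lemma false_of_root_congr {L : Type} [Field L]
    [Algebra K L] {P : Ideal (𝓞 K)} (hP : P.IsPrime) (hpP : (p : 𝓞 K) ∉ P) {y : 𝓞 K}
    (hyP : y ∉ P) {Q : Ideal (𝓞 L)} (hQ : Q.comap (algebraMap (𝓞 K) (𝓞 L)) = P) {β : 𝓞 L}
    {a b i : ℕ} (hab : a < b) (hb : b < p)
    (h1 : algebraMap (𝓞 K) (𝓞 L) (zetaInt p K) ^ a * β -
      algebraMap (𝓞 K) (𝓞 L) (zetaInt p K) ^ i * algebraMap (𝓞 K) (𝓞 L) y ∈ Q)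
    (h1' : algebraMap (𝓞 K) (𝓞 L) (zetaInt p K) ^ b * β -
      algebraMap (𝓞 K) (𝓞 L) (zetaInt p K) ^ i * algebraMap (𝓞 K) (𝓞 L) y ∈ Q) : False := by
  set ι := algebraMap (𝓞 K) (𝓞 L)
  obtain ⟨d, rfl⟩ := Nat.exists_eq_add_of_lt hab
  have h2 := Q.sub_mem (Ideal.mul_mem_left _ (ι (zetaInt p K) ^ (d + 1)) h1) h1'
  rw [Nat.add_assoc a d 1, pow_add (ι _) a (d + 1)] at h2
  have hco : (d + 1).Coprime p := ((hp.out.coprime_iff_not_dvd).mpr fun hdvd => by
    have := Nat.le_of_dvd (Nat.succ_pos d) hdvd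
    omega).symm
  obtain ⟨u, hu⟩ := (zetaInt_spec p K).associated_sub_one_pow_sub_one_of_coprime hco
  have h3 : ι (zetaInt p K ^ i * y * ((zetaInt p K - 1) * u)) ∈ Q := by
    rw [hu]
    simp only [map_mul, map_pow, map_sub, map_one]
    rw [show ι (zetaInt p K) ^ i * ι y * (ι (zetaInt p K) ^ (d + 1) - 1) =
      -(ι (zetaInt p K) ^ (d + 1) * (ι (zetaInt p K) ^ a * β - ι (zetaInt p K) ^ i * ι y) -
        (ι (zetaInt p K) ^ a * ι (zetaInt p K) ^ (d + 1) * β -
          ι (zetaInt p K) ^ i * ι y)) by ring]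
    exact Q.neg_mem h2
  rw [← Ideal.mem_comap, hQ] at h3
  have hz : IsUnit (zetaInt p K) := (zetaInt_spec p K).isUnit hp.out.ne_zero
  rcases hP.mem_or_mem h3 with h | h
  · rcases hP.mem_or_mem h with h | h
    · exact hP.ne_top (P.eq_top_of_isUnit_mem h (hz.pow _))
    · exact hyP h
  · rcases hP.mem_or_mem h with h | h
    · exact hpP (P.mem_of_dvd ((zetaInt_spec p K).sub_one_dvd_natCast hp.out.one_lt) h)
    · exact hP.ne_top (P.eq_top_of_isUnit_mem h u.isUnit)

omit hp [IsCyclotomicExtension {p} ℚ K] in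
/-- If a prime of prime norm has as many primes above it as the degree, all have the same norm. -/
private lemma absNorm_eq_of_card {L : Type} [Field L] [NumberField L] [Algebra K L]
    {P : HeightOneSpectrum (𝓞 K)} (hℓ : (Ideal.absNorm P.asIdeal).Prime)
    {f₀ : Fin p → Ideal (𝓞 L)} (hfr : Module.finrank (𝓞 K) (𝓞 L) = p)
    (hmax : ∀ j, (f₀ j).IsMaximal) (hinj₀ : Function.Injective f₀) (hne : ∀ j, f₀ j ≠ ⊥)
    (hcomap : ∀ j, (f₀ j).comap (algebraMap (𝓞 K) (𝓞 L)) = P.asIdeal) (j : Fin p) :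
    Ideal.absNorm (f₀ j) = Ideal.absNorm P.asIdeal := by
  set ι := algebraMap (𝓞 K) (𝓞 L)
  set ℓ := Ideal.absNorm P.asIdeal
  have hdvd : ∏ j, f₀ j ∣ P.asIdeal.map ι := by
    refine Finset.prod_dvd_of_coprime (fun a _ b _ hab => ?_) fun j _ => ?_
    · exact Ideal.isCoprime_iff_sup_eq.mpr
        ((hmax a).coprime_of_ne (hmax b) fun h => hab (hinj₀ h))
    · exact Ideal.dvd_iff_le.mpr (Ideal.map_le_iff_le_comap.mpr (hcomap j).ge)
  have hN : ∀ j, ℓ ∣ Ideal.absNorm (f₀ j) := fun j => by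
    have h1 := Ideal.absNorm_mem (f₀ j)
    have h2 : (Ideal.absNorm (f₀ j) : 𝓞 K) ∈ P.asIdeal := by
      rw [← hcomap j, Ideal.mem_comap, map_natCast]; exact h1
    by_contra hd
    exact mem_of_natCast_prime P.isPrime.ne_top ((hℓ.coprime_iff_not_dvd).mpr hd)
      (Ideal.absNorm_mem _) h2
  have h := Nat.le_of_dvd (by
    rw [Ideal.absNorm_algebraMap]; exact pow_pos hℓ.pos _) (map_dvd Ideal.absNorm hdvd)
  rw [map_prod, Ideal.absNorm_algebraMap, hfr] at h
  by_contra hj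
  have hlt : ℓ < Ideal.absNorm (f₀ j) := lt_of_le_of_ne (Nat.le_of_dvd (Nat.pos_of_ne_zero
    (Ideal.absNorm_eq_zero_iff.not.mpr (hne j))) (hN j)) (Ne.symm hj)
  have h' : ∏ _i : Fin p, ℓ < ∏ i, Ideal.absNorm (f₀ i) := by
    refine Finset.prod_lt_prod (fun i _ => hℓ.pos) (fun i _ => Nat.le_of_dvd (Nat.pos_of_ne_zero
      (Ideal.absNorm_eq_zero_iff.not.mpr (hne i))) (hN i)) ⟨j, Finset.mem_univ _, hlt⟩
  rw [Finset.prod_const, Finset.card_univ, Fintype.card_fin] at h'
  exact absurd h (not_le.mpr h')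

variable (p K) in
lemma exists_split_lift (hp5 : 5 ≤ p) :
    ∃ (L : Type) (_ : Field L) (_ : NumberField L) (φ : 𝓞 K →+* 𝓞 L),
      ∀ P : HeightOneSpectrum (𝓞 K), (Ideal.absNorm P.asIdeal).Prime → (p : 𝓞 K) ∉ P.asIdeal →
        (∃ y : 𝓞 K, (cycUnit p K : 𝓞 K) - y ^ p ∈ P.asIdeal) →
        ∃ f : Fin p → HeightOneSpectrum (𝓞 L), Function.Injective f ∧
          (∀ i, Ideal.absNorm (f i).asIdeal = Ideal.absNorm P.asIdeal) ∧
          ∀ i, (f i).asIdeal.comap φ = P.asIdeal := by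
  have hirr : Irreducible (X ^ p - C ((cycUnit p K : 𝓞 K) : K)) :=
    X_pow_sub_C_irreducible_of_prime hp.out (cycUnit_not_pow hp5)
  have : Fact (Irreducible (X ^ p - C ((cycUnit p K : 𝓞 K) : K))) := ⟨hirr⟩
  have : FiniteDimensional K (KummerField p K) :=
    (AdjoinRoot.powerBasis hirr.ne_zero).finite
  have : CharZero (KummerField p K) := charZero_of_injective_algebraMap
    (algebraMap K (KummerField p K)).injective
  have : NumberField (KummerField p K) :=
    { to_charZero := inferInstance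
      to_finiteDimensional := Module.Finite.trans K (KummerField p K) }
  refine ⟨KummerField p K, inferInstance, inferInstance, algebraMap (𝓞 K) (𝓞 (KummerField p K)),
    fun P hℓ hpP ⟨y, hy⟩ => ?_⟩
  set L := KummerField p K
  set ι := algebraMap (𝓞 K) (𝓞 L)
  have hrootpow : (AdjoinRoot.root (X ^ p - C ((cycUnit p K : 𝓞 K) : K)) : L) ^ p =
      algebraMap K L ((cycUnit p K : 𝓞 K) : K) := by
    have h := AdjoinRoot.eval₂_root (X ^ p - C ((cycUnit p K : 𝓞 K) : K))
    rw [eval₂_sub, eval₂_pow, eval₂_X, eval₂_C, sub_eq_zero] at h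
    exact h
  have hint : IsIntegral ℤ (AdjoinRoot.root (X ^ p - C ((cycUnit p K : 𝓞 K) : K)) : L) :=
    IsIntegral.of_pow hp.out.pos (by
      rw [hrootpow]; exact IsIntegral.algebraMap (cycUnit p K : 𝓞 K).2)
  set β : 𝓞 L := ⟨_, hint⟩
  have hβ : β ^ p = ι (cycUnit p K : 𝓞 K) := RingOfIntegers.ext hrootpow
  obtain ⟨Q, hQm, hQ⟩ := Ideal.exists_maximal_ideal_liesOver_of_isIntegral (S := 𝓞 L) P.asIdeal
  have hQc : Q.comap ι = P.asIdeal := hQ.over.symm
  have hζ : IsPrimitiveRoot (ι (zetaInt p K)) p :=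
    (zetaInt_spec p K).map_of_injective (FaithfulSMul.algebraMap_injective _ _)
  -- some root is congruent to `β`
  have hprod : ∏ i ∈ Finset.range p, (β - ι (zetaInt p K) ^ i * ι y) ∈ Q := by
    have h := congrArg (Polynomial.eval β)
      (X_pow_sub_C_eq_prod (n := p) hζ hp.out.pos (rfl : (ι y) ^ p = _))
    simp only [eval_sub, eval_pow, eval_X, eval_C, eval_prod] at h
    rw [← h, hβ, ← map_pow, ← map_sub, ← Ideal.mem_comap, hQc]
    exact hy
  obtain ⟨i₀, hi₀, hi₀Q⟩ := (Ideal.IsPrime.prod_mem_iff (hp := hQm.isPrime)).mp hprod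
  -- the automorphisms
  let η : rootsOfUnity p K :=
    rootsOfUnity.mkOfPowEq ((zetaInt p K : 𝓞 K) : K) (by
      rw [← map_pow]; rw [(zetaInt_spec p K).pow_eq_one, map_one])
  let σ : L ≃ₐ[K] L := autAdjoinRootXPowSubC p _ η
  have hσι : ∀ (τ : L ≃ₐ[K] L) (x : 𝓞 K), τ • ι x = ι x := fun τ x =>
    RingOfIntegers.ext (τ.commutes (x : K))
  have hσβ : ∀ j : ℕ, (σ ^ j) • β = ι (zetaInt p K) ^ j * β := by
    intro j
    induction j with
    | zero => simp
    | succ j ih =>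
      rw [pow_succ', mul_smul, ih, smul_mul', smul_pow', hσι]
      have h1 : σ • β = ι (zetaInt p K) * β := by
        apply RingOfIntegers.ext
        show autAdjoinRootXPowSubC p _ η (AdjoinRoot.root _) = _
        rw [autAdjoinRootXPowSubC_root, Algebra.smul_def]
        rfl
      rw [h1, pow_succ, mul_assoc]
  set f₀ : Fin p → Ideal (𝓞 L) := fun j => (σ ^ (j : ℕ)) • Q
  have hmemj : ∀ j : Fin p,
      ι (zetaInt p K) ^ (j : ℕ) * β - ι (zetaInt p K) ^ i₀ * ι y ∈ f₀ j := by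
    intro j
    have h := Ideal.smul_mem_pointwise_smul (σ ^ (j : ℕ)) _ _ hi₀Q
    rwa [smul_sub, smul_mul', smul_pow', hσι, hσι, hσβ] at h
  have hmax : ∀ j, (f₀ j).IsMaximal := fun j => by
    simp only [f₀]
    rw [Ideal.pointwise_smul_def]
    exact Ideal.map_isMaximal_of_equiv
      (MulSemiringAction.toRingEquiv (L ≃ₐ[K] L) (𝓞 L) (σ ^ (j : ℕ)))
  have hcomap : ∀ j, (f₀ j).comap ι = P.asIdeal := fun j => by
    rw [← hQc]; ext x
    simp only [f₀, Ideal.mem_comap]
    rw [← hσι (σ ^ (j : ℕ)) x, Ideal.smul_mem_pointwise_smul_iff, hσι]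
  have hyP : y ∉ P.asIdeal :=
    have := P.isPrime
    pow_ne_mem_of_unit_congr (cycUnit p K) hy
  have hinj₀ : Function.Injective f₀ := by
    intro a b h
    rcases lt_trichotomy (a : ℕ) b with h' | h' | h'
    · exact (false_of_root_congr P.isPrime hpP hyP (hcomap b) h' b.2 (h ▸ hmemj a) (hmemj b)).elim
    · exact Fin.ext h'
    · exact (false_of_root_congr P.isPrime hpP hyP (hcomap a) h' a.2 (h.symm ▸ hmemj b)
        (hmemj a)).elim
  have hne : ∀ j, f₀ j ≠ ⊥ := fun j h => P.ne_bot (by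
    rw [← hcomap j, h]; exact Ideal.comap_bot_of_injective _
      (FaithfulSMul.algebraMap_injective _ _))
  have hfr : Module.finrank (𝓞 K) (𝓞 L) = p := by
    rw [← IsFractionRing.finrank_eq (𝓞 K) K (𝓞 L) L, (AdjoinRoot.powerBasis hirr.ne_zero).finrank,
      AdjoinRoot.powerBasis_dim, natDegree_X_pow_sub_C]
  exact ⟨fun j => ⟨f₀ j, (hmax j).isPrime, hne j⟩,
    fun a b h => hinj₀ (congrArg HeightOneSpectrum.asIdeal h),
    absNorm_eq_of_card hℓ hfr hmax hinj₀ hne hcomap, hcomap⟩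

/-- A nontrivial `ω²`-equivariant functional on the class group does not exist. -/
lemma eq_one_of_isOmegaSqChar (hp5 : 5 ≤ p) (ψ : ClassGroup (𝓞 K) →* Multiplicative (ZMod p))
    (hψ : IsOmegaSqChar ψ) : ψ = 1 := by
  by_contra hne
  have hp0 : (p : 𝓞 K) ≠ 0 := Nat.cast_ne_zero.mpr hp.out.ne_zero
  let χ : ClassGroup (𝓞 K) →* ℂˣ :=
    ((ZMod.stdAddChar (N := p)).toMonoidHom.toHomUnits).comp ψ
  have hχ : χ ≠ 1 := by
    intro h
    refine hne (MonoidHom.ext fun C => ?_)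
    have h1 := congrArg Units.val (DFunLike.congr_fun h C)
    simp only [χ, MonoidHom.comp_apply, MonoidHom.coe_toHomUnits, MonoidHom.one_apply,
      Units.val_one] at h1
    exact Multiplicative.toAdd.injective (ZMod.injective_stdAddChar
      (h1.trans (AddChar.map_zero_eq_one _).symm))
  obtain ⟨L, _, _, φ, hL⟩ := exists_split_lift p K hp5
  set E := (Ideal.finite_factors (I := Ideal.span {(p : 𝓞 K)})
    (by rwa [Ne, Ideal.zero_eq_bot, Ideal.span_singleton_eq_bot])).toFinset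
  set T : Set (HeightOneSpectrum (𝓞 K)) := {P | (Ideal.absNorm P.asIdeal).Prime ∧
    (p : 𝓞 K) ∉ P.asIdeal ∧ ∃ y : 𝓞 K, (cycUnit p K : 𝓞 K) - y ^ p ∈ P.asIdeal}
  choose f hfinj hfN hfφ using fun P : T => hL P.1 P.2.1 P.2.2.1 P.2.2.2
  refine false_of_classChar_split χ hχ (p := p) (by omega) L T E ?_ (fun z => f z.1 z.2) ?_
    fun z => hfN z.1 z.2
  · intro P hP hPp hPE
    have hpP : (p : 𝓞 K) ∉ P.asIdeal := fun h => hPE (by
      rw [Set.Finite.mem_toFinset]
      exact Ideal.dvd_span_singleton.mpr h)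
    have := P.isPrime
    refine ⟨hPp, hpP, exists_pow_congr_cycUnit hp5 ψ hψ P.asIdeal P.ne_bot hPp hpP fun h => hP ?_⟩
    show χ (ClassGroup.mk0 (primeIdeal P)) = 1
    rw [MonoidHom.comp_apply, show ψ (ClassGroup.mk0 (primeIdeal P)) = 1 from h, map_one]
  · rintro ⟨P, i⟩ ⟨P', i'⟩ h
    have hsame : P.1.asIdeal = P'.1.asIdeal := by
      rw [← hfφ P i, ← hfφ P' i', show f P i = f P' i' from h]
    have hP : P = P' := Subtype.ext (HeightOneSpectrum.ext hsame)
    subst hP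
    exact Prod.ext rfl (hfinj P h)

/-- The `ω²`-part of the `p`-torsion of the class group is trivial. -/
theorem classGroup_eq_one_of_omegaSq (hp5 : 5 ≤ p) (C : ClassGroup (𝓞 K)) (hC : C ^ p = 1)
    (hσ : ∀ σ : K ≃ₐ[ℚ] K, galClass σ C = C ^ omegaSq p K σ) : C = 1 := by
  by_contra hne
  set n : (K ≃ₐ[ℚ] K) → ℕ := fun σ => omegaSq p K σ⁻¹
  let T : ClassGroup (𝓞 K) →* ClassGroup (𝓞 K) :=
    ∏ σ : K ≃ₐ[ℚ] K, (galClass σ).toMonoidHom ^ n σ
  have hT : ∀ x, T x = ∏ σ : K ≃ₐ[ℚ] K, galClass σ x ^ n σ := fun x => by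
    simp [T, MonoidHom.finsetProd_apply]
  have hpow : ∀ (x : ClassGroup (𝓞 K)) (a b : ℕ), (a : ZMod p) = b →
      ∃ z, x ^ a = x ^ b * z ^ p ∨ x ^ b = x ^ a * z ^ p := by
    intro x a b h
    rw [ZMod.natCast_eq_natCast_iff'] at h
    rcases le_total b a with hle | hle
    · obtain ⟨k, hk⟩ := (Nat.modEq_iff_dvd' hle).mp h.symm
      exact ⟨x ^ k, Or.inl (by rw [← pow_mul, mul_comm k, ← hk, ← pow_add]; congr 1; omega)⟩
    · obtain ⟨k, hk⟩ := (Nat.modEq_iff_dvd' hle).mp h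
      exact ⟨x ^ k, Or.inr (by rw [← pow_mul, mul_comm k, ← hk, ← pow_add]; congr 1; omega)⟩
  have hCp : ∀ a b : ℕ, (a : ZMod p) = b → C ^ a = C ^ b := by
    intro a b h
    rw [ZMod.natCast_eq_natCast_iff'] at h
    rw [← Nat.div_add_mod a p, ← Nat.div_add_mod b p, h, pow_add, pow_add, pow_mul, pow_mul, hC,
      one_pow, one_pow]
  have hTC : T C = C ^ (p - 1) := by
    rw [hT]
    simp only [hσ, ← pow_mul, Finset.prod_pow_eq_pow_sum]
    refine hCp _ _ ?_
    push_cast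
    simp only [n, natCast_omegaSq]
    rw [Finset.sum_congr rfl (g := fun _ => (1 : ZMod p)) fun σ _ => by
        rw [map_inv, Units.val_inv_eq_inv_val, ← mul_pow,
          mul_inv_cancel₀ (Units.ne_zero _), one_pow],
      Finset.sum_const, Finset.card_univ, ← Nat.card_eq_fintype_card,
      Nat.card_congr (omega p K).toEquiv, Nat.card_eq_fintype_card, ZMod.card_units p, nsmul_eq_mul,
      mul_one]
  -- some `T x` is not a `p`-th power
  obtain ⟨x₀, hx₀⟩ : ∃ x, ∀ z, T x ≠ z ^ p := by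
    by_contra hc
    push Not at hc
    have hall : ∀ (k : ℕ) (x : ClassGroup (𝓞 K)), ∃ z, (T ^[k]) x = z ^ p ^ k := by
      intro k
      induction k with
      | zero => intro x; exact ⟨x, by simp⟩
      | succ k ih =>
        intro x
        obtain ⟨z, hz⟩ := ih x
        obtain ⟨w, hw⟩ := hc z
        exact ⟨w, by rw [Function.iterate_succ_apply', hz, map_pow, hw, ← pow_mul, pow_succ']⟩
    set k := Fintype.card (ClassGroup (𝓞 K))
    have hiter : ∀ j, (T ^[j]) C = C ^ (p - 1) ^ j := by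
      intro j
      induction j with
      | zero => simp
      | succ j ih => rw [Function.iterate_succ_apply', ih, map_pow, hTC, ← pow_mul, pow_succ']
    obtain ⟨z, hz⟩ := hall k C
    rw [hiter] at hz
    have h1 : z ^ p ^ (k + 1) = 1 := by
      rw [pow_succ, pow_mul, ← hz, ← pow_mul, mul_comm, pow_mul, hC, one_pow]
    have h2 : ¬ z ^ p ^ k = 1 := by
      rw [← hz]
      intro h
      have hco : ((p - 1) ^ k).Coprime p := Nat.Coprime.pow_left _ ((hp.out.coprime_iff_not_dvd.mpr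
        fun hd => by have := Nat.le_of_dvd (by omega) hd; omega).symm)
      have hord : orderOf C = p := orderOf_eq_prime hC hne
      have := orderOf_dvd_iff_pow_eq_one.mpr h
      rw [hord] at this
      exact (hp.out.coprime_iff_not_dvd.mp hco.symm) this
    have := orderOf_eq_prime_pow h2 h1
    have hle := Nat.le_of_dvd Fintype.card_pos (this ▸ orderOf_dvd_card)
    exact absurd hle (not_le.mpr ((Nat.lt_pow_self hp.out.one_lt).trans_le
      (Nat.pow_le_pow_right hp.out.pos (Nat.le_succ k))))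
  -- a functional
  let M := JacobiSumStickelberger.ModP p (Additive (ClassGroup (𝓞 K)))
  let π : Additive (ClassGroup (𝓞 K)) →+ M := JacobiSumStickelberger.ModP.proj p _
  have hne' : π (Additive.ofMul (T x₀)) ≠ 0 := fun h => by
    obtain ⟨y, hy⟩ := (JacobiSumStickelberger.ModP.proj_eq_zero_iff p _).mp h
    exact hx₀ (Additive.toMul y) ((congrArg Additive.toMul hy).symm.trans (toMul_nsmul _ _))
  obtain ⟨fl, hfl⟩ := Module.Projective.exists_dual_ne_zero (ZMod p) hne'
  let ψ : ClassGroup (𝓞 K) →* Multiplicative (ZMod p) :=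
    (AddMonoidHom.toMultiplicativeRight (fl.toAddMonoidHom.comp π)).comp T
  have hψp : ∀ z : ClassGroup (𝓞 K), ∀ h : Multiplicative (ZMod p), h ^ p = 1 := fun _ h => by
    apply Multiplicative.toAdd.injective
    rw [toAdd_pow, toAdd_one, nsmul_eq_mul, ZMod.natCast_self, zero_mul]
  have hψ : IsOmegaSqChar ψ := by
    intro τ I J hJ
    rw [← galClass_mk0 τ I J hJ]
    set c := ClassGroup.mk0 I
    set g : ClassGroup (𝓞 K) →* Multiplicative (ZMod p) :=
      AddMonoidHom.toMultiplicativeRight (fl.toAddMonoidHom.comp π)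
    show g (T (galClass τ c)) = g (T c) ^ omegaSq p K τ
    rw [hT, hT, map_prod, map_prod, ← Finset.prod_pow]
    refine Fintype.prod_equiv (Equiv.mulRight τ) _ _ fun σ => ?_
    rw [map_pow, map_pow, Equiv.coe_mulRight, galClass_mul, ← pow_mul]
    obtain ⟨z, hz⟩ := hpow (galClass σ (galClass τ c)) (n σ) (n (σ * τ) * omegaSq p K τ) (by
      push_cast
      simp only [n, natCast_omegaSq]
      rw [mul_inv_rev, map_mul, Units.val_mul, map_inv, map_inv, Units.val_inv_eq_inv_val,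
        Units.val_inv_eq_inv_val]
      have := Units.ne_zero (omega p K τ)
      field_simp)
    rw [← map_pow g, ← map_pow g]
    rcases hz with hz | hz <;> rw [hz, map_mul, map_pow g z p, hψp z, mul_one]
  have h1 := DFunLike.congr_fun (eq_one_of_isOmegaSqChar hp5 ψ hψ) x₀
  exact hfl (Multiplicative.ofAdd.injective h1)

end FermatAgent.CFT
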