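import Fermat.Agent.CFT.LatticeSum

/-!
Partial zeta functions of ideal classes agree up to a bounded error near `s = 1`, so that the
`L`-series of a nontrivial class group character stays bounded as `s → 1+`.
-/

set_option autoImplicit false

noncomputable section

open NumberField NumberField.mixedEmbedding NumberField.InfinitePlace Module Filter Topology
open NumberField.Units NumberField.Units.dirichletUnitTheorem
open scoped Classical nonZeroDivisors

namespace FermatAgent.CFT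

variable {K : Type*} [Field K] [NumberField K]

/-- `N(I) ^ (-s)`. -/
def normPow (s : ℝ) (I : (Ideal (𝓞 K))⁰) : ℝ := (Ideal.absNorm (I : Ideal (𝓞 K)) : ℝ) ^ (-s)

/-- Nonzero ideals have positive norm. -/
lemma absNorm_pos (I : (Ideal (𝓞 K))⁰) : 0 < (Ideal.absNorm (I : Ideal (𝓞 K)) : ℝ) := by
  exact_mod_cast Nat.pos_of_ne_zero
    (Ideal.absNorm_eq_zero_iff.not.mpr (nonZeroDivisors.coe_ne_zero I))

/-- The norm powers are positive. -/
lemma normPow_pos (s : ℝ) (I : (Ideal (𝓞 K))⁰) : 0 < normPow s I :=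
  Real.rpow_pos_of_pos (absNorm_pos I) _

/-- Every inverse class contains an integral ideal. -/
lemma exists_mk0_eq_inv (C : ClassGroup (𝓞 K)) : ∃ J : (Ideal (𝓞 K))⁰, ClassGroup.mk0 J = C⁻¹ :=
  ClassGroup.mk0_surjective _

lemma exists_gen (J I : (Ideal (𝓞 K))⁰) (h : ClassGroup.mk0 J * ClassGroup.mk0 I = 1) :
    ∃ a : 𝓞 K, a ≠ 0 ∧ (J : Ideal (𝓞 K)) * I = Ideal.span {a} := by
  rw [← map_mul, ClassGroup.mk0_eq_one_iff] at h
  obtain ⟨a, ha⟩ := h
  refine ⟨a, fun h0 => ?_, ha⟩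
  subst h0
  exact nonZeroDivisors.coe_ne_zero (J * I) (ha.trans (by simp))

/-- The part of a class in a series over ideals is a twisted lattice sum. -/
theorem hasSum_class (C : ClassGroup (𝓞 K)) (J : (Ideal (𝓞 K))⁰) (hJ : ClassGroup.mk0 J = C⁻¹)
    (f : (Ideal (𝓞 K))⁰ → ℂ) (G : 𝓞 K → ℂ) (hGb : ∀ x, ‖G x‖ ≤ 1)
    (hG0 : ∀ x, x ∉ (J : Ideal (𝓞 K)) → G x = 0)
    (hG : ∀ (I : (Ideal (𝓞 K))⁰) (a : 𝓞 K), a ≠ 0 →
      (J : Ideal (𝓞 K)) * I = Ideal.span {a} → G a = f I)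
    {s : ℝ} (hs : 1 < s) :
    HasSum (fun I : {I : (Ideal (𝓞 K))⁰ // ClassGroup.mk0 I = C} => f I.1 * (normPow s I.1 : ℂ))
      ((((Ideal.absNorm (J : Ideal (𝓞 K)) : ℝ) ^ s / torsionOrder K : ℝ) : ℂ) *
        ∑' x : 𝓞 K, G x * (wNormTerm s (mixedEmbedding K (x : K)) : ℂ)) := by
  set T := {I : (Ideal (𝓞 K))⁰ // ClassGroup.mk0 I = C}
  have hIJ : ∀ I : T, ClassGroup.mk0 J * ClassGroup.mk0 I.1 = 1 := fun I => by
    rw [hJ, I.2, inv_mul_cancel]
  choose gen hgen0 hgen using fun I : T => exists_gen J I.1 (hIJ I)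
  let φ : T × (𝓞 K)ˣ → 𝓞 K := fun z => (z.2 : 𝓞 K) * gen z.1
  have hφ : Function.Injective φ := by
    rintro ⟨I, u⟩ ⟨I', u'⟩ (h1 : (u : 𝓞 K) * gen I = u' * gen I')
    have hspan : Ideal.span {gen I} = Ideal.span {gen I'} := by
      rw [← Ideal.span_singleton_mul_left_unit u.isUnit (gen I), h1,
        Ideal.span_singleton_mul_left_unit u'.isUnit]
    rw [← hgen, ← hgen] at hspan
    have hI : I = I' := Subtype.ext (Subtype.ext
      (mul_left_cancel₀ (nonZeroDivisors.coe_ne_zero J) hspan))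
    subst hI
    exact Prod.ext rfl (Units.ext (mul_right_cancel₀ (hgen0 I) h1))
  have hrange : ∀ x ∉ Set.range φ, G x * (wNormTerm s (mixedEmbedding K (x : K)) : ℂ) = 0 := by
    intro x hx
    by_cases hxJ : x ∈ (J : Ideal (𝓞 K))
    swap
    · rw [hG0 x hxJ, zero_mul]
    by_cases hx0 : x = 0
    · subst hx0
      simp [wNormTerm, Real.zero_rpow (neg_ne_zero.mpr (zero_lt_one.trans hs).ne')]
    exfalso
    obtain ⟨I, hI⟩ := Ideal.dvd_span_singleton.mpr hxJ
    have hI0 : I ≠ 0 := fun h => by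
      rw [h, mul_zero] at hI
      exact hx0 (Ideal.span_singleton_eq_bot.mp hI)
    have hI' : ClassGroup.mk0 J * ClassGroup.mk0 ⟨I, mem_nonZeroDivisors_iff_ne_zero.mpr hI0⟩ =
        (1 : ClassGroup (𝓞 K)) := by
      rw [← map_mul, ClassGroup.mk0_eq_one_iff]
      exact ⟨_, hI.symm⟩
    rw [hJ, inv_mul_eq_one] at hI'
    let IT : T := ⟨⟨I, mem_nonZeroDivisors_iff_ne_zero.mpr hI0⟩, hI'.symm⟩
    obtain ⟨u, hu⟩ := Ideal.span_singleton_eq_span_singleton.mp ((hgen IT).symm.trans hI.symm)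
    exact hx ⟨(IT, u), by simp only [φ]; rw [← hu, mul_comm]⟩
  have hsum : Summable fun x : 𝓞 K => G x * (wNormTerm s (mixedEmbedding K (x : K)) : ℂ) := by
    refine Summable.of_norm_bounded ((summable_wNormTerm (⊤ : Ideal (𝓞 K)) hs).comp_injective
      (i := fun x : 𝓞 K => (⟨x, trivial⟩ : (⊤ : Ideal (𝓞 K)))) fun a b h => congrArg Subtype.val h)
      fun x => ?_
    rw [norm_mul, Complex.norm_real, Real.norm_eq_abs, abs_of_nonneg (wNormTerm_nonneg _ _)]
    exact mul_le_of_le_one_left (wNormTerm_nonneg _ _) (hGb x)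
  have hS := (hφ.hasSum_iff hrange).mpr hsum.hasSum
  have hJp := absNorm_pos J
  have hN : ∀ I : T, mixedEmbedding.norm (mixedEmbedding K (gen I : K)) =
      (Ideal.absNorm (J : Ideal (𝓞 K)) : ℝ) * Ideal.absNorm (I.1 : Ideal (𝓞 K)) := by
    intro I
    rw [← Nat.cast_mul, ← map_mul, hgen, Ideal.absNorm_span_singleton, norm_eq_norm,
      ← Algebra.coe_norm_int, ← Int.cast_abs, Nat.cast_natAbs, Rat.cast_intCast]
  have hfib : ∀ I : T, HasSum
      (fun u => G (φ (I, u)) * (wNormTerm s (mixedEmbedding K (φ (I, u) : K)) : ℂ))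
      (f I.1 * ((((torsionOrder K : ℝ) *
        ((Ideal.absNorm (J : Ideal (𝓞 K)) : ℝ) ^ (-s) * normPow s I.1)) : ℝ) : ℂ)) := by
    intro I
    have hne : mixedEmbedding.norm (mixedEmbedding K (gen I : K)) ≠ 0 := by
      rw [hN]; exact (mul_pos hJp (absNorm_pos I.1)).ne'
    have h := (tsum_unit_unitWeight hne).mul_right
      (mixedEmbedding.norm (mixedEmbedding K (gen I : K)) ^ (-s))
    rw [hN, Real.mul_rpow hJp.le (absNorm_pos I.1).le] at h
    refine ((Complex.hasSum_ofReal.mpr h).mul_left (f I.1)).congr_fun fun u => ?_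
    rw [hG I.1 (φ (I, u)) (mul_ne_zero u.ne_zero (hgen0 I))
      (by rw [hgen I]; exact (Ideal.span_singleton_mul_left_unit u.isUnit (gen I)).symm)]
    have he : mixedEmbedding K (φ (I, u) : K) = u • mixedEmbedding K (gen I : K) := by
      simp [φ, unitSMul_smul]
    rw [wNormTerm, he, unitSMul_smul, map_mul, norm_unit, one_mul, hN,
      Real.mul_rpow hJp.le (absNorm_pos I.1).le]
  have hw : (torsionOrder K : ℂ) ≠ 0 := Nat.cast_ne_zero.mpr (torsionOrder_pos K).ne'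
  have hJs : (((Ideal.absNorm (J : Ideal (𝓞 K)) : ℝ) ^ s : ℝ) : ℂ) ≠ 0 :=
    Complex.ofReal_ne_zero.mpr (Real.rpow_pos_of_pos hJp _).ne'
  refine ((hS.prod_fiberwise hfib).mul_left _).congr_fun fun I => ?_
  rw [Real.rpow_neg hJp.le]
  push_cast
  field_simp

lemma hasSum_classSum (C : ClassGroup (𝓞 K)) (J : (Ideal (𝓞 K))⁰)
    (hJ : ClassGroup.mk0 J = C⁻¹) {s : ℝ} (hs : 1 < s) :
    HasSum (fun I : {I : (Ideal (𝓞 K))⁰ // ClassGroup.mk0 I = C} => normPow s I.1)
      ((Ideal.absNorm (J : Ideal (𝓞 K)) : ℝ) ^ s / torsionOrder K *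
        latticeSum (J : Ideal (𝓞 K)) s) := by
  set T : Set (𝓞 K) := ((J : Ideal (𝓞 K)) : Set (𝓞 K))
  have h := hasSum_class C J hJ (fun _ => 1) (T.indicator fun _ => 1)
    (fun x => by by_cases hx : x ∈ T <;> simp [hx])
    (fun x hx => Set.indicator_of_notMem hx _)
    (fun I a _ hIa => by
      have ha : a ∈ (J : Ideal (𝓞 K)) * I := by rw [hIa]; exact Ideal.mem_span_singleton_self a
      exact Set.indicator_of_mem (Ideal.mul_le_left (J := (I : Ideal (𝓞 K))) ha) _) hs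
  have hsum : ∑' x : 𝓞 K, T.indicator (fun _ => (1 : ℂ)) x *
      (wNormTerm s (mixedEmbedding K (x : K)) : ℂ) = latticeSum (J : Ideal (𝓞 K)) s := by
    rw [latticeSum, Complex.ofReal_tsum]
    refine (tsum_congr fun x => ?_).trans
      (tsum_subtype T fun x => (wNormTerm s (mixedEmbedding K (x : K)) : ℂ)).symm
    by_cases hx : x ∈ T <;> simp [hx]
  rw [hsum] at h
  refine Complex.hasSum_ofReal.mp ?_
  simpa using h

/-- The partial zeta function of an ideal class. -/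
def classSum (C : ClassGroup (𝓞 K)) (s : ℝ) : ℝ :=
  ∑' I : {I : (Ideal (𝓞 K))⁰ // ClassGroup.mk0 I = C}, normPow s I.1

/-- The series of norm powers converges for `s > 1`. -/
lemma summable_normPow {s : ℝ} (hs : 1 < s) :
    Summable fun I : (Ideal (𝓞 K))⁰ => normPow s I := by
  let e := Equiv.sigmaFiberEquiv (fun I : (Ideal (𝓞 K))⁰ => ClassGroup.mk0 I)
  rw [← e.summable_iff]
  refine (summable_sigma_of_nonneg (f := (fun I => normPow s I) ∘ e) fun _ =>
    (normPow_pos _ _).le).mpr ?_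
  refine ⟨fun C => ?_, Summable.of_finite⟩
  obtain ⟨J, hJ⟩ := exists_mk0_eq_inv C
  exact (hasSum_classSum C J hJ hs).summable

/-- The zeta function of `K` as a sum over ideals. -/
def zetaSum (K : Type*) [Field K] [NumberField K] (s : ℝ) : ℝ :=
  ∑' I : (Ideal (𝓞 K))⁰, normPow s I

lemma classSum_nonneg (C : ClassGroup (𝓞 K)) (s : ℝ) : 0 ≤ classSum C s :=
  tsum_nonneg fun _ => (normPow_pos _ _).le

lemma classSum_le_zetaSum (C : ClassGroup (𝓞 K)) {s : ℝ} (hs : 1 < s) :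
    classSum C s ≤ zetaSum K s :=
  Summable.tsum_le_tsum_of_inj (fun I => I.1) Subtype.val_injective
    (fun _ _ => (normPow_pos _ _).le) (fun _ => le_rfl)
    ((summable_normPow hs).comp_injective Subtype.val_injective) (summable_normPow hs)

lemma ofReal_zetaSum_eq {s : ℝ} (hs : 1 < s) :
    (zetaSum K s : ℂ) = dedekindZeta K (s : ℂ) := by
  have hfin : ∀ n : ℕ, {I : Ideal (𝓞 K) | Ideal.absNorm I = n}.Finite := fun n =>
    Ideal.finite_setOfPred_absNorm_eq n
  let e := Equiv.sigmaFiberEquiv (fun I : (Ideal (𝓞 K))⁰ => Ideal.absNorm (I : Ideal (𝓞 K)))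
  have hs' : Summable (fun z => normPow s (e z)) := e.summable_iff.mpr (summable_normPow hs)
  rw [zetaSum, ← e.tsum_eq (fun I => normPow s I), hs'.tsum_sigma, Complex.ofReal_tsum,
    dedekindZeta, LSeries]
  refine tsum_congr fun n => ?_
  by_cases hn : n = 0
  · subst hn
    rw [LSeries.term_zero, Complex.ofReal_eq_zero]
    have : IsEmpty {I : (Ideal (𝓞 K))⁰ // Ideal.absNorm (I : Ideal (𝓞 K)) = 0} :=
      ⟨fun I => (absNorm_pos I.1).ne' (by exact_mod_cast I.2)⟩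
    exact tsum_empty
  have hcard : Nat.card {I : (Ideal (𝓞 K))⁰ // Ideal.absNorm (I : Ideal (𝓞 K)) = n} =
      Nat.card {I : Ideal (𝓞 K) // Ideal.absNorm I = n} :=
    Nat.card_congr
      { toFun := fun I => ⟨I.1.1, I.2⟩
        invFun := fun I => ⟨⟨I.1, mem_nonZeroDivisors_iff_ne_zero.mpr fun h => hn (by
          rw [← I.2, h]; simp)⟩, I.2⟩
        left_inv := fun I => rfl
        right_inv := fun I => rfl }
  have : Finite {I : (Ideal (𝓞 K))⁰ // Ideal.absNorm (I : Ideal (𝓞 K)) = n} :=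
    have := (hfin n).to_subtype
    Finite.of_injective (fun I => (⟨I.1.1, I.2⟩ : {I : Ideal (𝓞 K) | Ideal.absNorm I = n}))
      fun a b h => Subtype.ext (Subtype.ext (congrArg (fun z => z.1) h))
  have hterm : (∑' I : {I : (Ideal (𝓞 K))⁰ // Ideal.absNorm (I : Ideal (𝓞 K)) = n},
      normPow s (e ⟨n, I⟩)) =
      ∑' _ : {I : (Ideal (𝓞 K))⁰ // Ideal.absNorm (I : Ideal (𝓞 K)) = n}, (n : ℝ) ^ (-s) :=
    tsum_congr fun I => by simp only [normPow, e, Equiv.sigmaFiberEquiv_apply, I.2]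
  rw [hterm, tsum_const, nsmul_eq_mul, hcard, LSeries.term_of_ne_zero hn,
    Real.rpow_neg (Nat.cast_nonneg n)]
  push_cast
  rw [Complex.ofReal_cpow (Nat.cast_nonneg n), Complex.ofReal_natCast, div_eq_mul_inv]

variable (K) in
/-- The zeta sum grows like `1 / (s - 1)` as `s` tends to `1` from the right. -/
lemma eventually_zetaSum_bounds : ∃ c C : ℝ, 0 < c ∧
    ∀ᶠ s in 𝓝[>] (1 : ℝ), c / (s - 1) ≤ zetaSum K s ∧ zetaSum K s ≤ C / (s - 1) := by
  have h := (Complex.continuous_re.tendsto _).comp (tendsto_sub_one_mul_dedekindZeta_nhdsGT K)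
  rw [Complex.ofReal_re] at h
  set R := dedekindZeta_residue K
  have hR : 0 < R := dedekindZeta_residue_pos K
  refine ⟨R / 2, 2 * R, half_pos hR, ?_⟩
  filter_upwards [h.eventually
    (Ioo_mem_nhds (show R / 2 < R by linarith) (show R < 2 * R by linarith)),
    self_mem_nhdsWithin] with s hs (hs1 : 1 < s)
  have hre : ((↑s - 1 : ℂ) * dedekindZeta K (s : ℂ)).re = (s - 1) * zetaSum K s := by
    rw [← ofReal_zetaSum_eq hs1, ← Complex.ofReal_one, ← Complex.ofReal_sub, ← Complex.ofReal_mul,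
      Complex.ofReal_re]
  simp only [Function.comp_apply, hre] at hs
  rw [div_le_iff₀ (sub_pos.mpr hs1), le_div_iff₀ (sub_pos.mpr hs1)]
  constructor <;> linarith [hs.1, hs.2]

/-- The class sums agree up to a bounded error. -/
lemma eventually_classSum_bdd (C : ClassGroup (𝓞 K)) : ∃ B : ℝ,
    ∀ᶠ s in 𝓝[>] (1 : ℝ), |classSum C s - classSum (1 : ClassGroup (𝓞 K)) s| ≤ B := by
  obtain ⟨J, hJ⟩ := exists_mk0_eq_inv C
  obtain ⟨B, hB⟩ := exists_latticeSum_compare (J : Ideal (𝓞 K)) (nonZeroDivisors.coe_ne_zero J)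
  obtain ⟨c, C', -, hz⟩ := eventually_zetaSum_bounds K
  set N : ℝ := (Ideal.absNorm (J : Ideal (𝓞 K)) : ℝ)
  set w : ℝ := (torsionOrder K : ℝ)
  have hN : 0 < N := absNorm_pos J
  have hN1 : 1 ≤ N := by
    simp only [N]
    exact_mod_cast Nat.pos_of_ne_zero
      (Ideal.absNorm_eq_zero_iff.not.mpr (nonZeroDivisors.coe_ne_zero J))
  have hw : 0 < w := Nat.cast_pos.mpr (torsionOrder_pos K)
  refine ⟨N / w * B + N * Real.log N * C', ?_⟩
  filter_upwards [hz, self_mem_nhdsWithin, eventually_nhdsWithin_of_eventually_nhds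
    (Iic_mem_nhds one_lt_two)] with s hs (hs1 : 1 < s) (hs2 : s ≤ 2)
  have hC := (hasSum_classSum C J hJ hs1).tsum_eq
  have h1 := (hasSum_classSum (1 : ClassGroup (𝓞 K)) 1 (by simp) hs1).tsum_eq
  have e1 : ((1 : (Ideal (𝓞 K))⁰) : Ideal (𝓞 K)) = (⊤ : Ideal (𝓞 K)) := by
    rw [Submonoid.coe_one, Ideal.one_eq_top]
  rw [e1, Ideal.absNorm_top, Nat.cast_one, Real.one_rpow] at h1
  rw [show (∑' I : {I : (Ideal (𝓞 K))⁰ // ClassGroup.mk0 I = C}, normPow s I.1) =
    classSum C s from rfl] at hC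
  rw [show (∑' I : {I : (Ideal (𝓞 K))⁰ // ClassGroup.mk0 I = (1 : ClassGroup (𝓞 K))},
    normPow s I.1) = classSum (1 : ClassGroup (𝓞 K)) s from rfl] at h1
  set G := latticeSum (⊤ : Ideal (𝓞 K)) s
  set SJ := latticeSum (J : Ideal (𝓞 K)) s
  have hNs : N ^ s = N ^ (s - 1) * N := by
    rw [← Real.rpow_add_one hN.ne']; ring_nf
  have e2 : classSum C s - classSum (1 : ClassGroup (𝓞 K)) s =
      N ^ (s - 1) / w * (N * SJ - G) + (N ^ (s - 1) - 1) * classSum (1 : ClassGroup (𝓞 K)) s := by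
    rw [hC, h1, hNs]; ring
  rw [e2]
  refine (abs_add_le _ _).trans (add_le_add ?_ ?_)
  · rw [abs_mul, abs_of_pos (div_pos (Real.rpow_pos_of_pos hN _) hw)]
    refine mul_le_mul ?_ (hB s ⟨hs1, hs2⟩) (abs_nonneg _) (div_nonneg hN.le hw.le)
    gcongr
    exact (Real.rpow_le_rpow_of_exponent_le hN1 (by linarith : s - 1 ≤ 1)).trans_eq
      (Real.rpow_one N)
  · rw [abs_mul, abs_of_nonneg (classSum_nonneg _ _)]
    have h3 : |N ^ (s - 1) - 1| ≤ N * (Real.log N * (s - 1)) := by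
      rw [Real.rpow_def_of_pos hN]
      nth_rw 2 [← Real.exp_zero]
      refine (abs_exp_sub_exp_le (c := Real.log N) ?_ (Real.log_nonneg hN1)).trans ?_
      · nlinarith [Real.log_nonneg hN1]
      · rw [Real.exp_log hN, sub_zero, abs_of_nonneg
          (mul_nonneg (Real.log_nonneg hN1) (by linarith))]
    refine (mul_le_mul h3 ((classSum_le_zetaSum _ hs1).trans hs.2) (classSum_nonneg _ _)
      (by positivity [Real.log_nonneg hN1, sub_nonneg.mpr hs1.le])).trans (le_of_eq ?_)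
    field_simp [(sub_pos.mpr hs1).ne']

/-- The `L`-series of a character of the class group. -/
def classL (ψ : ClassGroup (𝓞 K) →* ℂˣ) (s : ℝ) : ℂ :=
  ∑' I : (Ideal (𝓞 K))⁰, (ψ (ClassGroup.mk0 I) : ℂ) * (normPow s I : ℂ)

/-- Character values on classes have absolute value one. -/
lemma norm_charVal (ψ : ClassGroup (𝓞 K) →* ℂˣ) (C : ClassGroup (𝓞 K)) : ‖(ψ C : ℂ)‖ = 1 := by
  refine Complex.norm_eq_one_of_pow_eq_one
    (n := Fintype.card (ClassGroup (𝓞 K))) ?_ Fintype.card_ne_zero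
  rw [← Units.val_pow_eq_pow_val, ← map_pow, pow_card_eq_one, map_one, Units.val_one]

lemma summable_classL (ψ : ClassGroup (𝓞 K) →* ℂˣ) {s : ℝ} (hs : 1 < s) :
    Summable fun I : (Ideal (𝓞 K))⁰ => (ψ (ClassGroup.mk0 I) : ℂ) * (normPow s I : ℂ) :=
  Summable.of_norm_bounded (summable_normPow hs) fun I => by
    rw [norm_mul, norm_charVal, one_mul, Complex.norm_real, Real.norm_eq_abs,
      abs_of_pos (normPow_pos s I)]

/-- `L(s, ψ)` stays bounded as `s → 1+` for a nontrivial class group character `ψ`. -/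
theorem eventually_norm_classL_le (ψ : ClassGroup (𝓞 K) →* ℂˣ) (hψ : ψ ≠ 1) :
    ∃ B : ℝ, ∀ᶠ s in 𝓝[>] (1 : ℝ), ‖classL ψ s‖ ≤ B := by
  choose B hB using fun C : ClassGroup (𝓞 K) => eventually_classSum_bdd C
  refine ⟨∑ C, B C, ?_⟩
  filter_upwards [eventually_all.mpr hB, self_mem_nhdsWithin] with s hs (hs1 : 1 < s)
  have hsum : classL ψ s = ∑ C, (ψ C : ℂ) * (classSum C s : ℂ) := by
    let e := Equiv.sigmaFiberEquiv (fun I : (Ideal (𝓞 K))⁰ => ClassGroup.mk0 I)
    have h := e.summable_iff.mpr (summable_classL ψ hs1)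
    rw [classL, ← e.tsum_eq]
    refine (Summable.tsum_sigma h).trans ?_
    rw [tsum_fintype]
    refine Finset.sum_congr rfl fun C _ => ?_
    rw [classSum, Complex.ofReal_tsum, ← tsum_mul_left]
    exact tsum_congr fun I => by
      show (ψ (ClassGroup.mk0 I.1) : ℂ) * (normPow s I.1 : ℂ) = _
      rw [I.2]
  have hzero : ∑ C : ClassGroup (𝓞 K), (ψ C : ℂ) = 0 :=
    sum_hom_units_eq_zero ((Units.coeHom ℂ).comp ψ) fun h => hψ <| MonoidHom.ext fun C =>
      Units.ext (DFunLike.congr_fun h C)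
  have e2 : ∑ C, (ψ C : ℂ) * (classSum C s : ℂ) =
      ∑ C, (ψ C : ℂ) * ((classSum C s - classSum (1 : ClassGroup (𝓞 K)) s : ℝ) : ℂ) := by
    push_cast
    rw [Finset.sum_congr rfl (fun C _ => mul_sub _ _ _), Finset.sum_sub_distrib, ← Finset.sum_mul,
      hzero, zero_mul, sub_zero]
  rw [hsum, e2]
  refine (norm_sum_le _ _).trans (Finset.sum_le_sum fun C _ => ?_)
  rw [norm_mul, norm_charVal, one_mul, Complex.norm_real, Real.norm_eq_abs]
  exact hs C

end FermatAgent.CFT
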