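import Fermat.Agent.CFT.ClassSum

/-!
Euler product estimates: the sums `∑ N(P) ^ (-s)` over sets of primes compared with `zetaSum` and
with `L`-series of class group characters.
-/

set_option autoImplicit false

noncomputable section

open NumberField Filter Topology IsDedekindDomain
open scoped Classical nonZeroDivisors

namespace FermatAgent.CFT

variable {K : Type*} [Field K] [NumberField K]

/-- A prime as a nonzero ideal. -/
def primeIdeal (P : HeightOneSpectrum (𝓞 K)) : (Ideal (𝓞 K))⁰ :=
  ⟨P.asIdeal, mem_nonZeroDivisors_iff_ne_zero.mpr P.ne_bot⟩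

omit [NumberField K] in
@[simp] lemma coe_primeIdeal (P : HeightOneSpectrum (𝓞 K)) :
    (primeIdeal P : Ideal (𝓞 K)) = P.asIdeal := rfl

omit [NumberField K] in
lemma primeIdeal_injective : Function.Injective (primeIdeal (K := K)) := fun _ _ h =>
  HeightOneSpectrum.ext (congrArg Subtype.val h)

/-- Ideals with all prime divisors in `F`. -/
def supportedOn (F : Finset (HeightOneSpectrum (𝓞 K))) : Set (Ideal (𝓞 K))⁰ :=
  {I | ∀ P : HeightOneSpectrum (𝓞 K), P.asIdeal ∣ (I : Ideal (𝓞 K)) → P ∈ F}

lemma supportedOn_empty : supportedOn (∅ : Finset (HeightOneSpectrum (𝓞 K))) = {1} := by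
  ext I
  refine ⟨fun h => Set.mem_singleton_iff.mpr ?_, fun h P hP => ?_⟩
  · by_contra hI
    have hI' : (I : Ideal (𝓞 K)) ≠ ⊤ := fun h' => hI (Subtype.ext (h'.trans Ideal.one_eq_top.symm))
    obtain ⟨M, hM, hle⟩ := Ideal.exists_le_maximal _ hI'
    have hM0 : M ≠ ⊥ := fun h0 => nonZeroDivisors.coe_ne_zero I (le_bot_iff.mp (h0 ▸ hle))
    exact Finset.notMem_empty _ (h ⟨M, hM.isPrime, hM0⟩ (Ideal.dvd_iff_le.mpr hle))
  · rw [Set.mem_singleton_iff.mp h, Submonoid.coe_one] at hP
    exact absurd (isUnit_of_dvd_one hP) P.irreducible.not_isUnit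

/-- Splitting off the power of one prime. -/
lemma exists_primePow_equiv (F : Finset (HeightOneSpectrum (𝓞 K))) (P : HeightOneSpectrum (𝓞 K))
    (hP : P ∉ F) : ∃ e : ℕ × supportedOn F ≃ supportedOn (insert P F),
      ∀ z, ((e z : supportedOn (insert P F)) : (Ideal (𝓞 K))⁰) = primeIdeal P ^ z.1 * z.2.1 := by
  have hmem : ∀ z : ℕ × supportedOn F,
      primeIdeal P ^ z.1 * z.2.1 ∈ supportedOn (insert P F) := by
    intro z Q hQ
    rw [Submonoid.coe_mul, SubmonoidClass.coe_pow, coe_primeIdeal] at hQ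
    rcases Q.prime.dvd_or_dvd hQ with h | h
    · exact Finset.mem_insert.mpr (Or.inl (HeightOneSpectrum.ext (associated_iff_eq.mp
        (Q.prime.associated_of_dvd P.prime (Q.prime.dvd_of_dvd_pow h)))))
    · exact Finset.mem_insert_of_mem (z.2.2 Q h)
  let f : ℕ × supportedOn F → supportedOn (insert P F) := fun z => ⟨_, hmem z⟩
  have hinj : Function.Injective f := by
    rintro ⟨k, I⟩ ⟨m, J⟩ h
    have h' : P.asIdeal ^ k * (I.1 : Ideal (𝓞 K)) = P.asIdeal ^ m * (J.1 : Ideal (𝓞 K)) := by
      have := congrArg (fun x => ((x : supportedOn (insert P F)).1 : Ideal (𝓞 K))) h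
      simpa [f] using this
    have hkm : k = m := by
      have key : ∀ {k m : ℕ} {I J : supportedOn F}, k < m →
          P.asIdeal ^ k * (I.1 : Ideal (𝓞 K)) ≠ P.asIdeal ^ m * (J.1 : Ideal (𝓞 K)) := by
        intro k m I J hkm he
        obtain ⟨j, rfl⟩ := Nat.exists_eq_add_of_lt hkm
        rw [show k + j + 1 = k + (j + 1) by ring, pow_add, mul_assoc] at he
        exact hP (I.2 P ⟨P.asIdeal ^ j * J.1, by
          rw [mul_left_cancel₀ (pow_ne_zero _ P.ne_bot) he, pow_succ', mul_assoc]⟩)
      rcases lt_trichotomy k m with h1 | h1 | h1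
      · exact absurd h' (key h1)
      · exact h1
      · exact absurd h'.symm (key h1)
    subst hkm
    exact Prod.ext rfl (Subtype.ext (Subtype.ext
      (mul_left_cancel₀ (pow_ne_zero _ P.ne_bot) h')))
  have hsurj : Function.Surjective f := by
    rintro ⟨I, hI⟩
    obtain ⟨k, b, hb, hIb⟩ := WfDvdMonoid.max_power_factor (nonZeroDivisors.coe_ne_zero I)
      P.irreducible
    have hb0 : b ≠ 0 := fun h => hb (h ▸ dvd_zero _)
    refine ⟨(k, ⟨⟨b, mem_nonZeroDivisors_iff_ne_zero.mpr hb0⟩, fun Q hQ => ?_⟩), ?_⟩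
    · rcases Finset.mem_insert.mp (hI Q (hIb ▸ Dvd.dvd.mul_left hQ _)) with h | h
      · subst h; exact absurd hQ hb
      · exact h
    · apply Subtype.ext; apply Subtype.ext
      simp [f, hIb]
  exact ⟨Equiv.ofBijective f ⟨hinj, hsurj⟩, fun z => rfl⟩

/-- The finite Euler product. -/
lemma hasSum_supportedOn (f : (Ideal (𝓞 K))⁰ →* ℂ)
    (hlt : ∀ P : HeightOneSpectrum (𝓞 K), ‖f (primeIdeal P)‖ < 1)
    (hsum : Summable fun I => ‖f I‖) (F : Finset (HeightOneSpectrum (𝓞 K))) :
    HasSum (fun I : supportedOn F => f I.1) (∏ P ∈ F, (1 - f (primeIdeal P))⁻¹) := by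
  induction F using Finset.induction with
  | empty =>
    have : Unique (supportedOn (∅ : Finset (HeightOneSpectrum (𝓞 K)))) :=
      { default := ⟨1, by rw [supportedOn_empty]; rfl⟩
        uniq := fun a => Subtype.ext (by
          exact Set.mem_singleton_iff.mp ((Set.ext_iff.mp supportedOn_empty _).mp a.2)) }
    convert hasSum_fintype (fun I : supportedOn (∅ : Finset (HeightOneSpectrum (𝓞 K))) => f I.1)
      using 1
    rw [Finset.prod_empty, Fintype.sum_unique,
      show (default : supportedOn (∅ : Finset (HeightOneSpectrum (𝓞 K)))).1 = 1 from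
        Set.mem_singleton_iff.mp ((Set.ext_iff.mp supportedOn_empty _).mp
          (default : supportedOn (∅ : Finset (HeightOneSpectrum (𝓞 K)))).2)]
    exact (map_one f).symm
  | insert P F hP ih =>
    obtain ⟨e, he⟩ := exists_primePow_equiv F P hP
    rw [Finset.prod_insert hP, ← e.hasSum_iff]
    have h1 := hasSum_geometric_of_norm_lt_one (hlt P)
    have h2 : Summable fun z : ℕ × supportedOn F => f (primeIdeal P) ^ z.1 * f z.2.1 :=
      summable_mul_of_summable_norm
        (f := fun n : ℕ => f (primeIdeal P) ^ n) (g := fun I : supportedOn F => f I.1)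
        (by simpa [norm_pow] using summable_geometric_of_lt_one (norm_nonneg _) (hlt P))
        (hsum.comp_injective Subtype.val_injective)
    refine (h1.mul ih h2).congr_fun fun z => ?_
    rw [Function.comp_apply, he, map_mul, map_pow]

/-- The finite Euler products converge to the series. -/
lemma tendsto_supportedOn (f : (Ideal (𝓞 K))⁰ →* ℂ)
    (hlt : ∀ P : HeightOneSpectrum (𝓞 K), ‖f (primeIdeal P)‖ < 1)
    (hsum : Summable fun I => ‖f I‖) :
    Tendsto (fun F : Finset (HeightOneSpectrum (𝓞 K)) => ∏ P ∈ F, (1 - f (primeIdeal P))⁻¹)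
      atTop (𝓝 (∑' I, f I)) := by
  have heq : ∀ F, ∏ P ∈ F, (1 - f (primeIdeal P))⁻¹ = ∑' I, (supportedOn F).indicator f I := by
    intro F
    rw [← (hasSum_supportedOn f hlt hsum F).tsum_eq]
    exact tsum_subtype (supportedOn F) f
  simp_rw [heq]
  refine tendsto_tsum_of_dominated_convergence hsum (fun I => ?_)
    (Eventually.of_forall fun F I => ?_)
  · have hfin : {P : HeightOneSpectrum (𝓞 K) | P.asIdeal ∣ (I : Ideal (𝓞 K))}.Finite :=
      Ideal.finite_factors (nonZeroDivisors.coe_ne_zero I)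
    refine tendsto_const_nhds.congr' ?_
    filter_upwards [Filter.eventually_ge_atTop hfin.toFinset] with F hF
    have hI : I ∈ supportedOn F := fun P hP => hF (hfin.mem_toFinset.mpr hP)
    exact (Set.indicator_of_mem hI f).symm
  · exact norm_indicator_le_norm_self f I

/-- `normPow` as a multiplicative function. -/
def normPowHom (s : ℝ) : (Ideal (𝓞 K))⁰ →* ℝ where
  toFun := normPow s
  map_one' := by simp [normPow]
  map_mul' I J := by
    simp only [normPow, Submonoid.coe_mul, map_mul, Nat.cast_mul]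
    exact Real.mul_rpow (absNorm_pos I).le (absNorm_pos J).le

/-- The summand at a prime. -/
def primePow (s : ℝ) (P : HeightOneSpectrum (𝓞 K)) : ℝ := normPow s (primeIdeal P)

/-- The prime powers are positive. -/
lemma primePow_pos (s : ℝ) (P : HeightOneSpectrum (𝓞 K)) : 0 < primePow s P := normPow_pos _ _

/-- Prime norms are at least two. -/
lemma two_le_absNorm (P : HeightOneSpectrum (𝓞 K)) : 2 ≤ Ideal.absNorm P.asIdeal := by
  have h0 : Ideal.absNorm P.asIdeal ≠ 0 := Ideal.absNorm_eq_zero_iff.not.mpr P.ne_bot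
  have h1 : Ideal.absNorm P.asIdeal ≠ 1 := Ideal.absNorm_eq_one_iff.not.mpr P.isPrime.ne_top
  omega

/-- Prime powers are at most one half for `s ≥ 1`. -/
lemma primePow_le_half {s : ℝ} (hs : 1 ≤ s) (P : HeightOneSpectrum (𝓞 K)) :
    primePow s P ≤ 1 / 2 := by
  have h : (2 : ℝ) ≤ Ideal.absNorm P.asIdeal := by exact_mod_cast two_le_absNorm P
  refine (Real.rpow_le_rpow_of_nonpos two_pos h (by linarith)).trans ?_
  refine (Real.rpow_le_rpow_of_exponent_le one_le_two (neg_le_neg hs)).trans ?_
  rw [Real.rpow_neg_one, one_div]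

/-- The prime series converges for `s > 1`. -/
lemma summable_primePow {s : ℝ} (hs : 1 < s) :
    Summable fun P : HeightOneSpectrum (𝓞 K) => primePow s P :=
  (summable_normPow hs).comp_injective primeIdeal_injective

/-- Squares of prime powers are bounded by the powers at `s = 2`. -/
lemma primePow_sq_le {s : ℝ} (hs : 1 ≤ s) (P : HeightOneSpectrum (𝓞 K)) :
    primePow s P ^ 2 ≤ primePow 2 P := by
  have h : (1 : ℝ) ≤ Ideal.absNorm P.asIdeal := by
    exact_mod_cast (one_le_two.trans (two_le_absNorm P))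
  unfold primePow normPow
  rw [← Real.rpow_natCast, ← Real.rpow_mul (Nat.cast_nonneg _)]
  exact Real.rpow_le_rpow_of_exponent_le h (by push_cast; linarith)

lemma tendsto_zetaSum_euler {s : ℝ} (hs : 1 < s) :
    Tendsto (fun F : Finset (HeightOneSpectrum (𝓞 K)) => ∏ P ∈ F, (1 - primePow s P)⁻¹)
      atTop (𝓝 (zetaSum K s)) := by
  have hnorm : ∀ I : (Ideal (𝓞 K))⁰, ‖(normPow s I : ℂ)‖ = normPow s I := fun I => by
    rw [Complex.norm_real, Real.norm_eq_abs, abs_of_pos (normPow_pos s I)]
  have h := tendsto_supportedOn (K := K)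
    ((Complex.ofRealHom : ℝ →+* ℂ).toMonoidHom.comp (normPowHom s))
    (fun P => ((hnorm _).trans_le (primePow_le_half hs.le P)).trans_lt (by norm_num))
    ((summable_normPow hs).congr fun I => (hnorm I).symm)
  have h' := (Complex.continuous_re.tendsto _).comp h
  convert h' using 1
  · ext F
    simp only [Function.comp_apply]
    rw [← Complex.ofReal_re (∏ P ∈ F, (1 - primePow s P)⁻¹)]
    congr 1
    push_cast
    rfl
  · rw [zetaSum, ← Complex.ofReal_re (∑' I : (Ideal (𝓞 K))⁰, normPow s I), Complex.ofReal_tsum]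
    rfl

lemma exp_sum_primePow_le_zetaSum {s : ℝ} (hs : 1 < s) (F : Finset (HeightOneSpectrum (𝓞 K))) :
    Real.exp (∑ P ∈ F, primePow s P) ≤ zetaSum K s := by
  have h1 : Real.exp (∑ P ∈ F, primePow s P) ≤ ∏ P ∈ F, (1 - primePow s P)⁻¹ := by
    rw [Real.exp_sum]
    refine Finset.prod_le_prod (fun P _ => (Real.exp_pos _).le) fun P _ => ?_
    have h2 : 0 < 1 - primePow s P := by linarith [primePow_le_half hs.le P]
    rw [le_inv_comm₀ (Real.exp_pos _) h2, ← Real.exp_neg]
    linarith [Real.add_one_le_exp (-primePow s P)]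
  refine h1.trans (ge_of_tendsto (tendsto_zetaSum_euler hs) ?_)
  filter_upwards [Filter.eventually_ge_atTop F] with G hG
  refine Finset.prod_le_prod_of_subset_of_one_le hG (fun P _ => ?_) fun P _ _ => ?_
  · exact inv_nonneg.mpr (by linarith [primePow_le_half hs.le P])
  · exact (one_le_inv₀ (by linarith [primePow_le_half hs.le P])).mpr
      (by linarith [primePow_pos s P])

/-- The exponential of the prime sum bounds the zeta sum from below. -/
lemma exp_tsum_primePow_le_zetaSum {s : ℝ} (hs : 1 < s) :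
    Real.exp (∑' P : HeightOneSpectrum (𝓞 K), primePow s P) ≤ zetaSum K s :=
  le_of_tendsto ((Real.continuous_exp.tendsto _).comp (summable_primePow hs).hasSum)
    (Eventually.of_forall fun F => exp_sum_primePow_le_zetaSum hs F)

variable (K) in
/-- The zeta sum is bounded by the exponential of the prime sum. -/
lemma exists_zetaSum_le_exp : ∃ T : ℝ, ∀ s : ℝ, 1 < s →
    zetaSum K s ≤ Real.exp ((∑' P : HeightOneSpectrum (𝓞 K), primePow s P) + T) := by
  refine ⟨2 * ∑' P : HeightOneSpectrum (𝓞 K), primePow 2 P, fun s hs => ?_⟩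
  refine le_of_tendsto (tendsto_zetaSum_euler hs) (Eventually.of_forall fun F => ?_)
  calc ∏ P ∈ F, (1 - primePow s P)⁻¹
      ≤ ∏ P ∈ F, Real.exp (primePow s P + 2 * primePow 2 P) := by
        refine Finset.prod_le_prod (fun P _ => inv_nonneg.mpr
          (by linarith [primePow_le_half hs.le P])) fun P _ => ?_
        have hx := primePow_le_half hs.le P
        have hx0 := primePow_pos s P
        refine le_trans ?_ ((Real.add_one_le_exp _).trans (Real.exp_le_exp.mpr
          (add_le_add le_rfl (mul_le_mul_of_nonneg_left (primePow_sq_le hs.le P) zero_le_two))))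
        rw [inv_le_iff_one_le_mul₀ (by linarith)]
        nlinarith [mul_nonneg hx0.le (sub_nonneg.mpr hx)]
    _ = Real.exp ((∑ P ∈ F, primePow s P) + 2 * ∑ P ∈ F, primePow 2 P) := by
        rw [← Real.exp_sum, Finset.sum_add_distrib, Finset.mul_sum]
    _ ≤ _ := Real.exp_le_exp.mpr (add_le_add
        ((summable_primePow hs).sum_le_tsum _ fun P _ => (primePow_pos s P).le)
        (mul_le_mul_of_nonneg_left
          ((summable_primePow one_lt_two).sum_le_tsum _ fun P _ => (primePow_pos 2 P).le)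
          zero_le_two))

/-- A lower bound for the absolute value of a class `L`-series. -/
lemma exp_sub_le_norm_classL (ψ : ClassGroup (𝓞 K) →* ℂˣ) {s : ℝ} (hs : 1 < s) :
    Real.exp ((∑' P : {P : HeightOneSpectrum (𝓞 K) // ψ (ClassGroup.mk0 (primeIdeal P)) = 1},
        primePow s P.1) -
      ∑' P : {P : HeightOneSpectrum (𝓞 K) // ψ (ClassGroup.mk0 (primeIdeal P)) ≠ 1},
        primePow s P.1) ≤ ‖classL ψ s‖ := by
  let g : (Ideal (𝓞 K))⁰ →* ℂ :=
    ((Units.coeHom ℂ).comp (ψ.comp ClassGroup.mk0)) *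
      ((Complex.ofRealHom : ℝ →+* ℂ).toMonoidHom.comp (normPowHom s))
  have hgn : ∀ I, ‖g I‖ = normPow s I := fun I => by
    show ‖(ψ (ClassGroup.mk0 I) : ℂ) * (normPow s I : ℂ)‖ = _
    rw [norm_mul, norm_charVal, one_mul, Complex.norm_real, Real.norm_eq_abs,
      abs_of_pos (normPow_pos s I)]
  have h := (tendsto_supportedOn g
    (fun P => ((hgn _).trans_le (primePow_le_half hs.le P)).trans_lt (by norm_num))
    ((summable_normPow hs).congr fun I => (hgn I).symm)).norm
  set A : Set (HeightOneSpectrum (𝓞 K)) := {P | ψ (ClassGroup.mk0 (primeIdeal P)) = 1}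
  set σ : HeightOneSpectrum (𝓞 K) → ℝ :=
    fun P => A.indicator (primePow s) P - Aᶜ.indicator (primePow s) P
  have hσ : HasSum σ ((∑' P : A, primePow s P.1) - ∑' P : (Aᶜ : Set _), primePow s P.1) := by
    refine HasSum.sub ?_ ?_ <;>
      refine hasSum_subtype_iff_indicator.mp (Summable.hasSum ?_) <;>
      exact (summable_primePow hs).comp_injective Subtype.val_injective
  refine le_of_tendsto_of_tendsto ((Real.continuous_exp.tendsto _).comp hσ) h
    (Eventually.of_forall fun F => ?_)
  simp only [Function.comp_apply]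
  rw [Real.exp_sum, norm_prod]
  refine Finset.prod_le_prod (fun P _ => (Real.exp_pos _).le) fun P _ => ?_
  have hx := primePow_pos s P
  have hx2 := primePow_le_half hs.le P
  have hge : 1 / 2 ≤ ‖1 - g (primeIdeal P)‖ := by
    have := norm_sub_norm_le (1 : ℂ) (g (primeIdeal P))
    rw [norm_one, hgn] at this
    simp only [primePow] at hx2
    linarith
  rw [norm_inv, le_inv_comm₀ (Real.exp_pos _) (by linarith), ← Real.exp_neg]
  by_cases hA : P ∈ A
  · have hg : g (primeIdeal P) = (primePow s P : ℂ) := by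
      show (ψ (ClassGroup.mk0 (primeIdeal P)) : ℂ) * (normPow s (primeIdeal P) : ℂ) = _
      rw [show ψ (ClassGroup.mk0 (primeIdeal P)) = 1 from hA, Units.val_one, one_mul]
      rfl
    rw [hg, ← Complex.ofReal_one, ← Complex.ofReal_sub, Complex.norm_real, Real.norm_eq_abs,
      abs_of_nonneg (by linarith)]
    simp only [σ, Set.indicator_of_mem hA, Set.indicator_of_notMem (Set.notMem_compl_iff.mpr hA),
      sub_zero]
    linarith [Real.add_one_le_exp (-primePow s P)]
  · simp only [σ, Set.indicator_of_notMem hA, Set.indicator_of_mem (show P ∈ Aᶜ from hA),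
      zero_sub, neg_neg]
    refine (norm_sub_le _ _).trans ?_
    rw [norm_one, hgn]
    show 1 + primePow s P ≤ _
    linarith [Real.add_one_le_exp (primePow s P)]

lemma exists_prime_pow_absNorm (P : HeightOneSpectrum (𝓞 K)) :
    ∃ q f : ℕ, q.Prime ∧ 0 < f ∧ Ideal.absNorm P.asIdeal = q ^ f ∧ (q : 𝓞 K) ∈ P.asIdeal := by
  have : P.asIdeal.IsMaximal := P.isPrime.isMaximal P.ne_bot
  have : Finite (𝓞 K ⧸ P.asIdeal) := Ideal.finiteQuotientOfFreeOfNeBot _ P.ne_bot
  let _ : Field (𝓞 K ⧸ P.asIdeal) := Ideal.Quotient.field _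
  have : Fintype (𝓞 K ⧸ P.asIdeal) := Fintype.ofFinite _
  obtain ⟨q, hq⟩ := CharP.exists (𝓞 K ⧸ P.asIdeal)
  obtain ⟨n, hn, hcard⟩ := FiniteField.card (𝓞 K ⧸ P.asIdeal) q
  refine ⟨q, n, hn, n.2, ?_, ?_⟩
  · rw [Ideal.absNorm_apply, Submodule.cardQuot_apply, Nat.card_eq_fintype_card, hcard]
  · rw [← Ideal.Quotient.eq_zero_iff_mem, map_natCast]
    exact CharP.cast_eq_zero _ q

variable (K) in
/-- The primes of residue degree at least two contribute boundedly. -/
lemma exists_tsum_nonPrimeNorm_le : ∃ T : ℝ, ∀ s : ℝ, 1 < s →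
    ∑' P : {P : HeightOneSpectrum (𝓞 K) // ¬ (Ideal.absNorm P.asIdeal).Prime},
      primePow s P.1 ≤ T := by
  choose q f hq hf hN hmem using fun P : HeightOneSpectrum (𝓞 K) => exists_prime_pow_absNorm P
  set d := Module.finrank ℚ K
  set S := {P : HeightOneSpectrum (𝓞 K) // ¬ (Ideal.absNorm P.asIdeal).Prime}
  have hfib : ∀ (m : ℕ) (T : Finset S), (∀ P ∈ T, q P.1 = m) → T.card ≤ d := by
    intro m T hT
    rcases T.eq_empty_or_nonempty with rfl | ⟨P₀, hP₀⟩
    · simp
    have hm : m.Prime := hT P₀ hP₀ ▸ hq P₀.1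
    have hdvd : ∏ P ∈ T, P.1.asIdeal ∣ Ideal.span {(m : 𝓞 K)} := by
      refine Finset.prod_dvd_of_coprime (fun a _ b _ hab => ?_) fun P hP => ?_
      · have := a.1.isPrime.isMaximal a.1.ne_bot
        have := b.1.isPrime.isMaximal b.1.ne_bot
        exact Ideal.isCoprime_iff_sup_eq.mpr (Ideal.IsMaximal.coprime_of_ne this ‹_›
          fun h => hab (Subtype.ext (HeightOneSpectrum.ext h.symm)))|>.symm
      · exact Ideal.dvd_span_singleton.mpr (hT P hP ▸ hmem P.1)
    have h := Nat.le_of_dvd (by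
        rw [Ideal.absNorm_span_singleton, Int.natAbs_pos, Algebra.norm_ne_zero_iff]
        exact_mod_cast hm.ne_zero) (map_dvd Ideal.absNorm hdvd)
    rw [map_prod, Ideal.absNorm_span_singleton, ← map_natCast (algebraMap ℤ (𝓞 K)),
      Algebra.norm_algebraMap, Int.natAbs_pow, Int.natAbs_natCast, RingOfIntegers.rank] at h
    have h2 : m ^ T.card ≤ ∏ P ∈ T, Ideal.absNorm P.1.asIdeal := by
      refine Finset.pow_card_le_prod _ _ _ fun P hP => ?_
      rw [hN, hT P hP]
      exact Nat.le_self_pow (hf P.1).ne' m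
    exact (Nat.pow_le_pow_iff_right hm.one_lt).mp (h2.trans h)
  set g : S → ℝ := fun P => ((q P.1 : ℝ) ^ 2)⁻¹
  have hgs : Summable g := by
    let e := Equiv.sigmaFiberEquiv (fun P : S => q P.1)
    have hfin : ∀ m, Finite {P : S // q P.1 = m} := fun m => by
      by_contra hc
      have : Infinite {P : S // q P.1 = m} := not_finite_iff_infinite.mp hc
      obtain ⟨T, hT⟩ := Infinite.exists_subset_card_eq {P : S // q P.1 = m} (d + 1)
      have := hfib m (T.map (Function.Embedding.subtype _)) (fun P hP => by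
        obtain ⟨x, -, rfl⟩ := Finset.mem_map.mp hP; exact x.2)
      rw [Finset.card_map, hT] at this
      omega
    rw [← e.summable_iff]
    refine (summable_sigma_of_nonneg (f := g ∘ e) fun z => by
      simp only [g, Function.comp_apply]; positivity).mpr
      ⟨fun m => Summable.of_finite, ?_⟩
    refine Summable.of_nonneg_of_le
      (fun m => tsum_nonneg fun P => by simp only [g, Function.comp_apply]; positivity)
      (fun m => ?_) ((Real.summable_nat_pow_inv.mpr one_lt_two).mul_left (d : ℝ))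
    have : Fintype {P : S // q P.1 = m} := Fintype.ofFinite _
    rw [tsum_fintype]
    have hc := hfib m (Finset.univ.map (Function.Embedding.subtype fun P : S => q P.1 = m))
      (fun P hP => by obtain ⟨x, -, rfl⟩ := Finset.mem_map.mp hP; exact x.2)
    rw [Finset.card_map] at hc
    calc ∑ P : {P : S // q P.1 = m}, (g ∘ e) ⟨m, P⟩
        = ∑ _P : {P : S // q P.1 = m}, ((m : ℝ) ^ 2)⁻¹ :=
          Finset.sum_congr rfl fun P _ => by simp [g, e, P.2]
      _ ≤ (d : ℝ) * ((m : ℝ) ^ 2)⁻¹ := by
          rw [Finset.sum_const, nsmul_eq_mul]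
          exact mul_le_mul_of_nonneg_right (Nat.cast_le.mpr hc) (by positivity)
  refine ⟨∑' P, g P, fun s hs =>
    ((summable_primePow hs).comp_injective Subtype.val_injective).tsum_le_tsum (fun P => ?_) hgs⟩
  have hf2 : 2 ≤ f P.1 := by
    rcases Nat.lt_or_ge (f P.1) 2 with h | h
    · have h1 : f P.1 = 1 := by have := hf P.1; omega
      exact absurd (by rw [hN, h1, pow_one]; exact hq P.1) P.2
    · exact h
  have hq1 : (1 : ℝ) ≤ q P.1 := Nat.one_le_cast.mpr (hq P.1).one_lt.le
  simp only [primePow, normPow, coe_primeIdeal, hN, g]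
  push_cast
  rw [← Real.rpow_natCast, ← Real.rpow_natCast, ← Real.rpow_mul (zero_le_one.trans hq1),
    ← Real.rpow_neg (zero_le_one.trans hq1)]
  refine Real.rpow_le_rpow_of_exponent_le hq1 ?_
  have : (2 : ℝ) ≤ f P.1 := by exact_mod_cast hf2
  push_cast
  nlinarith

end FermatAgent.CFT
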