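import Mathlib

/-!
Multiplicities of primes in ideals of a Dedekind domain.
-/

set_option autoImplicit false

noncomputable section

open UniqueFactorizationMonoid
open scoped Classical nonZeroDivisors

namespace FermatAgent.CFT

variable {R : Type*} [CommRing R] [IsDedekindDomain R]

/-- The multiplicity of `P` in `I`. -/
def ordIdeal (P I : Ideal R) : ℕ := (normalizedFactors I).count P

/-- Orders of products add. -/
lemma ordIdeal_mul (P : Ideal R) {I J : Ideal R} (hI : I ≠ ⊥) (hJ : J ≠ ⊥) :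
    ordIdeal P (I * J) = ordIdeal P I + ordIdeal P J := by
  rw [ordIdeal, normalizedFactors_mul (by simpa using hI) (by simpa using hJ), Multiset.count_add]
  rfl

/-- Orders of powers. -/
lemma ordIdeal_pow (P : Ideal R) (I : Ideal R) (n : ℕ) :
    ordIdeal P (I ^ n) = n * ordIdeal P I := by
  rw [ordIdeal, normalizedFactors_pow, Multiset.count_nsmul]
  rfl

/-- A prime has order one at itself. -/
lemma ordIdeal_self {P : Ideal R} [hP : P.IsPrime] (hP0 : P ≠ ⊥) : ordIdeal P P = 1 := by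
  rw [ordIdeal, normalizedFactors_irreducible (Ideal.prime_of_isPrime hP0 hP).irreducible,
    normalize_eq, Multiset.count_singleton_self]

/-- An ideal outside a prime has order zero. -/
lemma ordIdeal_eq_zero {P I : Ideal R} (h : ¬ I ≤ P) : ordIdeal P I = 0 :=
  Multiset.count_eq_zero.mpr fun hm => h (Ideal.le_of_dvd (dvd_of_mem_normalizedFactors hm))

lemma pow_ordIdeal_dvd {P I : Ideal R} (hI : I ≠ ⊥) : P ^ ordIdeal P I ∣ I := by
  have h := Multiset.prod_dvd_prod_of_le
    (Multiset.le_count_iff_replicate_le.mp (le_refl (ordIdeal P I)))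
  rw [Multiset.prod_replicate] at h
  exact dvd_trans h (prod_normalizedFactors (by simpa using hI)).dvd

/-- An ideal is the exact power times an ideal prime to the prime. -/
lemma exists_eq_pow_ordIdeal_mul {P I : Ideal R} [hP : P.IsPrime] (hP0 : P ≠ ⊥) (hI : I ≠ ⊥) :
    ∃ J : Ideal R, I = P ^ ordIdeal P I * J ∧ ¬ J ≤ P := by
  obtain ⟨J, hJ⟩ := pow_ordIdeal_dvd (P := P) hI
  refine ⟨J, hJ, fun hle => ?_⟩
  obtain ⟨J', rfl⟩ := Ideal.dvd_iff_le.mpr hle
  have hJ'0 : J' ≠ ⊥ := fun h => hI (by rw [hJ, h]; simp)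
  have h := congrArg (ordIdeal P) hJ
  rw [← mul_assoc, ← pow_succ, ordIdeal_mul P (by simpa using pow_ne_zero _ hP0) hJ'0,
    ordIdeal_pow, ordIdeal_self hP0] at h
  omega

/-- An ideal inside a prime has positive order. -/
lemma one_le_ordIdeal {P I : Ideal R} [hP : P.IsPrime] (hP0 : P ≠ ⊥) (hI : I ≠ ⊥) (h : I ≤ P) :
    1 ≤ ordIdeal P I := by
  obtain ⟨J, hJ, hJP⟩ := exists_eq_pow_ordIdeal_mul hP0 hI
  by_contra hc
  rw [Nat.lt_one_iff.mp (not_le.mp hc), pow_zero, one_mul] at hJ
  exact hJP (hJ ▸ h)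

section Map

variable {S : Type*} [CommRing S] [IsDedekindDomain S] [Algebra R S] [Module.IsTorsionFree R S]

/-- Multiplicities of extended ideals. -/
lemma ordIdeal_map {P : Ideal R} [P.IsPrime] (hP0 : P ≠ ⊥) (Q : Ideal S)
    (hQ : Q.comap (algebraMap R S) = P) {I : Ideal R} (hI : I ≠ ⊥) :
    ordIdeal Q (I.map (algebraMap R S)) =
      ordIdeal P I * ordIdeal Q (P.map (algebraMap R S)) := by
  obtain ⟨J, hJ, hJP⟩ := exists_eq_pow_ordIdeal_mul hP0 hI
  have hinj := FaithfulSMul.algebraMap_injective R S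
  have hJ0 : J ≠ ⊥ := fun h => hI (by rw [hJ, h]; simp)
  have hmap : ∀ {X : Ideal R}, X ≠ ⊥ → X.map (algebraMap R S) ≠ ⊥ := fun hX h =>
    hX ((Ideal.map_eq_bot_iff_of_injective hinj).mp h)
  conv_lhs => rw [hJ]
  rw [Ideal.map_mul, Ideal.map_pow, ordIdeal_mul Q (pow_ne_zero _ (hmap hP0)) (hmap hJ0),
    ordIdeal_pow, ordIdeal_eq_zero (I := J.map _) (fun h => hJP ?_), add_zero]
  rw [← hQ]
  exact Ideal.map_le_iff_le_comap.mp h

end Map

section Class

variable {G : Type*} [CommMonoid G]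

/-- A homomorphism on ideal classes evaluated on an ideal through its factorisation. -/
lemma map_mk0_eq_prod (φ : ClassGroup R →* G) {I : Ideal R} (hI : I ≠ ⊥)
    (f : Ideal R → G) (hf : ∀ P, ∀ hP : P ∈ normalizedFactors I,
      f P = φ (ClassGroup.mk0 ⟨P,
        mem_nonZeroDivisors_iff_ne_zero.mpr (ne_zero_of_mem_normalizedFactors hP)⟩)) :
    φ (ClassGroup.mk0 ⟨I, mem_nonZeroDivisors_iff_ne_zero.mpr hI⟩) =
      ∏ P ∈ (normalizedFactors I).toFinset, f P ^ ordIdeal P I := by
  have hI' : I ≠ 0 := hI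
  have key : ∀ (s : Multiset (Ideal R)) (hs : ∀ P ∈ s, P ≠ 0),
      φ (ClassGroup.mk0 ⟨s.prod, mem_nonZeroDivisors_iff_ne_zero.mpr
        (Multiset.prod_ne_zero fun h => hs 0 h rfl)⟩) =
      (s.pmap (fun P hP => φ (ClassGroup.mk0 ⟨P, mem_nonZeroDivisors_iff_ne_zero.mpr hP⟩))
        hs).prod := by
    intro s
    induction s using Multiset.induction with
    | empty =>
      intro hs
      simp only [Multiset.pmap_zero, Multiset.prod_zero]
      rw [show (⟨1, _⟩ : (Ideal R)⁰) = 1 from Subtype.ext rfl, map_one, map_one]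
    | cons a s ih =>
      intro hs
      simp only [Multiset.pmap_cons, Multiset.prod_cons]
      rw [← ih (fun P hP => hs P (Multiset.mem_cons_of_mem hP)), ← map_mul, ← map_mul]
      rfl
  have hne : ∀ P ∈ normalizedFactors I, P ≠ 0 := fun P hP => ne_zero_of_mem_normalizedFactors hP
  have h := key (normalizedFactors I) hne
  have hprod : (normalizedFactors I).prod = I := associated_iff_eq.mp (prod_normalizedFactors hI')
  simp only [ordIdeal]
  rw [← Finset.prod_multiset_map_count]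
  rw [show (⟨(normalizedFactors I).prod, _⟩ : (Ideal R)⁰) =
    ⟨I, mem_nonZeroDivisors_iff_ne_zero.mpr hI⟩ from Subtype.ext hprod] at h
  rw [h]
  congr 1
  rw [← Multiset.pmap_eq_map _ _ _ hne]
  exact (Multiset.pmap_congr _ (fun P hP _ _ => hf P hP)).symm

end Class

end FermatAgent.CFT
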