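import Fermat.Prelude.Def_ExtCitation_AdmissibleExtension_v2
import Fermat.Agent.GaloisBasic.Inertia
import Fermat.Agent.CFT.CycloUnit
import Fermat.Agent.CFT.IdealOrd

/-!
Kummer theory for a cocycle with values in `μ_p^{⊗ -1}`, unramified outside `p` and
trivial on a decomposition group above `p`.
-/

set_option autoImplicit false

noncomputable section

open NumberField UniqueFactorizationMonoid
open FermatAgent.GaloisBasic
open scoped Classical Pointwise

namespace FermatAgent.CFT

variable (p : ℕ) [hp : Fact p.Prime]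

/-- The mod `p` cyclotomic character of `G_ℚ`. -/
def cyc (σ : GQ) : ZMod p := (ExtCitation.cycloExp p σ : ZMod p)

lemma cyc_eq (σ : GQ) :
    cyc p σ = ((modularCyclotomicCharacter Qbar (ExtCitation.card_rootsOfUnity_eq_self p)
      (σ : Qbar ≃+* Qbar) : (ZMod p)ˣ) : ZMod p) :=
  ZMod.natCast_zmod_val _

/-- The cyclotomic character is multiplicative. -/
lemma cyc_mul (σ τ : GQ) : cyc p (σ * τ) = cyc p σ * cyc p τ := by
  rw [cyc_eq, cyc_eq, cyc_eq,
    show ((σ * τ : GQ) : Qbar ≃+* Qbar) = (σ : Qbar ≃+* Qbar) * τ from rfl,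
    map_mul, Units.val_mul]

/-- The cyclotomic character at one. -/
lemma cyc_one : cyc p 1 = 1 := by
  rw [cyc_eq, show ((1 : GQ) : Qbar ≃+* Qbar) = 1 from rfl, map_one, Units.val_one]

/-- The cyclotomic character is nonzero. -/
lemma cyc_ne_zero (σ : GQ) : cyc p σ ≠ 0 := by
  rw [cyc_eq]; exact Units.ne_zero _

/-- The action on `p`-th roots of unity. -/
lemma apply_root (σ : GQ) {x : Qbar} (hx : x ^ p = 1) : σ x = x ^ (cyc p σ).val := by
  have hx0 : x ≠ 0 := fun h => by simp [h, zero_pow hp.out.ne_zero] at hx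
  have h := modularCyclotomicCharacter.spec Qbar (ExtCitation.card_rootsOfUnity_eq_self p)
    (σ : Qbar ≃+* Qbar) (t := Units.mk0 x hx0)
    ((mem_rootsOfUnity p _).mpr (Units.ext (by simpa using hx)))
  rw [cyc_eq]
  simpa using h

/-- A primitive `p`-th root of unity in `ℚ̄`. -/
def zetaQ : Qbar := (HasEnoughRootsOfUnity.exists_primitiveRoot Qbar p).choose

/-- The root of unity is primitive. -/
lemma zetaQ_spec : IsPrimitiveRoot (zetaQ p) p :=
  (HasEnoughRootsOfUnity.exists_primitiveRoot Qbar p).choose_spec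

/-- `ζ ^ i` for `i : ZMod p`. -/
def zetaPow (i : ZMod p) : Qbar := zetaQ p ^ i.val

/-- Powers indexed by residues are the natural powers. -/
lemma zetaPow_natCast (n : ℕ) : zetaPow p (n : ZMod p) = zetaQ p ^ n := by
  rw [zetaPow, ZMod.val_natCast, ← pow_eq_pow_mod n (zetaQ_spec p).pow_eq_one]

lemma zetaPow_add (i j : ZMod p) : zetaPow p (i + j) = zetaPow p i * zetaPow p j := by
  conv_lhs => rw [← ZMod.natCast_zmod_val i, ← ZMod.natCast_zmod_val j, ← Nat.cast_add,
    zetaPow_natCast, pow_add]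
  rfl

/-- Roots of unity are nonzero. -/
lemma zetaPow_ne_zero (i : ZMod p) : zetaPow p i ≠ 0 :=
  pow_ne_zero _ ((zetaQ_spec p).ne_zero hp.out.ne_zero)

/-- The action on powers of the root of unity. -/
lemma apply_zetaPow (σ : GQ) (i : ZMod p) : σ (zetaPow p i) = zetaPow p (cyc p σ * i) := by
  rw [zetaPow, map_pow, apply_root p σ (zetaQ_spec p).pow_eq_one, ← pow_mul, ← zetaPow_natCast]
  simp

/-- The field `ℚ(ζ_p)` inside `ℚ̄`. -/
def CycField : IntermediateField ℚ Qbar := IntermediateField.adjoin ℚ {zetaQ p}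

instance cycField_isCyclotomic : IsCyclotomicExtension {p} ℚ (CycField p) :=
  (zetaQ_spec p).intermediateField_adjoin_isCyclotomicExtension ℚ

instance cycField_numberField : NumberField (CycField p) :=
  IsCyclotomicExtension.numberField {p} ℚ _

instance cycField_isGalois : IsGalois ℚ (CycField p) :=
  IsCyclotomicExtension.isGalois {p} ℚ _

/-- Restriction of automorphisms to `ℚ(ζ_p)`. -/
def resCyc : GQ →* (CycField p ≃ₐ[ℚ] CycField p) := AlgEquiv.restrictNormalHom (CycField p)

/-- The restriction acts as the original. -/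
lemma coe_resCyc (σ : GQ) (x : CycField p) : ((resCyc p σ x : CycField p) : Qbar) = σ x :=
  AlgEquiv.restrictNormal_commutes σ (CycField p) x

/-- The character of the restriction. -/
lemma omega_resCyc (σ : GQ) : (omega p (CycField p) (resCyc p σ) : ZMod p) = cyc p σ := by
  set z : CycField p := ((zetaInt p (CycField p) : 𝓞 (CycField p)) : CycField p)
  have hz : IsPrimitiveRoot z p := (zetaInt_spec p (CycField p)).map_of_injective
    RingOfIntegers.coe_injective
  have hz' : IsPrimitiveRoot ((z : CycField p) : Qbar) p :=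
    hz.map_of_injective (algebraMap (CycField p) Qbar).injective
  have h1 : resCyc p σ z = z ^ (omega p (CycField p) (resCyc p σ) : ZMod p).val :=
    IsCyclotomicExtension.Rat.galEquivZMod_apply_of_pow_eq p _ _ hz.pow_eq_one
  have h2 := congrArg (fun w : CycField p => (w : Qbar)) h1
  simp only [coe_resCyc, SubmonoidClass.coe_pow] at h2
  rw [apply_root p σ hz'.pow_eq_one] at h2
  exact ZMod.val_injective _ (hz'.pow_inj (ZMod.val_lt _) (ZMod.val_lt _) h2.symm)

/-- The cyclotomic character is onto. -/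
lemma exists_cyc_eq (c : (ZMod p)ˣ) : ∃ σ : GQ, cyc p σ = c := by
  obtain ⟨σ, hσ⟩ := AlgEquiv.restrictNormalHom_surjective (K₁ := CycField p) Qbar
    ((omega p (CycField p)).symm c)
  refine ⟨σ, ?_⟩
  rw [← omega_resCyc, show resCyc p σ = (omega p (CycField p)).symm c from hσ,
    MulEquiv.apply_symm_apply]

lemma mem_fixingSubgroup_cycField {σ : GQ} (h : cyc p σ = 1) :
    σ ∈ (CycField p).fixingSubgroup := by
  rw [← restrictNormalHom_eq_one_iff]
  apply (omega p (CycField p)).injective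
  rw [map_one]
  exact Units.ext ((omega_resCyc p σ).trans h)

/-- The group of the cyclotomic field is in the kernel. -/
lemma cyc_eq_one_of_mem_fixingSubgroup {σ : GQ} (h : σ ∈ (CycField p).fixingSubgroup) :
    cyc p σ = 1 := by
  rw [← restrictNormalHom_eq_one_iff] at h
  rw [← omega_resCyc, show resCyc p σ = 1 from h, map_one, Units.val_one]

/-- The kernel fixes the cyclotomic field. -/
lemma apply_eq_self {σ : GQ} (h : cyc p σ = 1) (x : CycField p) : σ (x : Qbar) = x :=
  (IntermediateField.mem_fixingSubgroup_iff _ σ).mp (mem_fixingSubgroup_cycField p h) _ x.2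

/-- A cocycle with values in the dual of the cyclotomic character, unramified outside `p`
and trivial on one decomposition group above `p`. -/
structure KummerCocycle where
  /-- The cocycle. -/
  a : GQ → ZMod p
  map_mul' : ∀ σ τ, a (σ * τ) = cyc p τ * a σ + a τ
  isOpen' : IsOpen {σ : GQ | cyc p σ = 1 ∧ a σ = 0}
  unramified' : ∀ ℓ : ℕ, ℓ.Prime → ℓ ≠ p → ∀ A : ValuationSubring Qbar, A.LiesOverPrime ℓ →
    ∀ σ ∈ A.inertiaSubgroupIn ℚ, cyc p σ = 1 ∧ a σ = 0
  /-- A place above `p`. -/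
  A₀ : ValuationSubring Qbar
  liesOver' : A₀.LiesOverPrime p
  split' : ∀ σ ∈ A₀.decompositionSubgroup ℚ, a σ = 0

namespace KummerCocycle

variable {p} (D : KummerCocycle p)

lemma a_one : D.a 1 = 0 := by
  have h := D.map_mul' 1 1
  rwa [mul_one, cyc_one, one_mul, left_eq_add] at h

lemma a_inv (σ : GQ) : D.a σ⁻¹ = -(cyc p σ⁻¹ * D.a σ) := by
  have h := D.map_mul' σ σ⁻¹
  rw [mul_inv_cancel, a_one] at h
  linear_combination -h

/-- The character of an inverse. -/
lemma cyc_inv_mul (σ : GQ) : cyc p σ⁻¹ * cyc p σ = 1 := by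
  rw [← cyc_mul, inv_mul_cancel, cyc_one]

/-- The Kummer datum transforms by the cyclotomic character. -/
lemma a_conj (σ : GQ) {h : GQ} (hh : cyc p h = 1) :
    cyc p (σ⁻¹ * h * σ) = 1 ∧ D.a (σ⁻¹ * h * σ) = cyc p σ * D.a h := by
  refine ⟨by rw [cyc_mul, cyc_mul, hh, mul_one, cyc_inv_mul], ?_⟩
  rw [D.map_mul', D.map_mul', a_inv, hh]
  linear_combination D.a σ * (-1 : ZMod p) * cyc_inv_mul (p := p) σ

lemma a_pow {h : GQ} (hh : cyc p h = 1) (n : ℕ) : cyc p (h ^ n) = 1 ∧ D.a (h ^ n) = n * D.a h := by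
  induction n with
  | zero => simp [cyc_one, a_one]
  | succ n ih =>
    rw [pow_succ, cyc_mul, D.map_mul', ih.1, ih.2, hh]
    exact ⟨one_mul _, by push_cast; ring⟩

/-- The subgroup cutting out the Kummer extension. -/
def group : Subgroup GQ where
  carrier := {σ | cyc p σ = 1 ∧ D.a σ = 0}
  one_mem' := ⟨cyc_one p, D.a_one⟩
  mul_mem' {x y} hx hy := ⟨by rw [cyc_mul, hx.1, hy.1, one_mul],
    by rw [D.map_mul', hx.2, hy.2, mul_zero, add_zero]⟩
  inv_mem' {x} hx := ⟨by
      have := cyc_inv_mul (p := p) x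
      rwa [hx.1, mul_one] at this,
    by rw [D.a_inv, hx.2, mul_zero, neg_zero]⟩

lemma mem_group {σ : GQ} : σ ∈ D.group ↔ cyc p σ = 1 ∧ D.a σ = 0 := Iff.rfl

instance group_normal : D.group.Normal where
  conj_mem n hn g := by
    obtain ⟨h1, h2⟩ := D.a_conj g⁻¹ hn.1
    rw [inv_inv] at h1 h2
    exact ⟨h1, by rw [h2, hn.2, mul_zero]⟩

/-- The group as a closed subgroup. -/
def closedGroup : ClosedSubgroup GQ :=
  ⟨D.group, Subgroup.isClosed_of_isOpen _ D.isOpen'⟩

/-- The Kummer extension. -/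
def field : IntermediateField ℚ Qbar := IntermediateField.fixedField D.group

/-- The group of the field of the datum. -/
lemma fixingSubgroup_field : D.field.fixingSubgroup = D.group :=
  InfiniteGalois.fixingSubgroup_fixedField D.closedGroup

instance field_isGalois : IsGalois ℚ D.field :=
  (InfiniteGalois.normal_iff_isGalois D.field).mp (by rw [fixingSubgroup_field]; infer_instance)

instance field_finiteDimensional : FiniteDimensional ℚ D.field :=
  (InfiniteGalois.isOpen_iff_finite D.field).mp (by rw [fixingSubgroup_field]; exact D.isOpen')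

instance field_numberField : NumberField D.field := {}

/-- Restriction to the Kummer extension. -/
def res : GQ →* (D.field ≃ₐ[ℚ] D.field) := AlgEquiv.restrictNormalHom D.field

lemma res_eq {σ σ' : GQ} (hc : cyc p σ = cyc p σ') (ha : D.a σ = D.a σ') :
    D.res σ = D.res σ' := by
  have h : σ⁻¹ * σ' ∈ D.field.fixingSubgroup := by
    rw [fixingSubgroup_field, mem_group]
    refine ⟨by rw [cyc_mul, ← hc, cyc_inv_mul], ?_⟩
    rw [D.map_mul', a_inv, ← hc, ← ha]
    linear_combination D.a σ * (-1 : ZMod p) * cyc_inv_mul (p := p) σ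
  have h' := (restrictNormalHom_eq_one_iff D.field _).mpr h
  rw [map_mul, map_inv, inv_mul_eq_one] at h'
  exact h'

lemma finrank_field_le : Module.finrank ℚ D.field ≤ (p - 1) * p := by
  rw [← IsGalois.card_aut_eq_finrank]
  have hsurj : ∀ τ : D.field ≃ₐ[ℚ] D.field, ∃ σ, D.res σ = τ :=
    AlgEquiv.restrictNormalHom_surjective Qbar
  choose lift hlift using hsurj
  let f : (D.field ≃ₐ[ℚ] D.field) → (ZMod p)ˣ × ZMod p := fun τ =>
    (Units.mk0 _ (cyc_ne_zero p (lift τ)), D.a (lift τ))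
  have hf : Function.Injective f := fun τ τ' h => by
    rw [← hlift τ, ← hlift τ']
    exact D.res_eq (congrArg Units.val (congrArg Prod.fst h)) (congrArg Prod.snd h :)
  refine (Nat.card_le_card_of_injective f hf).trans_eq ?_
  rw [Nat.card_prod, Nat.card_eq_fintype_card, ZMod.card_units p, Nat.card_eq_fintype_card,
    ZMod.card]

/-- A Kummer generator. -/
lemma exists_radical (hne : ∃ h, cyc p h = 1 ∧ D.a h ≠ 0) :
    ∃ β : ZBar, (β : Qbar) ≠ 0 ∧
      ∀ h, cyc p h = 1 → h (β : Qbar) = zetaPow p (D.a h) * (β : Qbar) := by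
  obtain ⟨h₁, hc₁, ha₁⟩ := hne
  obtain ⟨hc₀, ha₀⟩ := D.a_pow hc₁ (D.a h₁)⁻¹.val
  rw [ZMod.natCast_zmod_val, inv_mul_cancel₀ ha₁] at ha₀
  set h₀ := h₁ ^ (D.a h₁)⁻¹.val
  let f : ZMod p → (D.field →* Qbar) := fun i =>
    ((h₀ ^ i.val : GQ).toAlgHom.comp D.field.val).toRingHom.toMonoidHom
  have hf : Function.Injective f := by
    intro i j h
    have h' : D.res (h₀ ^ i.val) = D.res (h₀ ^ j.val) := AlgEquiv.ext fun x => by
      refine (algebraMap D.field Qbar).injective ?_
      show (((AlgEquiv.restrictNormalHom D.field) (h₀ ^ i.val) x : D.field) : Qbar) =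
        ((AlgEquiv.restrictNormalHom D.field) (h₀ ^ j.val) x : D.field)
      exact ((AlgEquiv.restrictNormal_commutes (h₀ ^ i.val) D.field x).trans
        (DFunLike.congr_fun h x)).trans
        (AlgEquiv.restrictNormal_commutes (h₀ ^ j.val) D.field x).symm
    rw [← inv_mul_eq_one, ← map_inv, ← map_mul] at h'
    have h2 := (restrictNormalHom_eq_one_iff D.field _).mp h'
    rw [fixingSubgroup_field, mem_group, D.map_mul', a_inv] at h2
    obtain ⟨hci, hai⟩ := D.a_pow hc₀ i.val
    obtain ⟨hcj, haj⟩ := D.a_pow hc₀ j.val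
    have hinv : cyc p (h₀ ^ i.val)⁻¹ = 1 := by
      have := cyc_inv_mul (p := p) (h₀ ^ i.val)
      rwa [hci, mul_one] at this
    have h3 := h2.2
    rw [hinv, hcj, hai, haj, ha₀, ZMod.natCast_zmod_val, ZMod.natCast_zmod_val] at h3
    linear_combination -h3
  obtain ⟨x, hx⟩ : ∃ x : D.field, ∑ i, zetaPow p (-i) * f i x ≠ 0 := by
    by_contra hc
    push Not at hc
    have := Fintype.linearIndependent_iff.mp ((linearIndependent_monoidHom D.field Qbar).comp f hf)
      (fun i => zetaPow p (-i)) (funext fun x => by simpa using hc x) 0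
    exact zetaPow_ne_zero p _ this
  set θ := ∑ i, zetaPow p (-i) * f i x
  have hθ : ∀ h, cyc p h = 1 → h θ = zetaPow p (D.a h) * θ := by
    intro h hh
    simp only [θ, map_sum, Finset.mul_sum, map_mul, apply_zetaPow, hh, one_mul]
    refine Fintype.sum_equiv (Equiv.addRight (D.a h)) _ _ fun i => ?_
    rw [Equiv.coe_addRight, ← mul_assoc, ← zetaPow_add]
    rw [show D.a h + -(i + D.a h) = -i by ring]
    congr 1
    have hr : D.res (h * h₀ ^ i.val) = D.res (h₀ ^ (i + D.a h).val) := by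
      obtain ⟨hci, hai⟩ := D.a_pow hc₀ i.val
      obtain ⟨hcj, haj⟩ := D.a_pow hc₀ (i + D.a h).val
      refine D.res_eq (by rw [cyc_mul, hh, hci, hcj, one_mul]) ?_
      rw [D.map_mul', hci, hai, haj, ha₀, ZMod.natCast_zmod_val, ZMod.natCast_zmod_val]
      ring
    show (h * h₀ ^ i.val : GQ) (x : Qbar) = (h₀ ^ (i + D.a h).val : GQ) (x : Qbar)
    exact ((AlgEquiv.restrictNormal_commutes _ D.field x).symm.trans
      (congrArg (fun τ : D.field ≃ₐ[ℚ] D.field => ((τ x : D.field) : Qbar)) hr)).trans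
      (AlgEquiv.restrictNormal_commutes _ D.field x)
  obtain ⟨y, hy, hyint⟩ := ((IsFractionRing.isAlgebraic_iff ℤ ℚ Qbar).mpr
    (Algebra.IsAlgebraic.isAlgebraic θ)).exists_integral_multiple
  refine ⟨⟨y • θ, hyint⟩, ?_, fun h hh => ?_⟩
  · simpa [zsmul_eq_mul] using And.intro hy hx
  · show h (y • θ) = _ * (y • θ)
    rw [map_zsmul, hθ h hh, mul_smul_comm]

lemma cycField_le : CycField p ≤ D.field := fun x hx => by
  refine (IntermediateField.mem_fixedField_iff _ x).mpr fun σ hσ => ?_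
  exact apply_eq_self p hσ.1 ⟨x, hx⟩

instance algebraField : Algebra (CycField p) D.field :=
  (IntermediateField.inclusion D.cycField_le).toRingHom.toAlgebra

/-- The map on rings of integers. -/
abbrev intMap : 𝓞 (CycField p) →+* 𝓞 D.field := algebraMap _ _

/-- The integral map is the inclusion. -/
lemma incl_intMap (x : 𝓞 (CycField p)) :
    ringOfIntegersIncl D.field (D.intMap x) = ringOfIntegersIncl (CycField p) x :=
  Subtype.ext rfl

/-- The integral map is injective. -/
lemma intMap_injective : Function.Injective D.intMap :=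
  FaithfulSMul.algebraMap_injective _ _

lemma comap_centerIn (A : ValuationSubring Qbar) :
    (centerIn D.field A).comap D.intMap = centerIn (CycField p) A := by
  ext x
  simp only [centerIn, Ideal.mem_comap, incl_intMap]

lemma res_smul_intMap {h : GQ} (hh : cyc p h = 1) (x : 𝓞 (CycField p)) :
    D.res h • D.intMap x = D.intMap x := by
  have hinj : Function.Injective (ringOfIntegersIncl D.field) := fun a b he =>
    RingOfIntegers.coe_injective (Subtype.ext (congrArg Subtype.val he :))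
  apply hinj
  rw [KummerCocycle.res, coe_restrictNormal_smul, incl_intMap]
  exact Subtype.ext (apply_eq_self p hh _)

/-- Places with the same trace on the Kummer extension differ by its Galois group. -/
lemma exists_smul_eq_of_centerIn_eq {A A' : ValuationSubring Qbar} {q : ℕ} (hq : q.Prime)
    (hA : A.LiesOverPrime q) (h : centerIn D.field A = centerIn D.field A') :
    ∃ n ∈ D.group, n • A = A' := by
  obtain ⟨g, hg, hgA⟩ := exists_fixing_smul_center_eq D.field h
  exact ⟨g, D.fixingSubgroup_field ▸ hg,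
    eq_of_center_eq hq (liesOverPrime_smul _ hA) (by rw [center_smul, hgA])⟩

lemma zeta_sub_one_pow_associated :
    Associated ((zetaInt p (CycField p) - 1) ^ (p - 1)) (p : 𝓞 (CycField p)) :=
  (IsCyclotomicExtension.Rat.associated_zeta_sub_one_pow_prime p
    (IsCyclotomicExtension.zeta_spec p ℚ (CycField p)))

lemma zeta_sub_one_mem {A : ValuationSubring Qbar} (hA : A.LiesOverPrime p) :
    zetaInt p (CycField p) - 1 ∈ centerIn (CycField p) A :=
  (centerIn_isPrime (CycField p) A).mem_of_pow_mem (p - 1)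
    ((Ideal.mem_iff_of_associated zeta_sub_one_pow_associated).mpr
      (natCast_mem_centerIn (CycField p) hA))

lemma centerIn_cycField_eq_span {A : ValuationSubring Qbar} (hA : A.LiesOverPrime p) :
    centerIn (CycField p) A = Ideal.span {zetaInt p (CycField p) - 1} := by
  have hne : zetaInt p (CycField p) - 1 ≠ 0 :=
    sub_ne_zero.mpr ((zetaInt_spec p (CycField p)).ne_one hp.out.one_lt)
  have hprime : (Ideal.span {zetaInt p (CycField p) - 1}).IsPrime :=
    (Ideal.span_singleton_prime hne).mpr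
      (IsCyclotomicExtension.zeta_spec p ℚ (CycField p)).zeta_sub_one_prime'
  exact ((hprime.isMaximal (by simpa using hne)).eq_of_le (centerIn_isPrime (CycField p) A).ne_top
    (Ideal.span_le.mpr (Set.singleton_subset_iff.mpr (zeta_sub_one_mem hA)))).symm

lemma natCast_dvd_absNorm {Q : Ideal (𝓞 D.field)} [Q.IsPrime] (hQ : (p : 𝓞 D.field) ∈ Q) :
    p ∣ Ideal.absNorm Q := by
  by_contra hd
  have h : IsCoprime (p : ℤ) (Ideal.absNorm Q : ℤ) :=
    Nat.isCoprime_iff_coprime.mpr ((hp.out.coprime_iff_not_dvd).mpr hd)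
  obtain ⟨x, y, hxy⟩ := h
  apply (inferInstance : Q.IsPrime).ne_top
  rw [Ideal.eq_top_iff_one, show (1 : 𝓞 D.field) =
    (x : 𝓞 D.field) * (p : 𝓞 D.field) + (y : 𝓞 D.field) * (Ideal.absNorm Q : 𝓞 D.field) by
      exact_mod_cast congrArg (Int.cast : ℤ → 𝓞 D.field) hxy.symm]
  exact Q.add_mem (Q.mul_mem_left _ hQ) (Q.mul_mem_left _ (Ideal.absNorm_mem Q))

/-- The prime above `p` is split in the Kummer extension. -/
lemma exists_split (hne : ∃ h, cyc p h = 1 ∧ D.a h ≠ 0) :
    ∃ Q : ZMod p → Ideal (𝓞 D.field), (∀ i, (Q i).IsMaximal) ∧ Function.Injective Q ∧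
      Q 0 = centerIn D.field D.A₀ ∧
      (∀ i, ∃ g, cyc p g = 1 ∧ Q i = D.res g • Q 0) ∧
      (∀ i, Ideal.absNorm (Q i) = p) ∧
      Ideal.span {D.intMap (zetaInt p (CycField p) - 1)} = ∏ i, Q i := by
  obtain ⟨h₁, hc₁, ha₁⟩ := hne
  obtain ⟨hc₀, ha₀⟩ := D.a_pow hc₁ (D.a h₁)⁻¹.val
  rw [ZMod.natCast_zmod_val, inv_mul_cancel₀ ha₁] at ha₀
  set h₀ := h₁ ^ (D.a h₁)⁻¹.val
  set g : ZMod p → GQ := fun i => h₀ ^ i.val
  have hg : ∀ i, cyc p (g i) = 1 ∧ D.a (g i) = i := fun i => by
    obtain ⟨h1, h2⟩ := D.a_pow hc₀ i.val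
    exact ⟨h1, by rw [h2, ha₀, mul_one, ZMod.natCast_zmod_val]⟩
  set Q : ZMod p → Ideal (𝓞 D.field) := fun i => centerIn D.field (g i • D.A₀)
  have hg0 : g 0 = 1 := by simp [g]
  have hQ0 : Q 0 = centerIn D.field D.A₀ := by simp only [Q, hg0, one_smul]
  have hmax : ∀ i, (Q i).IsMaximal := fun i =>
    (centerIn_isPrime D.field _).isMaximal
      (centerIn_ne_bot D.field hp.out (liesOverPrime_smul _ D.liesOver'))
  have hinj : Function.Injective Q := by
    intro i j hij
    obtain ⟨n, hn, hnA⟩ := D.exists_smul_eq_of_centerIn_eq hp.out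
      (liesOverPrime_smul _ D.liesOver') hij
    have hd : (g j)⁻¹ * (n * g i) ∈ D.A₀.decompositionSubgroup ℚ := by
      show ((g j)⁻¹ * (n * g i)) • D.A₀ = D.A₀
      rw [mul_smul, mul_smul, hnA, inv_smul_smul]
    have h := D.split' _ hd
    have hjinv : cyc p (g j)⁻¹ = 1 := by
      have := cyc_inv_mul (p := p) (g j)
      rwa [(hg j).1, mul_one] at this
    rw [D.map_mul', D.map_mul', cyc_mul, hn.1, hn.2, a_inv, hjinv, (hg i).1, (hg i).2,
      (hg j).2] at h
    linear_combination h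
  have hzQ : ∀ i, D.intMap (zetaInt p (CycField p) - 1) ∈ Q i := fun i => by
    rw [← Ideal.mem_comap, D.comap_centerIn]
    exact zeta_sub_one_mem (liesOverPrime_smul _ D.liesOver')
  have hdvd : ∏ i, Q i ∣ Ideal.span {D.intMap (zetaInt p (CycField p) - 1)} := by
    refine Finset.prod_dvd_of_coprime (fun a _ b _ hab => ?_) fun j _ => ?_
    · exact Ideal.isCoprime_iff_sup_eq.mpr
        ((hmax a).coprime_of_ne (hmax b) fun h => hab (hinj h))
    · exact Ideal.dvd_span_singleton.mpr (hzQ j)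
  have hN : ∀ i, p ≤ Ideal.absNorm (Q i) := fun i => by
    have := (hmax i).isPrime
    refine Nat.le_of_dvd (Nat.pos_of_ne_zero (Ideal.absNorm_eq_zero_iff.not.mpr
      (centerIn_ne_bot D.field hp.out (liesOverPrime_smul _ D.liesOver')))) ?_
    exact D.natCast_dvd_absNorm (natCast_mem_centerIn D.field (liesOverPrime_smul _ D.liesOver'))
  set Z := Ideal.span {D.intMap (zetaInt p (CycField p) - 1)}
  have hne : D.intMap (zetaInt p (CycField p) - 1) ≠ 0 := (map_ne_zero_iff _ D.intMap_injective).mpr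
    (sub_ne_zero.mpr ((zetaInt_spec p (CycField p)).ne_one hp.out.one_lt))
  have hZ : Ideal.absNorm Z ≤ p ^ p := by
    have h1 : Z ^ (p - 1) = Ideal.span {(p : 𝓞 D.field)} := by
      rw [Ideal.span_singleton_pow, Ideal.span_singleton_eq_span_singleton]
      have := zeta_sub_one_pow_associated.map (D.intMap : 𝓞 (CycField p) →* 𝓞 D.field)
      simpa using this
    have h2 := congrArg Ideal.absNorm h1
    have hnp : Ideal.absNorm (Ideal.span {(p : 𝓞 D.field)}) = p ^ Module.finrank ℚ D.field := by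
      rw [Ideal.absNorm_span_singleton,
        show (p : 𝓞 D.field) = algebraMap ℤ (𝓞 D.field) (p : ℤ) from (map_natCast _ p).symm,
        Algebra.norm_algebraMap, RingOfIntegers.rank, Int.natAbs_pow, Int.natAbs_natCast]
    rw [map_pow, hnp] at h2
    refine (Nat.pow_le_pow_iff_left (n := p - 1) (by have := hp.out.two_le; omega)).mp ?_
    rw [h2, ← pow_mul]
    exact Nat.pow_le_pow_right hp.out.pos (D.finrank_field_le.trans_eq (mul_comm _ _))
  have hprod : ∏ i, Ideal.absNorm (Q i) ≤ p ^ p := by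
    rw [← map_prod]
    exact (Nat.le_of_dvd (Nat.pos_of_ne_zero (Ideal.absNorm_eq_zero_iff.not.mpr
      (by simpa [Z] using hne))) (map_dvd Ideal.absNorm hdvd)).trans hZ
  have hNeq : ∀ i, Ideal.absNorm (Q i) = p := by
    intro i
    by_contra hi
    have hlt : ∏ _i : ZMod p, p < ∏ i, Ideal.absNorm (Q i) :=
      Finset.prod_lt_prod (fun _ _ => hp.out.pos) (fun i _ => hN i)
        ⟨i, Finset.mem_univ _, lt_of_le_of_ne (hN i) (Ne.symm hi)⟩
    rw [Finset.prod_const, Finset.card_univ, ZMod.card] at hlt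
    exact absurd hprod (not_le.mpr hlt)
  refine ⟨Q, hmax, hinj, hQ0, fun i => ⟨g i, (hg i).1, ?_⟩, hNeq, ?_⟩
  · rw [hQ0, KummerCocycle.res, ← GaloisBasic.centerIn_smul]
  · obtain ⟨J, hJ⟩ := hdvd
    have h3 := congrArg Ideal.absNorm hJ
    rw [map_mul, map_prod, Finset.prod_congr rfl (fun i _ => hNeq i), Finset.prod_const,
      Finset.card_univ, ZMod.card] at h3
    have hJ0 : Ideal.absNorm J ≠ 0 := fun h => by
      rw [h, mul_zero] at h3
      exact Ideal.absNorm_eq_zero_iff.not.mpr (by simpa [Z] using hne) h3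
    have hJ1 : Ideal.absNorm J = 1 := by
      rw [h3] at hZ
      nlinarith [pow_pos hp.out.pos p, Nat.pos_of_ne_zero hJ0]
    rw [Ideal.absNorm_eq_one_iff.mp hJ1, Ideal.mul_top] at hJ
    exact hJ

lemma ordIdeal_prime_eq_zero {Q : Ideal (𝓞 D.field)} [Q.IsPrime] {ι : Type} {s : Finset ι}
    {P : ι → Ideal (𝓞 D.field)} (hP : ∀ i ∈ s, (P i).IsMaximal) (h : ∀ i ∈ s, P i ≠ Q) :
    ordIdeal Q (∏ i ∈ s, P i) = 0 := by
  refine ordIdeal_eq_zero fun hle => ?_
  obtain ⟨i, hi, hiQ⟩ := (Ideal.IsPrime.prod_le (inferInstance : Q.IsPrime)).mp hle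
  exact h i hi ((hP i hi).eq_of_le (inferInstance : Q.IsPrime).ne_top hiQ)

lemma ordIdeal_zeta (hne : ∃ h, cyc p h = 1 ∧ D.a h ≠ 0) :
    ordIdeal (centerIn D.field D.A₀)
      (Ideal.span {D.intMap (zetaInt p (CycField p) - 1)}) = 1 := by
  obtain ⟨Q, hmax, hinj, hQ0, -, -, hZ⟩ := D.exists_split hne
  have := (hmax 0).isPrime
  have hne' : ∀ i, Q i ≠ ⊥ := fun i =>
    Ring.ne_bot_of_isMaximal_of_not_isField (hmax i) (RingOfIntegers.not_isField D.field)
  rw [hZ, ← hQ0, ← Finset.mul_prod_erase Finset.univ Q (Finset.mem_univ 0),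
    ordIdeal_mul _ (hne' 0) (Finset.prod_ne_zero_iff.mpr fun i _ => hne' i),
    ordIdeal_self (hne' 0), D.ordIdeal_prime_eq_zero (fun i _ => hmax i)
      fun i hi h => (Finset.mem_erase.mp hi).1 (hinj h)]

/-- At places away from `p` the Kummer extension is unramified. -/
lemma ordIdeal_natCast {A : ValuationSubring Qbar} {q : ℕ} (hq : q.Prime) (hqp : q ≠ p)
    (hA : A.LiesOverPrime q) :
    ordIdeal (centerIn D.field A) (Ideal.span {(q : 𝓞 D.field)}) = 1 := by
  set Q := centerIn D.field A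
  have hQ0 : Q ≠ ⊥ := centerIn_ne_bot D.field hq hA
  have : Q.IsMaximal := (centerIn_isPrime D.field A).isMaximal hQ0
  have hbot : Q.inertia (D.field ≃ₐ[ℚ] D.field) = ⊥ := by
    rw [eq_bot_iff]
    intro τ hτ
    obtain ⟨σ, hσ, rfl⟩ :=
      exists_mem_inertiaSubgroupIn_restrictNormal_eq D.field hq hA τ (fun c => hτ c)
    rw [Subgroup.mem_bot]
    exact (restrictNormalHom_eq_one_iff D.field σ).mpr
      (D.fixingSubgroup_field.symm ▸ D.unramified' q hq hqp A hA σ hσ)
  have hunder : Q.under ℤ = Ideal.span {(q : ℤ)} := by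
    have hmax : (Ideal.span {(q : ℤ)}).IsMaximal :=
      PrincipalIdealRing.isMaximal_of_irreducible (Nat.prime_iff_prime_int.mp hq).irreducible
    refine (hmax.eq_of_le Ideal.IsPrime.ne_top' ?_).symm
    rw [Ideal.span_le, Set.singleton_subset_iff, SetLike.mem_coe, Ideal.mem_comap, map_natCast]
    exact natCast_mem_centerIn D.field hA
  have hmap : (Q.under ℤ).map (algebraMap ℤ (𝓞 D.field)) = Ideal.span {(q : 𝓞 D.field)} := by
    rw [hunder, Ideal.map_span, Set.image_singleton, map_natCast]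
  have : PerfectField (Q.under ℤ).ResidueField := by
    have : (Q.under ℤ).IsMaximal := Ideal.IsMaximal.under ℤ Q
    have : Finite (ℤ ⧸ Q.under ℤ) := Ring.HasFiniteQuotients.finiteQuotient (fun hz => by
      rw [hunder, Ideal.span_singleton_eq_bot] at hz
      exact hq.ne_zero (by exact_mod_cast hz))
    have : Finite (Q.under ℤ).ResidueField :=
      Finite.of_surjective _ (IsFractionRing.surjective_iff_isField.mpr
        ((Ideal.Quotient.maximal_ideal_iff_isField_quotient (Q.under ℤ)).mp inferInstance))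
    exact PerfectField.ofFinite
  have h := Ideal.IsDedekindDomain.ramificationIdx_eq_normalizedFactors_count (Q.under ℤ) Q (by
    rw [hmap, ne_eq, Ideal.span_singleton_eq_bot]; exact Nat.cast_ne_zero.mpr hq.ne_zero)
  rw [← Ideal.ramificationIdxIn_eq_ramificationIdx (Q.under ℤ) Q (D.field ≃ₐ[ℚ] D.field),
    ← Ideal.card_inertia_eq_ramificationIdxIn (G := (D.field ≃ₐ[ℚ] D.field)) (Q.under ℤ) Q, hbot,
    hmap] at h
  simpa [ordIdeal] using h.symm

/-- The multiplicities of a radicand are divisible by `p`. -/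
lemma dvd_ordIdeal (hne : ∃ h, cyc p h = 1 ∧ D.a h ≠ 0) {α : 𝓞 (CycField p)} (hα : α ≠ 0)
    {β : 𝓞 D.field} (hβ : β ^ p = D.intMap α) (P : Ideal (𝓞 (CycField p))) [P.IsMaximal] :
    p ∣ ordIdeal P (Ideal.span {α}) := by
  have hP0 : P ≠ ⊥ :=
    Ring.ne_bot_of_isMaximal_of_not_isField ‹_› (RingOfIntegers.not_isField (CycField p))
  obtain ⟨q, A, hq, hA, hPA⟩ := exists_center_centerIn_eq (CycField p) P
  suffices h : ∃ A' : ValuationSubring Qbar, centerIn (CycField p) A' = P ∧
      ordIdeal (centerIn D.field A') (P.map D.intMap) = 1 by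
    obtain ⟨A', hA', h1⟩ := h
    have hmap := ordIdeal_map hP0 (centerIn D.field A') ((D.comap_centerIn A').trans hA')
      (I := Ideal.span {α}) (by simpa using hα)
    rw [h1, mul_one, Ideal.map_span, Set.image_singleton,
      show algebraMap (𝓞 (CycField p)) (𝓞 D.field) α = β ^ p from hβ.symm,
      ← Ideal.span_singleton_pow, ordIdeal_pow] at hmap
    exact ⟨_, hmap.symm⟩
  by_cases hqp : q = p
  · subst hqp
    refine ⟨D.A₀, by rw [← hPA, centerIn_cycField_eq_span D.liesOver',
      centerIn_cycField_eq_span hA], ?_⟩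
    rw [← hPA, centerIn_cycField_eq_span hA, Ideal.map_span, Set.image_singleton]
    exact D.ordIdeal_zeta hne
  · refine ⟨A, hPA, ?_⟩
    have hqI : Ideal.span {(q : 𝓞 (CycField p))} ≠ ⊥ := by
      simpa using hq.ne_zero
    have hmap := ordIdeal_map hP0 (centerIn D.field A) ((D.comap_centerIn A).trans hPA)
      (I := Ideal.span {(q : 𝓞 (CycField p))}) hqI
    rw [Ideal.map_span, Set.image_singleton, map_natCast, D.ordIdeal_natCast hq hqp hA] at hmap
    exact Nat.eq_one_of_mul_eq_one_left hmap.symm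

/-- A radicand is congruent to a `p`-th power modulo `p`. -/
lemma exists_pow_congr (hne : ∃ h, cyc p h = 1 ∧ D.a h ≠ 0) {α : 𝓞 (CycField p)}
    {β : 𝓞 D.field} (hβ : β ^ p = D.intMap α) :
    ∃ y : 𝓞 (CycField p), (p : 𝓞 (CycField p)) ∣ α - y ^ p := by
  obtain ⟨Q, hmax, hinj, hQ0, hQg, hNQ, hZ⟩ := D.exists_split hne
  have hQne : Q 0 ≠ ⊥ := Ring.ne_bot_of_isMaximal_of_not_isField (hmax 0)
    (RingOfIntegers.not_isField D.field)
  have := (hmax 0).isPrime
  set z := D.intMap (zetaInt p (CycField p) - 1)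
  have hz1 : z ∈ Q 0 := by
    rw [← Ideal.span_singleton_le_iff_mem, hZ]
    exact Ideal.prod_le_inf.trans (Finset.inf_le (Finset.mem_univ 0))
  have hzord : ordIdeal (Q 0) (Ideal.span {z}) = 1 := hQ0 ▸ D.ordIdeal_zeta hne
  have hz0 : z ≠ 0 := fun h => by
    rw [h, Ideal.span_singleton_zero, ← Ideal.zero_eq_bot, ordIdeal, normalizedFactors_zero,
      Multiset.count_zero] at hzord
    exact zero_ne_one hzord
  have hznot : ∀ N, z ^ N ∉ Q 0 ^ (N + 1) := by
    intro N h
    obtain ⟨J, hJ⟩ := Ideal.dvd_span_singleton.mpr h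
    have hJ0 : J ≠ ⊥ := fun hb => by
      rw [hb, ← Ideal.zero_eq_bot, mul_zero, Ideal.zero_eq_bot, Ideal.span_singleton_eq_bot] at hJ
      exact pow_ne_zero N hz0 hJ
    have h' := congrArg (ordIdeal (Q 0)) hJ
    rw [← Ideal.span_singleton_pow, ordIdeal_pow, hzord,
      ordIdeal_mul _ (pow_ne_zero _ hQne) hJ0, ordIdeal_pow, ordIdeal_self hQne] at h'
    omega
  have : Finite (𝓞 D.field ⧸ Q 0) := Ring.HasFiniteQuotients.finiteQuotient hQne
  have : Fintype (𝓞 D.field ⧸ Q 0) := Fintype.ofFinite _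
  have hsurj : ∀ d : 𝓞 D.field, ∃ n : ℕ, d - n ∈ Q 0 := by
    intro d
    have hcard : Fintype.card (𝓞 D.field ⧸ Q 0) = p := by
      rw [← Nat.card_eq_fintype_card]
      exact hNQ 0
    have : CharP (𝓞 D.field ⧸ Q 0) p := charP_of_card_eq_prime hcard
    have hbij : Function.Bijective (ZMod.castHom (dvd_refl p) (𝓞 D.field ⧸ Q 0)) := by
      rw [Fintype.bijective_iff_injective_and_card]
      exact ⟨ZMod.castHom_injective _, by rw [ZMod.card, hcard]⟩
    obtain ⟨n, hn⟩ := hbij.2 (Ideal.Quotient.mk _ d)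
    refine ⟨n.val, Ideal.Quotient.eq.mp ?_⟩
    rw [map_natCast, ← hn]
    conv_lhs => rw [← ZMod.natCast_zmod_val n, map_natCast]
  have happrox : ∀ N, ∃ y : 𝓞 (CycField p), β - D.intMap y ∈ Q 0 ^ N := by
    intro N
    induction N with
    | zero => exact ⟨0, by simp⟩
    | succ N ih =>
      obtain ⟨y, hy⟩ := ih
      obtain ⟨d, e, he, hde⟩ := Ideal.exists_mul_add_mem_pow_succ hQne (z ^ N) (β - D.intMap y)
        (Ideal.pow_mem_pow hz1 N) (hznot N) hy
      obtain ⟨n, hn⟩ := hsurj d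
      refine ⟨y + (zetaInt p (CycField p) - 1) ^ N * n, ?_⟩
      have heq : β - D.intMap (y + (zetaInt p (CycField p) - 1) ^ N * n) =
          z ^ N * (d - n) + e := by
        rw [map_add, map_mul, map_pow, map_natCast]
        linear_combination -hde
      rw [heq]
      refine Ideal.add_mem _ ?_ he
      rw [pow_succ]
      exact Ideal.mul_mem_mul (Ideal.pow_mem_pow hz1 N) hn
  obtain ⟨y, hy⟩ := happrox (p - 1)
  refine ⟨y, ?_⟩
  have hmem : D.intMap (α - y ^ p) ∈ Q 0 ^ (p - 1) := by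
    rw [map_sub, map_pow, ← hβ]
    obtain ⟨c, hc⟩ := sub_dvd_pow_sub_pow β (D.intMap y) p
    rw [hc]
    exact Ideal.mul_mem_right _ _ hy
  have hmem' : ∀ i, D.intMap (α - y ^ p) ∈ Q i ^ (p - 1) := by
    intro i
    obtain ⟨g, hg, hQi⟩ := hQg i
    have h := Ideal.smul_mem_pointwise_smul (D.res g) _ _ hmem
    rwa [D.res_smul_intMap hg, smul_pow', ← hQi] at h
  have hdvd : Ideal.span {z} ^ (p - 1) ∣ Ideal.span {D.intMap (α - y ^ p)} := by
    rw [hZ, ← Finset.prod_pow]
    refine Finset.prod_dvd_of_coprime (fun a _ b _ hab => ?_) fun j _ => ?_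
    · exact (Ideal.isCoprime_iff_sup_eq.mpr
        ((hmax a).coprime_of_ne (hmax b) fun h => hab (hinj h))).pow
    · exact Ideal.dvd_span_singleton.mpr (hmem' j)
  rw [Ideal.span_singleton_pow, Ideal.dvd_span_singleton, Ideal.mem_span_singleton] at hdvd
  have hp' : (p : 𝓞 D.field) ∣ D.intMap (α - y ^ p) := by
    refine dvd_trans ?_ hdvd
    have := zeta_sub_one_pow_associated.map (D.intMap : 𝓞 (CycField p) →* 𝓞 D.field)
    simpa [z] using this.symm.dvd
  obtain ⟨c, hc⟩ := hp'
  have hc' := congrArg (ringOfIntegersIncl D.field) hc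
  rw [D.incl_intMap, map_mul, map_natCast] at hc'
  obtain ⟨c', hc''⟩ := exists_ringOfIntegersIncl_eq (CycField p)
    (b := ringOfIntegersIncl D.field c) fun σ hσ => by
      have h := congrArg (σ • ·) hc'
      simp only [smul_mul', show σ • ((p : ℕ) : ZBar) = p from
        map_natCast (MulSemiringAction.toRingHom GQ ZBar σ) p] at h
      rw [show σ • ringOfIntegersIncl (CycField p) (α - y ^ p) =
        ringOfIntegersIncl (CycField p) (α - y ^ p) from
        Subtype.ext ((IntermediateField.mem_fixingSubgroup_iff _ σ).mp hσ _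
          (SetLike.coe_mem _))] at h
      exact mul_left_cancel₀ (Nat.cast_ne_zero.mpr hp.out.ne_zero) (h.symm.trans hc')
  refine ⟨c', ?_⟩
  have hinj' : Function.Injective (ringOfIntegersIncl (CycField p)) := fun a b he =>
    RingOfIntegers.coe_injective (Subtype.ext (congrArg Subtype.val he :))
  apply hinj'
  rw [map_mul, map_natCast, hc'', hc']

end KummerCocycle

end FermatAgent.CFT
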