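import Fermat.Agent.CFT.UnitTent

/-!
Comparison of the sums `∑ W(x) |N x| ^ (-s)` over the ideal lattices of a number field, and hence
of the partial zeta functions of ideal classes, up to a bounded error as `s → 1+`.
-/

set_option autoImplicit false

noncomputable section

open NumberField NumberField.mixedEmbedding NumberField.InfinitePlace Module
open NumberField.Units NumberField.Units.dirichletUnitTheorem
open scoped Classical nonZeroDivisors

namespace FermatAgent.CFT

lemma abs_log_sub_log_le {a b c : ℝ} (hc : 0 < c) (ha : c ≤ a) (hb : c ≤ b) :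
    |Real.log a - Real.log b| ≤ |a - b| / c := by
  wlog h : b ≤ a generalizing a b with H
  · rw [abs_sub_comm, abs_sub_comm a b]; exact H hb ha (le_of_not_ge h)
  have hbp : 0 < b := hc.trans_le hb
  have hap : 0 < a := hc.trans_le ha
  rw [abs_of_nonneg (sub_nonneg.mpr (Real.log_le_log hbp h)),
    abs_of_nonneg (sub_nonneg.mpr h), ← Real.log_div hap.ne' hbp.ne']
  refine (Real.log_le_sub_one_of_pos (div_pos hap hbp)).trans ?_
  rw [div_sub_one hbp.ne']
  gcongr

/-- A mean value bound for the exponential. -/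
lemma abs_exp_sub_exp_le {a b c : ℝ} (ha : a ≤ c) (hb : b ≤ c) :
    |Real.exp a - Real.exp b| ≤ Real.exp c * |a - b| := by
  wlog h : b ≤ a generalizing a b with H
  · rw [abs_sub_comm, abs_sub_comm a b]; exact H hb ha (le_of_not_ge h)
  rw [abs_of_nonneg (sub_nonneg.mpr (Real.exp_le_exp.mpr h)), abs_of_nonneg (sub_nonneg.mpr h)]
  have h1 := Real.add_one_le_exp (b - a)
  have h2 : Real.exp b = Real.exp a * Real.exp (b - a) := by rw [← Real.exp_add]; ring_nf
  have h3 : Real.exp a - Real.exp b ≤ Real.exp a * (a - b) := by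
    rw [h2]; nlinarith [Real.exp_pos a]
  exact h3.trans (mul_le_mul_of_nonneg_right (Real.exp_le_exp.mpr ha) (sub_nonneg.mpr h))

variable {K : Type*} [Field K] [NumberField K]

/-- The summand. -/
def wNormTerm (s : ℝ) (x : mixedSpace K) : ℝ := unitWeight x * mixedEmbedding.norm x ^ (-s)

/-- The weighted norm terms are nonnegative. -/
lemma wNormTerm_nonneg (s : ℝ) (x : mixedSpace K) : 0 ≤ wNormTerm s x :=
  mul_nonneg (unitWeight_nonneg _) (Real.rpow_nonneg (mixedEmbedding.norm_nonneg _) _)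

/-- A place is bounded by the norm. -/
lemma normAtPlace_le_norm (w : InfinitePlace K) (x : mixedSpace K) : normAtPlace w x ≤ ‖x‖ := by
  rw [norm_eq_sup'_normAtPlace]
  exact Finset.le_sup' (fun w => normAtPlace w x) (Finset.mem_univ w)

lemma norm_pos_of_normAtPlace_pos {x : mixedSpace K} (h : ∀ w, 0 < normAtPlace w x) :
    0 < mixedEmbedding.norm x := by
  rw [mixedEmbedding.norm_apply]; exact Finset.prod_pos fun w _ => pow_pos (h w) _

lemma log_norm_eq {x : mixedSpace K} (h : ∀ w, 0 < normAtPlace w x) :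
    Real.log (mixedEmbedding.norm x) = ∑ w, (mult w : ℝ) * Real.log (normAtPlace w x) := by
  rw [mixedEmbedding.norm_apply, Real.log_prod (fun w _ => (pow_pos (h w) _).ne')]
  simp_rw [Real.log_pow]

lemma sum_mult_real : ∑ w : InfinitePlace K, (mult w : ℝ) = (finrank ℚ K : ℝ) := by
  rw [← Nat.cast_sum, InfinitePlace.sum_mult_eq]

variable (K) in
/-- On the support of the weight all absolute values are comparable with the norm. -/
lemma exists_comparable : ∃ κ : ℝ, 0 < κ ∧ κ ≤ 1 ∧ ∀ x : mixedSpace K,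
    mixedEmbedding.norm x ≠ 0 → unitWeight x ≠ 0 → ∀ w, κ * ‖x‖ ≤ normAtPlace w x := by
  let e := ((basisUnitLattice K).ofZLatticeBasis ℝ (unitLattice K)).equivFun.symm.toLinearMap
  let E := LinearMap.toContinuousLinearMap e
  set R : ℝ := ‖E‖
  set R' : ℝ := (Fintype.card (InfinitePlace K) + 1 : ℝ) * R
  have hR : 0 ≤ R := norm_nonneg _
  have hR' : R ≤ R' := le_mul_of_one_le_left hR (by simp)
  refine ⟨Real.exp (-2 * R'), Real.exp_pos _, Real.exp_le_one_iff.mpr (by nlinarith), ?_⟩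
  intro x hx hW w
  have hpos : ∀ w, 0 < normAtPlace w x := fun w =>
    lt_of_le_of_ne (normAtPlace_nonneg _ _) (mixedEmbedding.norm_ne_zero_iff.mp hx w).symm
  have hcoord : ∀ i, |unitCoord K (logMap x) i| ≤ 1 := fun i =>
    abs_le_one_of_tent_ne_zero fun h => hW (Finset.prod_eq_zero (Finset.mem_univ i) h)
  have hlog : ‖logMap x‖ ≤ R := by
    have h1 : logMap x = E (unitCoord K (logMap x)) :=
      (((basisUnitLattice K).ofZLatticeBasis ℝ (unitLattice K)).equivFun.symm_apply_apply _).symm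
    rw [h1]
    refine (E.le_opNorm _).trans (mul_le_of_le_one_right hR ?_)
    exact (pi_norm_le_iff_of_nonneg zero_le_one).mpr fun i => by
      simpa [Real.norm_eq_abs] using hcoord i
  set l : ℝ := Real.log (mixedEmbedding.norm x) * (finrank ℚ K : ℝ)⁻¹
  set D : InfinitePlace K → ℝ := fun w => (mult w : ℝ) * (Real.log (normAtPlace w x) - l)
  have hd : (finrank ℚ K : ℝ) ≠ 0 := Nat.cast_ne_zero.mpr finrank_pos.ne'
  have hsum : ∑ w, D w = 0 := by
    simp only [D, mul_sub, Finset.sum_sub_distrib, ← Finset.sum_mul, sum_mult_real,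
      ← log_norm_eq hpos, l]
    field_simp; ring
  have hne : ∀ w, w ≠ w₀ → |D w| ≤ R := fun w hw =>
    ((norm_le_pi_norm (logMap x) ⟨w, hw⟩).trans hlog)
  have hall : ∀ w, |D w| ≤ R' := by
    intro w
    by_cases hw : w = w₀
    · subst hw
      rw [← Finset.add_sum_erase _ _ (Finset.mem_univ w₀), add_eq_zero_iff_eq_neg] at hsum
      rw [hsum, abs_neg]
      refine (Finset.abs_sum_le_sum_abs _ _).trans ((Finset.sum_le_card_nsmul _ _ R
        fun v hv => hne v (Finset.ne_of_mem_erase hv)).trans ?_)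
      rw [nsmul_eq_mul]
      refine mul_le_mul_of_nonneg_right ?_ hR
      rw [Finset.card_erase_of_mem (Finset.mem_univ _)]
      have : Fintype.card (InfinitePlace K) - 1 ≤ Fintype.card (InfinitePlace K) + 1 := by omega
      exact_mod_cast this
    · exact (hne w hw).trans hR'
  have habs : ∀ w, |Real.log (normAtPlace w x) - l| ≤ R' := by
    intro w
    refine le_trans ?_ (hall w)
    simp only [D, abs_mul, Nat.abs_cast]
    exact le_mul_of_one_le_left (abs_nonneg _) (Nat.one_le_cast.mpr mult_pos)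
  obtain ⟨v, -, hv⟩ := Finset.exists_mem_eq_sup' (s := Finset.univ)
    Finset.univ_nonempty fun w => normAtPlace w x
  rw [norm_eq_sup'_normAtPlace, hv, ← Real.log_le_log_iff
    (mul_pos (Real.exp_pos _) (hpos v)) (hpos w),
    Real.log_mul (Real.exp_pos _).ne' (hpos v).ne', Real.log_exp]
  linarith [abs_le.mp (habs v), abs_le.mp (habs w)]

variable (K) in
lemma exists_wNormTerm_le : ∃ κ : ℝ, 0 < κ ∧ ∀ (s : ℝ), 0 < s → ∀ x : mixedSpace K, x ≠ 0 →
    wNormTerm s x ≤ (κ * ‖x‖) ^ (-(finrank ℚ K * s)) := by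
  obtain ⟨κ, hκ, -, h⟩ := exists_comparable K
  refine ⟨κ, hκ, fun s hs x hx => ?_⟩
  have hxn : 0 < κ * ‖x‖ := mul_pos hκ (norm_pos_iff.mpr hx)
  by_cases hN : mixedEmbedding.norm x = 0
  · rw [wNormTerm, hN, Real.zero_rpow (by linarith), mul_zero]
    exact Real.rpow_nonneg hxn.le _
  by_cases hW : unitWeight x = 0
  · rw [wNormTerm, hW, zero_mul]; exact Real.rpow_nonneg hxn.le _
  refine (mul_le_of_le_one_left (Real.rpow_nonneg (mixedEmbedding.norm_nonneg _) _)
    (unitWeight_le_one x)).trans ?_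
  have h2 : (κ * ‖x‖) ^ (finrank ℚ K) ≤ mixedEmbedding.norm x := by
    rw [mixedEmbedding.norm_apply, ← InfinitePlace.sum_mult_eq, ← Finset.prod_pow_eq_pow_sum]
    exact Finset.prod_le_prod (fun w _ => pow_nonneg hxn.le _)
      fun w _ => pow_le_pow_left₀ hxn.le (h x hN hW w) _
  rw [← mul_neg, Real.rpow_mul hxn.le, Real.rpow_natCast]
  exact Real.rpow_le_rpow_of_nonpos (pow_pos hxn _) h2 (by linarith)

/-- Close absolute values give close logarithms of the norms. -/
private lemma abs_log_norm_sub_le {x y : mixedSpace K} {δ : ℝ} (hxp : ∀ w, 0 < normAtPlace w x)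
    (hyp : ∀ w, 0 < normAtPlace w y)
    (hδ : ∀ w, |Real.log (normAtPlace w y) - Real.log (normAtPlace w x)| ≤ δ) :
    |Real.log (mixedEmbedding.norm y) - Real.log (mixedEmbedding.norm x)| ≤
      (finrank ℚ K : ℝ) * δ := by
  set d := finrank ℚ K
  rw [log_norm_eq hxp, log_norm_eq hyp, ← Finset.sum_sub_distrib]
  refine (Finset.abs_sum_le_sum_abs _ _).trans ?_
  rw [show (d : ℝ) * δ = ∑ w : InfinitePlace K, (mult w : ℝ) * δ by
    rw [← Finset.sum_mul, sum_mult_real]]
  refine Finset.sum_le_sum fun w _ => ?_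
  rw [← mul_sub, abs_mul, Nat.abs_cast]
  exact mul_le_mul_of_nonneg_left (hδ w) (Nat.cast_nonneg _)

/-- Close absolute values give close logarithmic embeddings. -/
private lemma norm_logMap_sub_le {x y : mixedSpace K} {δ : ℝ} (hδ0 : 0 ≤ δ)
    (hxp : ∀ w, 0 < normAtPlace w x) (hyp : ∀ w, 0 < normAtPlace w y)
    (hδ : ∀ w, |Real.log (normAtPlace w y) - Real.log (normAtPlace w x)| ≤ δ) :
    ‖logMap y - logMap x‖ ≤ 4 * δ := by
  have hlogN := abs_log_norm_sub_le hxp hyp hδ
  set d := finrank ℚ K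
  refine (pi_norm_le_iff_of_nonneg (by positivity)).mpr fun w => ?_
  rw [Pi.sub_apply, Real.norm_eq_abs, logMap_apply, logMap_apply, ← mul_sub, abs_mul,
    Nat.abs_cast]
  have hd : (0 : ℝ) < d := Nat.cast_pos.mpr finrank_pos
  have h1 := hδ w.1
  have h2 : |(Real.log (mixedEmbedding.norm y) - Real.log (mixedEmbedding.norm x)) *
      (d : ℝ)⁻¹| ≤ δ := by
    rw [abs_mul, abs_inv, Nat.abs_cast, mul_inv_le_iff₀ hd]; linarith
  have hm : (mult w.1 : ℝ) ≤ 2 := by
    unfold InfinitePlace.mult; split <;> norm_num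
  rw [abs_le] at h1 h2
  rw [sub_mul] at h2
  refine (mul_le_mul hm ?_ (abs_nonneg _) (by norm_num)).trans
    (show (2 : ℝ) * (2 * δ) ≤ 4 * δ by linarith)
  rw [abs_le]
  constructor <;> linarith [h1.1, h1.2, h2.1, h2.2]

/-- The weight is Lipschitz in the logarithmic embedding. -/
private lemma abs_unitWeight_sub_le {x y : mixedSpace K} {δ : ℝ}
    (hlogMap : ‖logMap y - logMap x‖ ≤ 4 * δ) :
    |unitWeight y - unitWeight x| ≤ (Units.rank K : ℝ) * (‖unitCoord K‖ * (4 * δ)) := by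
  set U : ℝ := ‖unitCoord K‖
  unfold unitWeight
  have habs : ∀ t, |tent t| ≤ 1 := fun t =>
    abs_le.mpr ⟨by linarith [tent_nonneg t], tent_le_one t⟩
  refine (abs_prod_sub_prod_le _ _ _ (fun i => habs _) (fun i => habs _)).trans ?_
  refine (Finset.sum_le_card_nsmul _ _ (U * (4 * δ)) fun i _ => ?_).trans
    (by simp [nsmul_eq_mul])
  refine (abs_tent_sub_tent_le _ _).trans ?_
  rw [← Pi.sub_apply, ← map_sub, ← Real.norm_eq_abs]
  exact (norm_le_pi_norm _ i).trans
    (((unitCoord K).le_opNorm _).trans (mul_le_mul_of_nonneg_left hlogMap (norm_nonneg _)))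

/-- The one-sided Lipschitz bound for a point of the support of the weight. -/
private lemma abs_wNormTerm_sub_le_of_ne {κ r₀ : ℝ} (hκ : 0 < κ) (hr₀ : 0 < r₀)
    (hcomp : ∀ x : mixedSpace K, mixedEmbedding.norm x ≠ 0 → unitWeight x ≠ 0 →
      ∀ w, κ * ‖x‖ ≤ normAtPlace w x)
    {x y : mixedSpace K} (hxy : ‖y - x‖ ≤ r₀) (hx : 4 * r₀ / κ + 4 / κ ≤ ‖x‖)
    (hne : wNormTerm 1 x ≠ 0) {s : ℝ} (hs : s ∈ Set.Icc (1 : ℝ) 2) :
    |wNormTerm s y - wNormTerm s x| ≤ ((Units.rank K : ℝ) * ‖unitCoord K‖ * 4 +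
      2 * finrank ℚ K) * (2 * r₀ / κ) * (2 / κ) ^ finrank ℚ K *
        (‖x‖ ^ (finrank ℚ K + 1))⁻¹ := by
  set d := finrank ℚ K
  set U : ℝ := ‖unitCoord K‖
  set C₀ : ℝ := ((Units.rank K : ℝ) * U * 4 + 2 * d) * (2 * r₀ / κ) * ((2 / κ) ^ d)
  obtain ⟨hW, hNr⟩ := mul_ne_zero_iff.mp hne
  have hN : mixedEmbedding.norm x ≠ 0 := fun h => hNr (by rw [h, Real.zero_rpow (by norm_num)])
  have hx4 : 4 * r₀ ≤ κ * ‖x‖ ∧ 4 ≤ κ * ‖x‖ := by
    rw [← add_div, div_le_iff₀ hκ] at hx
    constructor <;> nlinarith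
  set c : ℝ := κ * ‖x‖ / 2
  have hc : 0 < c := by simp only [c]; linarith [hx4.2]
  have hc1 : 1 ≤ c := by simp only [c]; linarith [hx4.2]
  have hdiff : ∀ w, |normAtPlace w y - normAtPlace w x| ≤ r₀ := by
    intro w
    have h1 := normAtPlace_add_le w x (y - x)
    have h2 := normAtPlace_add_le w y (x - y)
    rw [add_sub_cancel] at h1 h2
    have h3 := (normAtPlace_le_norm w (y - x)).trans hxy
    have h4 := (normAtPlace_le_norm w (x - y)).trans ((norm_sub_rev x y).trans_le hxy)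
    rw [abs_le]; constructor <;> linarith
  have hxw : ∀ w, c ≤ normAtPlace w x := fun w => by
    have := hcomp x hN hW w; simp only [c]; linarith [hx4.2]
  have hyw : ∀ w, c ≤ normAtPlace w y := fun w => by
    have := hcomp x hN hW w
    have := abs_le.mp (hdiff w)
    simp only [c]; linarith [hx4.1]
  set δ : ℝ := r₀ / c
  have hδ : ∀ w, |Real.log (normAtPlace w y) - Real.log (normAtPlace w x)| ≤ δ := fun w =>
    (abs_log_sub_log_le hc (hyw w) (hxw w)).trans (div_le_div_of_nonneg_right (hdiff w) hc.le)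
  have hxp : ∀ w, 0 < normAtPlace w x := fun w => hc.trans_le (hxw w)
  have hyp : ∀ w, 0 < normAtPlace w y := fun w => hc.trans_le (hyw w)
  have hδ0 : 0 ≤ δ := by positivity
  have hlogN := abs_log_norm_sub_le hxp hyp hδ
  have hWd := abs_unitWeight_sub_le (norm_logMap_sub_le hδ0 hxp hyp hδ)
  have hbase : ∀ z : mixedSpace K, (∀ w, c ≤ normAtPlace w z) →
      -s * Real.log (mixedEmbedding.norm z) ≤ -(d * Real.log c) := by
    intro z hz
    have h0 : 0 ≤ Real.log c := Real.log_nonneg hc1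
    have h1 : (d : ℝ) * Real.log c ≤ Real.log (mixedEmbedding.norm z) := by
      rw [log_norm_eq fun w => hc.trans_le (hz w), ← sum_mult_real, Finset.sum_mul]
      exact Finset.sum_le_sum fun w _ =>
        mul_le_mul_of_nonneg_left (Real.log_le_log hc (hz w)) (Nat.cast_nonneg _)
    nlinarith [hs.1, mul_nonneg (Nat.cast_nonneg d : (0 : ℝ) ≤ d) h0]
  have hNx := norm_pos_of_normAtPlace_pos hxp
  have hNy := norm_pos_of_normAtPlace_pos hyp
  have hB : Real.exp (-(d * Real.log c)) = (c ^ d)⁻¹ := by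
    rw [Real.exp_neg, Real.exp_nat_mul, Real.exp_log hc]
  unfold wNormTerm
  rw [Real.rpow_def_of_pos hNx, Real.rpow_def_of_pos hNy]
  set ey := Real.exp (Real.log (mixedEmbedding.norm y) * -s)
  set ex := Real.exp (Real.log (mixedEmbedding.norm x) * -s)
  have hex : ex ≤ (c ^ d)⁻¹ := hB ▸ Real.exp_le_exp.mpr (by linarith [hbase x hxw])
  have hee : |ey - ex| ≤ (c ^ d)⁻¹ * (2 * (d * δ)) := by
    refine (abs_exp_sub_exp_le (c := -(d * Real.log c))
      (by linarith [hbase y hyw]) (by linarith [hbase x hxw])).trans ?_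
    rw [hB]
    refine mul_le_mul_of_nonneg_left ?_ (by positivity)
    rw [← sub_mul, abs_mul, abs_neg, abs_of_nonneg (by linarith [hs.1] : (0:ℝ) ≤ s)]
    nlinarith [hs.2, abs_nonneg (Real.log (mixedEmbedding.norm y) -
      Real.log (mixedEmbedding.norm x)), hs.1]
  calc |unitWeight y * ey - unitWeight x * ex|
      = |(unitWeight y - unitWeight x) * ex + unitWeight y * (ey - ex)| := by ring_nf
    _ ≤ |unitWeight y - unitWeight x| * ex + unitWeight y * |ey - ex| := by
        refine (abs_add_le _ _).trans (le_of_eq ?_)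
        rw [abs_mul, abs_mul, abs_of_pos (Real.exp_pos _ : 0 < ex),
          abs_of_nonneg (unitWeight_nonneg y)]
    _ ≤ (Units.rank K : ℝ) * (U * (4 * δ)) * (c ^ d)⁻¹ + 1 * ((c ^ d)⁻¹ * (2 * (d * δ))) :=
        add_le_add (mul_le_mul hWd hex (Real.exp_pos _).le ((abs_nonneg _).trans hWd))
          (mul_le_mul (unitWeight_le_one y) hee (abs_nonneg _) zero_le_one)
    _ = C₀ * (‖x‖ ^ (d + 1))⁻¹ := by
        have hx0 : ‖x‖ ≠ 0 := fun h => by rw [h, mul_zero] at hx4; linarith [hx4.2]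
        simp only [C₀, δ, c, div_pow, mul_pow, pow_succ]
        field_simp

variable (K) in
/-- Nearby weighted norm terms differ by a summable amount. -/
lemma exists_wNormTerm_diff_le (r₀ : ℝ) (hr₀ : 0 < r₀) : ∃ C M : ℝ, 0 ≤ C ∧ 0 < M ∧
    ∀ x y : mixedSpace K, ‖y - x‖ ≤ r₀ → M ≤ ‖x‖ → ∀ s ∈ Set.Icc (1 : ℝ) 2,
      |wNormTerm s y - wNormTerm s x| ≤ C * (‖x‖ ^ (finrank ℚ K + 1))⁻¹ := by
  obtain ⟨κ, hκ, hκ1, hcomp⟩ := exists_comparable K
  set d := finrank ℚ K
  set U : ℝ := ‖unitCoord K‖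
  set C₀ : ℝ := ((Units.rank K : ℝ) * U * 4 + 2 * d) * (2 * r₀ / κ) * ((2 / κ) ^ d)
  have hC₀ : 0 ≤ C₀ := by positivity
  refine ⟨C₀ * 2 ^ (d + 1), 2 * (4 * r₀ / κ + 4 / κ), mul_nonneg hC₀ (by positivity),
    by positivity, ?_⟩
  have key := fun (x y : mixedSpace K) (hxy : ‖y - x‖ ≤ r₀) (hx : 4 * r₀ / κ + 4 / κ ≤ ‖x‖)
      (hne : wNormTerm 1 x ≠ 0) (s : ℝ) (hs : s ∈ Set.Icc (1 : ℝ) 2) =>
    abs_wNormTerm_sub_le_of_ne hκ hr₀ hcomp hxy hx hne hs
  intro x y hxy hx s hs
  have hx' : 4 * r₀ / κ + 4 / κ ≤ ‖x‖ := le_trans (le_mul_of_one_le_left (by positivity)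
    one_le_two) hx
  have h0 : ∀ z : mixedSpace K, wNormTerm 1 z = 0 → wNormTerm s z = 0 := by
    intro z hz
    rcases mul_eq_zero.mp hz with h | h
    · rw [wNormTerm, h, zero_mul]
    · rw [Real.rpow_eq_zero_iff_of_nonneg (mixedEmbedding.norm_nonneg _)] at h
      rw [wNormTerm, h.1, Real.zero_rpow (by linarith [hs.1]), mul_zero]
  have hpos : 0 < ‖x‖ := lt_of_lt_of_le (by positivity) hx'
  by_cases h1 : wNormTerm 1 x = 0
  · by_cases h2 : wNormTerm 1 y = 0
    · rw [h0 x h1, h0 y h2, sub_zero, abs_zero]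
      exact mul_nonneg (mul_nonneg hC₀ (by positivity)) (by positivity)
    have hy : ‖x‖ / 2 ≤ ‖y‖ := by
      have h3 := norm_le_insert' x y
      have h4 : r₀ ≤ ‖x‖ / 2 := by
        have : r₀ ≤ 4 * r₀ / κ := by rw [le_div_iff₀ hκ]; nlinarith
        have : 0 ≤ 4 / κ := by positivity
        linarith [hx]
      linarith [(norm_sub_rev x y).trans_le hxy]
    have := key y x ((norm_sub_rev x y).trans_le hxy) (by linarith [hy, hx]) h2 s hs
    rw [abs_sub_comm]
    refine this.trans ?_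
    rw [← div_eq_mul_inv, ← div_eq_mul_inv]
    have h5 : (‖x‖ / 2) ^ (d + 1) ≤ ‖y‖ ^ (d + 1) := pow_le_pow_left₀ (by positivity) hy _
    rw [div_pow] at h5
    refine (div_le_div_of_nonneg_left hC₀ (by positivity) h5).trans (le_of_eq ?_)
    field_simp
  · refine (key x y hxy hx' h1 s hs).trans (mul_le_mul_of_nonneg_right ?_ (by positivity))
    exact le_mul_of_one_le_right hC₀ (one_le_pow₀ one_le_two)

variable (J : Ideal (𝓞 K))

/-- The embedding of an ideal in the mixed space. -/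
def idealEmb (x : J) : mixedSpace K := mixedEmbedding K ((x : 𝓞 K) : K)

/-- Nonzero elements embed as nonzero vectors. -/
lemma idealEmb_ne_zero {x : J} (hx : x ≠ 0) : idealEmb J x ≠ 0 :=
  (map_ne_zero (mixedEmbedding K)).mpr
    (RingOfIntegers.coe_ne_zero_iff.mpr fun h => hx (Subtype.ext h))

/-- Negative powers beyond the degree are summable over an ideal. -/
lemma summable_norm_idealEmb_rpow (r : ℝ) (hr : r < -(finrank ℚ K : ℝ)) :
    Summable fun x : J => ‖idealEmb J x‖ ^ r := by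
  let I : (FractionalIdeal (𝓞 K)⁰ K)ˣ := 1
  let f : J → idealLattice K I := fun x =>
    ⟨idealEmb J x, (mem_idealLattice K I).mpr ⟨((x : 𝓞 K) : K), by
      simp only [I, Units.val_one, SetLike.mem_coe, FractionalIdeal.mem_one_iff]
      exact ⟨_, rfl⟩, rfl⟩⟩
  have hf : Function.Injective f := fun a b h =>
    Subtype.ext (RingOfIntegers.ext (mixedEmbedding_injective K (congrArg Subtype.val h)))
  refine ((ZLattice.summable_norm_rpow (idealLattice K I) r ?_).comp_injective hf).congr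
    fun x => rfl
  rwa [ZLattice.rank ℝ (idealLattice K I), mixedEmbedding.finrank]

lemma one_le_norm_idealEmb {x : J} (hx : x ≠ 0) : 1 ≤ mixedEmbedding.norm (idealEmb J x) := by
  rw [idealEmb, norm_eq_norm, ← Algebra.coe_norm_int, ← Int.cast_abs]
  have h : Algebra.norm ℤ (x : 𝓞 K) ≠ 0 :=
    Algebra.norm_ne_zero_iff.mpr fun h => hx (Subtype.ext h)
  exact_mod_cast Int.one_le_abs h

/-- Weighted norm terms of ideal elements are at most one. -/
lemma wNormTerm_idealEmb_le_one {s : ℝ} (hs : 0 < s) (x : J) :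
    wNormTerm s (idealEmb J x) ≤ 1 := by
  by_cases hx : x = 0
  · subst hx
    simp [wNormTerm, idealEmb, Real.zero_rpow (neg_ne_zero.mpr hs.ne')]
  refine mul_le_one₀ (unitWeight_le_one _) (Real.rpow_nonneg (mixedEmbedding.norm_nonneg _) _) ?_
  exact Real.rpow_le_one_of_one_le_of_nonpos (one_le_norm_idealEmb J hx) (by linarith)

/-- The weighted norm series converges for `s > 1`. -/
lemma summable_wNormTerm {s : ℝ} (hs : 1 < s) :
    Summable fun x : J => wNormTerm s (idealEmb J x) := by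
  obtain ⟨κ, hκ, h⟩ := exists_wNormTerm_le K
  have hd : (0 : ℝ) < finrank ℚ K := Nat.cast_pos.mpr finrank_pos
  refine .of_nonneg_of_le (fun x => wNormTerm_nonneg _ _) (fun x => ?_)
    ((summable_norm_idealEmb_rpow J (-(finrank ℚ K * s)) (by nlinarith)).mul_left
      (κ ^ (-(finrank ℚ K * s))))
  by_cases hx : x = 0
  · subst hx
    simp [wNormTerm, idealEmb, Real.zero_rpow (neg_ne_zero.mpr (zero_lt_one.trans hs).ne'),
      Real.zero_rpow (neg_ne_zero.mpr (mul_pos hd (zero_lt_one.trans hs)).ne')]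
  · exact (h s (zero_lt_one.trans hs) _ (idealEmb_ne_zero J hx)).trans
      (Real.mul_rpow hκ.le (norm_nonneg _)).le

/-- The lattice sum of an ideal. -/
def latticeSum (s : ℝ) : ℝ := ∑' x : J, wNormTerm s (idealEmb J x)

/-- `N(J) * S_J - S_O` is bounded. -/
lemma exists_latticeSum_compare (hJ : J ≠ ⊥) : ∃ B : ℝ, ∀ s ∈ Set.Ioc (1 : ℝ) 2,
    |(Ideal.absNorm J : ℝ) * latticeSum J s - latticeSum (⊤ : Ideal (𝓞 K)) s| ≤ B := by
  have : Finite (𝓞 K ⧸ J) := Ideal.finiteQuotientOfFreeOfNeBot J hJ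
  have : Fintype (𝓞 K ⧸ J) := Fintype.ofFinite _
  have hcard : Ideal.absNorm J = Fintype.card (𝓞 K ⧸ J) := by
    rw [Ideal.absNorm_apply, Submodule.cardQuot_apply, Nat.card_eq_fintype_card]
  set rep : 𝓞 K ⧸ J → 𝓞 K := Quotient.out
  set r₀ : ℝ := ∑ q, ‖mixedEmbedding K (rep q : K)‖ + 1
  obtain ⟨C, M, hC, hM, hdiff⟩ := exists_wNormTerm_diff_le K r₀
    (by positivity)
  set bnd : J → ℝ := fun x => (C + M ^ (finrank ℚ K + 1)) *
    (‖idealEmb J x‖ ^ (finrank ℚ K + 1))⁻¹ + if x = 0 then 1 else 0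
  have hbnd : Summable bnd := by
    refine (Summable.mul_left _ ((summable_norm_idealEmb_rpow J
      (-((finrank ℚ K + 1 : ℕ) : ℝ)) (by push_cast; linarith)).congr fun x => ?_)).add
      (hasSum_ite_eq 0 1).summable
    rw [Real.rpow_neg (norm_nonneg _), Real.rpow_natCast]
  refine ⟨Fintype.card (𝓞 K ⧸ J) * ∑' x, bnd x, fun s hs => ?_⟩
  have hs' : s ∈ Set.Icc (1 : ℝ) 2 := ⟨hs.1.le, hs.2⟩
  -- the coset decomposition
  let e : (𝓞 K ⧸ J) × J ≃ (⊤ : Ideal (𝓞 K)) :=
    { toFun := fun z => ⟨rep z.1 + z.2, trivial⟩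
      invFun := fun x => (Ideal.Quotient.mk J x.1,
        ⟨x.1 - rep (Ideal.Quotient.mk J x.1), Ideal.Quotient.eq.mp
          (Ideal.Quotient.mk_out (Ideal.Quotient.mk J x.1)).symm⟩)
      left_inv := fun z => by
        have h : Ideal.Quotient.mk J (rep z.1 + z.2) = z.1 := by
          rw [map_add, Ideal.Quotient.eq_zero_iff_mem.mpr z.2.2, add_zero]
          exact Ideal.Quotient.mk_out z.1
        refine Prod.ext h (Subtype.ext ?_)
        simp only [h]; ring
      right_inv := fun x => Subtype.ext (by simp) }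
  set h : 𝓞 K ⧸ J → J → ℝ := fun q x => wNormTerm s (idealEmb ⊤ (e (q, x)))
  have hsum : Summable fun z : (𝓞 K ⧸ J) × J => h z.1 z.2 :=
    (summable_wNormTerm (⊤ : Ideal (𝓞 K)) hs.1).comp_injective e.injective
  have hG : latticeSum (⊤ : Ideal (𝓞 K)) s = ∑ q, ∑' x : J, h q x := by
    rw [latticeSum, ← e.tsum_eq fun x => wNormTerm s (idealEmb ⊤ x)]
    rw [hsum.tsum_prod, tsum_fintype]
  have hq : ∀ q x, |h q x - wNormTerm s (idealEmb J x)| ≤ bnd x := by
    intro q x
    have hdist : ‖idealEmb ⊤ (e (q, x)) - idealEmb J x‖ ≤ r₀ := by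
      simp only [idealEmb, e, Equiv.coe_fn_mk, map_add, add_sub_cancel_right]
      exact (Finset.single_le_sum (f := fun q => ‖mixedEmbedding K (rep q : K)‖)
        (fun q _ => norm_nonneg _) (Finset.mem_univ q)).trans (le_add_of_nonneg_right zero_le_one)
    have h1 : |h q x - wNormTerm s (idealEmb J x)| ≤ 1 := abs_sub_le_iff.mpr
      ⟨by linarith [wNormTerm_idealEmb_le_one (⊤ : Ideal (𝓞 K)) (zero_lt_one.trans hs.1) (e (q, x)),
          wNormTerm_nonneg s (idealEmb J x)],
        by linarith [wNormTerm_idealEmb_le_one J (zero_lt_one.trans hs.1) x,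
          wNormTerm_nonneg s (idealEmb ⊤ (e (q, x)))]⟩
    by_cases hx : x = 0
    · refine h1.trans ?_
      simp only [bnd, if_pos hx]
      exact le_add_of_nonneg_left (by positivity)
    have hxp : 0 < ‖idealEmb J x‖ ^ (finrank ℚ K + 1) :=
      pow_pos (norm_pos_iff.mpr (idealEmb_ne_zero J hx)) _
    simp only [bnd, if_neg hx, add_zero, add_mul]
    by_cases hMx : M ≤ ‖idealEmb J x‖
    · exact (hdiff _ _ hdist hMx s hs').trans (le_add_of_nonneg_right (by positivity))
    · refine h1.trans (le_trans ?_ (le_add_of_nonneg_left (by positivity)))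
      rw [← div_eq_mul_inv, one_le_div hxp]
      exact pow_le_pow_left₀ (norm_nonneg _) (not_le.mp hMx).le _
  have hJs := summable_wNormTerm J hs.1
  have hfib : ∀ q, Summable (h q) := fun q => hsum.prod_factor q
  rw [hG, hcard, abs_sub_comm, latticeSum, ← nsmul_eq_mul, ← nsmul_eq_mul, ← Finset.card_univ,
    ← Finset.sum_const, ← Finset.sum_const, ← Finset.sum_sub_distrib]
  refine (Finset.abs_sum_le_sum_abs _ _).trans (Finset.sum_le_sum fun q _ => ?_)
  rw [← (hfib q).tsum_sub hJs, ← Real.norm_eq_abs]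
  exact tsum_of_norm_bounded hbnd.hasSum fun x => hq q x

end FermatAgent.CFT
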