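import Fermat.Agent.CFT.Kummer
import Fermat.Agent.CFT.ClassEigen

/-!
The Kummer radicand is a `p`-th power: vanishing of the cocycle on `G_{ℚ(ζ_p)}`.

For a `KummerCocycle` `D` and `p ≥ 3`, `a_eq_zero_of_cyc` and `exists_coboundary`: the cocycle
vanishes on `G_{ℚ(ζ_p)}` and is a coboundary.
Otherwise its radicand in `ℚ(ζ_p)` is an `ω²`-eigenvector (`radicand_omegaSq`) with multiplicities
divisible by `p` (`dvd_ordIdeal`), hence a unit times a `p`-th power (`exists_unit_radicand`): the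
eigen class is trivial for `p ≥ 5`, all ideals are principal for `p = 3`. The unit is congruent to a
`p`-th power, hence is one (`exists_pow_radicand`).
-/

set_option autoImplicit false

noncomputable section

open NumberField UniqueFactorizationMonoid
open FermatAgent.GaloisBasic
open scoped Classical Pointwise nonZeroDivisors

namespace FermatAgent.CFT

variable {p : ℕ} [hp : Fact p.Prime]

section Abstract

variable {K : Type} [Field K] [NumberField K]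

omit hp in
lemma exists_ideal_pow_eq {α : 𝓞 K} (hα : α ≠ 0)
    (hord : ∀ P : Ideal (𝓞 K), P.IsMaximal → p ∣ ordIdeal P (Ideal.span {α})) :
    ∃ I : Ideal (𝓞 K), I ≠ ⊥ ∧ I ^ p = Ideal.span {α} := by
  set A := Ideal.span {α}
  have hA : A ≠ 0 := by simpa [A] using hα
  refine ⟨∏ P ∈ (normalizedFactors A).toFinset, P ^ (ordIdeal P A / p), ?_, ?_⟩
  · exact Finset.prod_ne_zero_iff.mpr fun P hP =>
      pow_ne_zero _ (ne_zero_of_mem_normalizedFactors (Multiset.mem_toFinset.mp hP))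
  · rw [← Finset.prod_pow]
    refine (Finset.prod_congr rfl fun P hP => ?_).trans
      ((Finset.prod_multiset_count (normalizedFactors A)).symm.trans
        (associated_iff_eq.mp (prod_normalizedFactors hA)))
    have hP' := prime_of_normalized_factor P (Multiset.mem_toFinset.mp hP)
    rw [← pow_mul, Nat.div_mul_cancel (hord P ((Ideal.isPrime_of_prime hP').isMaximal hP'.ne_zero))]
    try rfl

omit hp [NumberField K] in
lemma exists_unit_mul_pow_of_isPrincipal {α : 𝓞 K} {I : Ideal (𝓞 K)}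
    (hI : I ^ p = Ideal.span {α}) (h : I.IsPrincipal) :
    ∃ (γ : 𝓞 K) (u : (𝓞 K)ˣ), α = (u : 𝓞 K) * γ ^ p := by
  obtain ⟨γ, rfl⟩ := h
  have hI' : Ideal.span {γ ^ p} = Ideal.span {α} := by
    rw [← hI]; exact (Ideal.span_singleton_pow γ p).symm
  obtain ⟨u, hu⟩ := (Ideal.span_singleton_eq_span_singleton.mp hI')
  exact ⟨γ, u, by rw [← hu, mul_comm]⟩

variable [IsCyclotomicExtension {p} ℚ K]

omit [IsCyclotomicExtension {p} ℚ K] in
/-- The class of the root of an eigen radicand is an eigen class. -/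
lemma galClass_mk0_of_eigen {α : 𝓞 K} (hα : α ≠ 0) {I : (Ideal (𝓞 K))⁰}
    (hI : (I : Ideal (𝓞 K)) ^ p = Ideal.span {α}) {s : ℕ} {τ : K ≃ₐ[ℚ] K}
    (heig : ∃ n d : 𝓞 K, d ≠ 0 ∧ d ^ p * τ • α = n ^ p * α ^ s) :
    galClass τ (ClassGroup.mk0 I) = ClassGroup.mk0 I ^ s := by
  obtain ⟨I, hI'⟩ := I
  have hI0 : I ≠ 0 := mem_nonZeroDivisors_iff_ne_zero.mp hI'
  obtain ⟨n, d, hd, hnd⟩ := heig
  have hτα : τ • α ≠ 0 := smul_ne_zero_iff_ne τ |>.mpr hα
  have hn : n ≠ 0 := fun h => by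
    rw [h, zero_pow hp.out.ne_zero, zero_mul] at hnd
    exact mul_ne_zero (pow_ne_zero p hd) hτα hnd
  have hτI : τ • I ∈ (Ideal (𝓞 K))⁰ := mem_nonZeroDivisors_iff_ne_zero.mpr fun h => hI0 (by
    rw [← inv_smul_smul τ I, h, Ideal.zero_eq_bot, Ideal.pointwise_smul_def, Ideal.map_bot])
  rw [galClass_mk0 τ ⟨I, hI'⟩ ⟨τ • I, hτI⟩ rfl, ← map_pow, ClassGroup.mk0_eq_mk0_iff]
  refine ⟨d, n, hd, hn, ?_⟩
  have hpow : (Ideal.span {d} * τ • I) ^ p = (Ideal.span {n} * I ^ s) ^ p := by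
    have h1 : (τ • I) ^ p = Ideal.span {τ • α} := by
      rw [← smul_pow', hI, Ideal.pointwise_smul_def, Ideal.map_span, Set.image_singleton]
      rfl
    rw [mul_pow, mul_pow, h1, ← pow_mul, mul_comm s, pow_mul, hI,
      Ideal.span_singleton_pow, Ideal.span_singleton_pow, Ideal.span_singleton_pow,
      Ideal.span_singleton_mul_span_singleton, Ideal.span_singleton_mul_span_singleton, hnd]
  rw [SubmonoidClass.coe_pow]
  exact dvd_antisymm ((UniqueFactorizationMonoid.pow_dvd_pow_iff_dvd hp.out.ne_zero).mp hpow.dvd)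
    ((UniqueFactorizationMonoid.pow_dvd_pow_iff_dvd hp.out.ne_zero).mp hpow.symm.dvd)

/-- An `ω²`-eigen radicand with multiplicities divisible by `p` is a unit times a power. -/
lemma exists_omegaSq_unit (hp5 : 5 ≤ p) {α : 𝓞 K} (hα : α ≠ 0)
    (hord : ∀ P : Ideal (𝓞 K), P.IsMaximal → p ∣ ordIdeal P (Ideal.span {α}))
    (heig : ∀ τ : K ≃ₐ[ℚ] K, ∃ n d : 𝓞 K, d ≠ 0 ∧
      d ^ p * τ • α = n ^ p * α ^ omegaSq p K τ) :
    ∃ (γ : 𝓞 K) (u : (𝓞 K)ˣ), α = (u : 𝓞 K) * γ ^ p ∧ IsOmegaSqUnit (p := p) u := by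
  obtain ⟨I, hI0, hI⟩ := exists_ideal_pow_eq hα hord
  have hI' : I ∈ (Ideal (𝓞 K))⁰ := mem_nonZeroDivisors_iff_ne_zero.mpr hI0
  have hC : ClassGroup.mk0 ⟨I, hI'⟩ ^ p = 1 := by
    rw [← map_pow, ClassGroup.mk0_eq_one_iff]
    rw [SubmonoidClass.coe_pow, hI]
    exact ⟨⟨α, rfl⟩⟩
  have hσ : ∀ τ : K ≃ₐ[ℚ] K,
      galClass τ (ClassGroup.mk0 ⟨I, hI'⟩) = ClassGroup.mk0 ⟨I, hI'⟩ ^ omegaSq p K τ :=
    fun τ => galClass_mk0_of_eigen hα (I := ⟨I, hI'⟩) hI (heig τ)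
  have hC1 := classGroup_eq_one_of_omegaSq hp5 _ hC hσ
  rw [ClassGroup.mk0_eq_one_iff] at hC1
  obtain ⟨γ, u, hu⟩ := exists_unit_mul_pow_of_isPrincipal hI hC1
  refine ⟨γ, u, hu, fun τ => ?_⟩
  obtain ⟨n, d, hd, hnd⟩ := heig τ
  have hγ : γ ≠ 0 := fun h => hα (by rw [hu, h, zero_pow hp.out.ne_zero, mul_zero])
  have hτγ : τ • γ ≠ 0 := smul_ne_zero_iff_ne τ |>.mpr hγ
  set s := omegaSq p K τ
  rw [hu, smul_mul', smul_pow', mul_pow, ← pow_mul, mul_comm p s, pow_mul] at hnd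
  set v : (𝓞 K)ˣ := galUnit τ u * (u ^ s)⁻¹
  set w : K := ((n * γ ^ s : 𝓞 K) : K) / ((d * τ • γ : 𝓞 K) : K)
  have hv : (v : 𝓞 K) * (d * τ • γ) ^ p = (n * γ ^ s) ^ p := by
    apply mul_left_cancel₀ (u ^ s).ne_zero
    rw [show ((u ^ s : (𝓞 K)ˣ) : 𝓞 K) * ((v : 𝓞 K) * (d * τ • γ) ^ p) =
      d ^ p * ((galUnit τ u : 𝓞 K) * (τ • γ) ^ p) *
          ((((u ^ s : (𝓞 K)ˣ)) * (u ^ s)⁻¹ : (𝓞 K)ˣ) : 𝓞 K) by
        simp only [v, Units.val_mul]; ring]
    rw [mul_inv_cancel, Units.val_one, mul_one, coe_galUnit, hnd, Units.val_pow_eq_pow_val]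
    ring
  have hw : w ^ p = ((v : 𝓞 K) : K) := by
    have hne : ((d * τ • γ : 𝓞 K) : K) ≠ 0 :=
      RingOfIntegers.coe_ne_zero_iff.mpr (mul_ne_zero hd hτγ)
    rw [div_pow, div_eq_iff (pow_ne_zero _ hne)]
    exact_mod_cast hv.symm
  have hwint : IsIntegral ℤ w := IsIntegral.of_pow hp.out.pos (by rw [hw]; exact (v : 𝓞 K).2)
  set w' : 𝓞 K := ⟨w, hwint⟩
  have hwu : IsUnit w' := by
    refine (isUnit_pow_iff hp.out.ne_zero).mp ⟨v, RingOfIntegers.ext ?_⟩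
    exact hw.symm
  have hv' : v = hwu.unit ^ p := Units.ext (RingOfIntegers.ext hw.symm)
  calc modPow p K (galUnit τ u) = modPow p K (v * u ^ s) := by simp [v]
    _ = modPow p K u ^ s := by
      rw [map_mul, hv', map_pow, map_pow, modPow_pow_self]
      exact one_mul (modPow p K u ^ s)

end Abstract

/-- For `p = 3` a unit congruent to a cube modulo `3` is a cube. -/
lemma exists_cube_of_congr {K : Type} [Field K] [NumberField K] [IsCyclotomicExtension {3} ℚ K]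
    (u : (𝓞 K)ˣ) (y : 𝓞 K) (h : (3 : 𝓞 K) ∣ (u : 𝓞 K) - y ^ 3) :
    ∃ z : (𝓞 K)ˣ, u = z ^ 3 := by
  have : Fact (Nat.Prime 3) := ⟨Nat.prime_three⟩
  set hζ := IsCyclotomicExtension.zeta_spec 3 ℚ K
  set l : 𝓞 K := hζ.toInteger - 1
  have hl3 : l ^ 2 ∣ (3 : 𝓞 K) := by
    have := (IsCyclotomicExtension.Rat.associated_zeta_sub_one_pow_prime 3 hζ).dvd
    simpa using this
  obtain ⟨a, ha⟩ : ∃ a : ℤ, l ∣ y - a := by
    rcases IsCyclotomicExtension.Rat.Three.lambda_dvd_or_dvd_sub_one_or_dvd_add_one hζ y with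
      h | h | h
    · exact ⟨0, by simpa using h⟩
    · exact ⟨1, by simpa using h⟩
    · exact ⟨-1, by simpa using h⟩
  have hcong : ∃ n : ℤ, l ^ 2 ∣ ((u : 𝓞 K) - n) := by
    refine ⟨a ^ 3, ?_⟩
    have h2 : l ^ 2 ∣ y ^ 3 - (a : 𝓞 K) ^ 3 := by
      rw [show y ^ 3 - (a : 𝓞 K) ^ 3 =
        (y - a) ^ 2 * (y - a) + 3 * ((a : 𝓞 K) * y * (y - a)) by ring]
      exact dvd_add (Dvd.dvd.mul_right (pow_dvd_pow_of_dvd ha 2) _) (hl3.mul_right _)
    have := dvd_add (hl3.trans h) h2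
    simpa using this
  rcases IsCyclotomicExtension.Rat.Three.eq_one_or_neg_one_of_unit_of_congruent hζ u hcong with
    rfl | rfl
  · exact ⟨1, by simp⟩
  · exact ⟨-1, by ext; norm_num⟩

lemma isPrincipal_of_eq_three {K : Type} [Field K] [NumberField K]
    [IsCyclotomicExtension {p} ℚ K] (hp3 : p = 3) (I : Ideal (𝓞 K)) : I.IsPrincipal := by
  subst hp3
  have := IsCyclotomicExtension.Rat.three_pid (K := K)
  exact IsPrincipalIdealRing.principal I

lemma exists_pow_of_congr_three {K : Type} [Field K] [NumberField K]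
    [IsCyclotomicExtension {p} ℚ K] (hp3 : p = 3) (u : (𝓞 K)ˣ) (y : 𝓞 K)
    (h : (p : 𝓞 K) ∣ (u : 𝓞 K) - y ^ p) : ∃ z : (𝓞 K)ˣ, u = z ^ p := by
  subst hp3
  exact exists_cube_of_congr u y (by simpa using h)

lemma eq_three_of_lt_five (h3 : 3 ≤ p) (hp5 : ¬ 5 ≤ p) : p = 3 := by
  have h := hp.out
  by_contra hne
  have h4 : p = 4 := by omega
  rw [h4] at h
  exact absurd h (by decide)

namespace KummerCocycle

variable (D : KummerCocycle p)

/-- A radicand with multiplicities divisible by `p` is a unit times a `p`-th power, the unit in the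
`ω²`-eigenspace. -/
lemma exists_unit_radicand (h3 : 3 ≤ p) (hne : ∃ h, cyc p h = 1 ∧ D.a h ≠ 0) {α : 𝓞 (CycField p)}
    (hα0 : α ≠ 0) {β : 𝓞 D.field} (hβα : β ^ p = D.intMap α)
    (heig : ∀ τ : CycField p ≃ₐ[ℚ] CycField p, ∃ n d : 𝓞 (CycField p), d ≠ 0 ∧
      d ^ p * τ • α = n ^ p * α ^ omegaSq p (CycField p) τ) :
    ∃ (γ : 𝓞 (CycField p)) (u : (𝓞 (CycField p))ˣ), α = (u : 𝓞 (CycField p)) * γ ^ p ∧
      (5 ≤ p → IsOmegaSqUnit (p := p) u) := by
  have hord := fun (P : Ideal (𝓞 (CycField p))) (hP : P.IsMaximal) => D.dvd_ordIdeal hne hα0 hβα P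
  by_cases hp5 : 5 ≤ p
  · obtain ⟨γ, u, h1, h2⟩ := exists_omegaSq_unit hp5 hα0 hord heig
    exact ⟨γ, u, h1, fun _ => h2⟩
  · obtain ⟨I, -, hI⟩ := exists_ideal_pow_eq hα0 hord
    obtain ⟨γ, u, h1⟩ := exists_unit_mul_pow_of_isPrincipal hI
      (isPrincipal_of_eq_three (eq_three_of_lt_five h3 hp5) I)
    exact ⟨γ, u, h1, fun h => absurd h hp5⟩

variable {b : ZBar} (hb0 : (b : Qbar) ≠ 0)
  (hb : ∀ h, cyc p h = 1 → h (b : Qbar) = zetaPow p (D.a h) * (b : Qbar))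
include hb0 hb

/-- The `p`-th power of a radical is integral in `ℚ(ζ_p)`, the radical in the Kummer field. -/
lemma exists_radicand : ∃ (α : 𝓞 (CycField p)) (β : 𝓞 D.field),
    ringOfIntegersIncl (CycField p) α = b ^ p ∧ α ≠ 0 ∧ β ^ p = D.intMap α := by
  have hinjM : Function.Injective (ringOfIntegersIncl D.field) := fun x y he =>
    RingOfIntegers.coe_injective (Subtype.ext (congrArg Subtype.val he :))
  obtain ⟨β, hβ⟩ := exists_ringOfIntegersIncl_eq D.field (b := b) fun σ hσ => Subtype.ext (by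
    rw [fixingSubgroup_field] at hσ
    rw [coe_smul_zbar, hb σ hσ.1, hσ.2, zetaPow, ZMod.val_zero, pow_zero, one_mul])
  obtain ⟨α, hα⟩ := exists_ringOfIntegersIncl_eq (CycField p) (b := b ^ p) fun σ hσ =>
    Subtype.ext (by
      rw [coe_smul_zbar, SubmonoidClass.coe_pow, map_pow,
        hb σ (cyc_eq_one_of_mem_fixingSubgroup p hσ),
        mul_pow, zetaPow, ← pow_mul, mul_comm _ p, pow_mul, (zetaQ_spec p).pow_eq_one, one_pow,
        one_mul])
  have hβα : β ^ p = D.intMap α := hinjM (by rw [map_pow, hβ, D.incl_intMap, hα])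
  refine ⟨α, β, hα, fun h => hb0 ?_, hβα⟩
  rw [h, map_zero] at hα
  have := congrArg (fun z : ZBar => (z : Qbar)) hα
  simp only [ZeroMemClass.coe_zero, SubmonoidClass.coe_pow] at this
  exact eq_zero_of_pow_eq_zero this.symm

variable {α : 𝓞 (CycField p)} (hα : ringOfIntegersIncl (CycField p) α = b ^ p)
include hα

/-- Galois acts on the radicand through `ω²` up to `p`-th powers. -/
lemma radicand_omegaSq (τ : CycField p ≃ₐ[ℚ] CycField p) : ∃ n d : 𝓞 (CycField p), d ≠ 0 ∧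
    d ^ p * τ • α = n ^ p * α ^ omegaSq p (CycField p) τ := by
  have hinjK : Function.Injective (ringOfIntegersIncl (CycField p)) := fun x y he =>
    RingOfIntegers.coe_injective (Subtype.ext (congrArg Subtype.val he :))
  obtain ⟨σ, rfl⟩ : ∃ σ, resCyc p σ = τ :=
    AlgEquiv.restrictNormalHom_surjective (K₁ := CycField p) Qbar τ
  set s := omegaSq p (CycField p) (resCyc p σ)
  have hs : (s : ZMod p) = cyc p σ * cyc p σ := by
    rw [natCast_omegaSq, omega_resCyc, pow_two]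
  set g : Qbar := σ (b : Qbar) / (b : Qbar) ^ s
  have hg : g ∈ CycField p := mem_of_forall_fixing fun h hh => by
    have hh1 := cyc_eq_one_of_mem_fixingSubgroup p hh
    obtain ⟨hc1, hc2⟩ := D.a_conj σ hh1
    have e : h (σ (b : Qbar)) = σ ((σ⁻¹ * h * σ) (b : Qbar)) := by
      show (h * σ) (b : Qbar) = (σ * (σ⁻¹ * h * σ)) (b : Qbar)
      rw [mul_assoc σ⁻¹, mul_inv_cancel_left]
    rw [map_div₀, map_pow, e, hb _ hc1, hc2, map_mul, apply_zetaPow, hb h hh1, mul_pow,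
      show zetaPow p (D.a h) ^ s = zetaPow p (cyc p σ * (cyc p σ * D.a h)) from by
        rw [← mul_assoc, ← hs]
        simp only [zetaPow, ← pow_mul]
        rw [← zetaPow_natCast, Nat.cast_mul, ZMod.natCast_zmod_val, mul_comm]
        rfl]
    exact mul_div_mul_left _ _ (zetaPow_ne_zero p _)
  obtain ⟨x, y, hy, hxy⟩ := IsFractionRing.div_surjective (𝓞 (CycField p)) (⟨g, hg⟩ : CycField p)
  refine ⟨x, y, nonZeroDivisors.ne_zero hy, hinjK (Subtype.ext ?_)⟩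
  have hy0 : ((y : CycField p) : Qbar) ≠ 0 :=
    fun h => nonZeroDivisors.ne_zero hy (by simpa using h)
  have hxy' : ((x : CycField p) : Qbar) = g * ((y : CycField p) : Qbar) := by
    have := congrArg (fun z : CycField p => (z : Qbar)) hxy
    simp only [IntermediateField.coe_div] at this
    rw [← this]
    exact (div_mul_cancel₀ _ hy0).symm
  have hα' : ((α : CycField p) : Qbar) = (b : Qbar) ^ p := by
    have := congrArg (fun z : ZBar => (z : Qbar)) hα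
    simpa using this
  show (((y ^ p * resCyc p σ • α : 𝓞 (CycField p)) : CycField p) : Qbar) =
    (((x ^ p * α ^ s : 𝓞 (CycField p)) : CycField p) : Qbar)
  push_cast
  rw [AlgEquiv.smul_def, coe_resCyc,
    hxy', hα', map_pow, show σ (b : Qbar) = g * (b : Qbar) ^ s from
      (div_mul_cancel₀ _ (pow_ne_zero _ hb0)).symm]
  ring

/-- The radicand is a `p`-th power in `ℚ(ζ_p)`. -/
lemma exists_pow_radicand (h3 : 3 ≤ p) (hne : ∃ h, cyc p h = 1 ∧ D.a h ≠ 0) (hα0 : α ≠ 0)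
    {β : 𝓞 D.field} (hβα : β ^ p = D.intMap α) : ∃ x : 𝓞 (CycField p), α = x ^ p := by
  set K := CycField p
  obtain ⟨γ, u, hu, hz⟩ := D.exists_unit_radicand h3 hne hα0 hβα (D.radicand_omegaSq hb0 hb hα)
  have hγ : γ ≠ 0 := fun h => hα0 (by rw [hu, h, zero_pow hp.out.ne_zero, mul_zero])
  -- the unit radicand
  set w : D.field := (β : D.field) / ((D.intMap γ : 𝓞 D.field) : D.field)
  have hγ' : ((D.intMap γ : 𝓞 D.field) : D.field) ≠ 0 :=
    RingOfIntegers.coe_ne_zero_iff.mpr ((map_ne_zero_iff _ D.intMap_injective).mpr hγ)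
  have hw : w ^ p = ((D.intMap (u : 𝓞 K) : 𝓞 D.field) : D.field) := by
    rw [div_pow, div_eq_iff (pow_ne_zero _ hγ'), ← map_pow, ← map_pow, hβα, hu, map_mul, map_mul,
      map_pow]
  set β₀ : 𝓞 D.field := ⟨w, IsIntegral.of_pow hp.out.pos (by
    rw [hw]; exact (D.intMap (u : 𝓞 K)).2)⟩
  have hβ₀ : β₀ ^ p = D.intMap (u : 𝓞 K) := RingOfIntegers.ext hw
  obtain ⟨y, hy⟩ := D.exists_pow_congr hne hβ₀
  obtain ⟨z, hz'⟩ : ∃ z : (𝓞 K)ˣ, u = z ^ p := by
    by_cases hp5 : 5 ≤ p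
    · exact exists_pow_of_isOmegaSqUnit hp5 (hz hp5) hy
    · exact exists_pow_of_congr_three (eq_three_of_lt_five h3 hp5) u y hy
  exact ⟨(z : 𝓞 K) * γ, by rw [hu, hz', Units.val_pow_eq_pow_val, mul_pow]⟩

/-- If the radicand is a `p`-th power in `ℚ(ζ_p)`, the radical is fixed by `G_{ℚ(ζ_p)}`. -/
lemma a_eq_zero_of_root {x : 𝓞 (CycField p)} (hx : α = x ^ p) {h : GQ} (hh : cyc p h = 1) :
    D.a h = 0 := by
  have hroot : (b : Qbar) ^ p = ((x : CycField p) : Qbar) ^ p := by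
    have := congrArg (fun z : ZBar => (z : Qbar)) hα
    rw [hx] at this
    simp at this
    exact this.symm
  have hx0 : ((x : CycField p) : Qbar) ≠ 0 := fun h => hb0 (by
    rw [h, zero_pow hp.out.ne_zero] at hroot
    exact eq_zero_of_pow_eq_zero hroot)
  have hq : ((b : Qbar) / ((x : CycField p) : Qbar)) ^ p = 1 := by
    rw [div_pow, hroot, div_self (pow_ne_zero _ hx0)]
  have h1 := apply_root p h hq
  rw [hh, ZMod.val_one, pow_one, map_div₀, apply_eq_self p hh, hb h hh, mul_div_assoc] at h1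
  have h2 : zetaPow p (D.a h) = 1 := by
    rw [mul_eq_right₀ (div_ne_zero hb0 hx0)] at h1
    exact h1
  exact (ZMod.val_eq_zero _).mp
    (Nat.eq_zero_of_dvd_of_lt (((zetaQ_spec p).pow_eq_one_iff_dvd _).mp h2) (ZMod.val_lt _))

omit hb0 hb hα

/-- A cocycle as above vanishes on `G_{ℚ(ζ_p)}`. -/
theorem a_eq_zero_of_cyc (h3 : 3 ≤ p) : ∀ h, cyc p h = 1 → D.a h = 0 := by
  by_contra hc
  push Not at hc
  obtain ⟨b, hb0, hb⟩ := D.exists_radical hc
  obtain ⟨α, β, hα, hα0, hβα⟩ := D.exists_radicand hb0 hb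
  obtain ⟨x, hx⟩ := D.exists_pow_radicand hb0 hb hα h3 hc hα0 hβα
  obtain ⟨h, hh, hah⟩ := hc
  exact hah (D.a_eq_zero_of_root hb0 hb hα hx hh)

/-- The cocycle is a coboundary. -/
theorem exists_coboundary (h3 : 3 ≤ p) : ∃ k : ZMod p, ∀ σ, D.a σ = k * (cyc p σ - 1) := by
  have hH := D.a_eq_zero_of_cyc h3
  have h2u : ((2 : ℕ) : ZMod p) ≠ 0 := fun h => by
    rw [ZMod.natCast_eq_zero_iff] at h
    have := Nat.le_of_dvd two_pos h
    omega
  obtain ⟨σ₀, hσ₀⟩ := exists_cyc_eq p (Units.mk0 _ h2u)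
  rw [Units.val_mk0] at hσ₀
  refine ⟨D.a σ₀, fun σ => ?_⟩
  have hc : cyc p (σ₀ * σ * σ₀⁻¹ * σ⁻¹) = 1 := by
    have e1 := cyc_inv_mul (p := p) σ₀
    have e2 := cyc_inv_mul (p := p) σ
    rw [cyc_mul, cyc_mul, cyc_mul]
    linear_combination cyc p σ⁻¹ * cyc p σ * e1 + e2
  have h := D.map_mul' (σ₀ * σ * σ₀⁻¹ * σ⁻¹) (σ * σ₀)
  rw [hH _ hc, mul_zero, zero_add,
    show σ₀ * σ * σ₀⁻¹ * σ⁻¹ * (σ * σ₀) = σ₀ * σ by group, D.map_mul', D.map_mul', hσ₀] at h
  push_cast at h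
  linear_combination -h

end KummerCocycle

end FermatAgent.CFT
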