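import Fermat.Agent.CFT.CycloUnit
import Fermat.Agent.CFT.IdealOrd

/-!
Thaine's relation: at a split prime `P` on whose class an `ω²`-equivariant functional is nontrivial,
the cyclotomic unit is a `p`-th power modulo `P`.
-/

set_option autoImplicit false

noncomputable section

open NumberField UniqueFactorizationMonoid
open scoped Classical nonZeroDivisors Pointwise

namespace FermatAgent.CFT

variable {p : ℕ} [hp : Fact p.Prime] {K : Type} [Field K] [NumberField K]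
  [IsCyclotomicExtension {p} ℚ K]

lemma span_singleton_smul {R : Type*} [CommRing R] {G : Type*} [Group G] [MulSemiringAction G R]
    (σ : G) (x : R) : σ • Ideal.span {x} = Ideal.span {σ • x} := by
  rw [Ideal.pointwise_smul_def, Ideal.map_span, Set.image_singleton]
  rfl

lemma absNorm_smul (σ : K ≃ₐ[ℚ] K) (P : Ideal (𝓞 K)) :
    Ideal.absNorm (σ • P) = Ideal.absNorm P := by
  simp only [Ideal.absNorm_apply, Submodule.cardQuot_apply]
  refine (Nat.card_congr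
    (Ideal.quotientEquiv P (σ • P) (MulSemiringAction.toRingEquiv _ _ σ) ?_).toEquiv).symm
  rw [Ideal.pointwise_smul_def]
  rfl

lemma smul_natCast_ok (σ : K ≃ₐ[ℚ] K) (n : ℕ) : σ • (n : 𝓞 K) = n :=
  map_natCast (MulSemiringAction.toRingHom (K ≃ₐ[ℚ] K) (𝓞 K) σ) n

/-- Coprime numbers are not both in a proper ideal. -/
lemma mem_of_natCast_prime {R : Type*} [CommRing R] {P : Ideal R} (hP : P ≠ ⊤) {a b : ℕ}
    (hab : a.Coprime b) (ha : (a : R) ∈ P) : (b : R) ∉ P := by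
  intro hb
  have h := Nat.Coprime.isCoprime hab
  obtain ⟨x, y, hxy⟩ := h
  apply hP
  rw [Ideal.eq_top_iff_one]
  have h1 : ((x * a + y * b : ℤ) : R) = 1 := by rw [hxy]; simp
  rw [← h1]
  push_cast
  exact P.add_mem (P.mul_mem_left _ ha) (P.mul_mem_left _ hb)

lemma exists_natCast_sub_mem {R : Type*} [CommRing R] {P : Ideal R} {ℓ : ℕ} (hℓ : ℓ.Prime)
    (hcard : Nat.card (R ⧸ P) = ℓ) (x : R) : ∃ n : ℕ, x - n ∈ P := by
  have : Finite (R ⧸ P) := Nat.finite_of_card_ne_zero (hcard ▸ hℓ.ne_zero)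
  have : Fintype (R ⧸ P) := Fintype.ofFinite _
  have hc : Fintype.card (R ⧸ P) = ℓ := by rw [← Nat.card_eq_fintype_card, hcard]
  have hn : (ℓ : R ⧸ P) = 0 := by rw [← hc]; exact Nat.cast_card_eq_zero _
  have : Fact ℓ.Prime := ⟨hℓ⟩
  have : CharP (R ⧸ P) ℓ := charP_of_card_eq_prime hc
  let e := ZMod.ringEquiv (R ⧸ P) hc
  refine ⟨(e.symm (Ideal.Quotient.mk P x)).val, ?_⟩
  rw [← Ideal.Quotient.eq_zero_iff_mem, map_sub, map_natCast, sub_eq_zero]
  rw [← map_natCast e, ZMod.natCast_zmod_val, RingEquiv.apply_symm_apply]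

/-- Facts about the primes above a prime of norm `ℓ`. -/
lemma smul_prime_inj {ℓ : ℕ} (hℓ : ℓ.Prime) {P : Ideal (𝓞 K)} [P.IsPrime]
    (hcard : Ideal.absNorm P = ℓ) (hpP : (p : 𝓞 K) ∉ P) {σ : K ≃ₐ[ℚ] K} (h : σ • P = P) :
    σ = 1 := by
  have hcard' : Nat.card (𝓞 K ⧸ P) = ℓ := by
    rw [← hcard, Ideal.absNorm_apply, Submodule.cardQuot_apply]
  obtain ⟨n, hn⟩ := exists_natCast_sub_mem hℓ hcard' (zetaInt p K)
  have h1 : σ • zetaInt p K - n ∈ P := by
    have := Ideal.smul_mem_pointwise_smul σ _ _ hn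
    rwa [h, smul_sub, smul_natCast_ok] at this
  have h2 : σ • zetaInt p K - zetaInt p K ∈ P := by
    have := P.sub_mem h1 hn
    rwa [sub_sub_sub_cancel_right] at this
  set a := (omega p K σ : ZMod p).val
  rw [smul_zetaInt] at h2
  by_contra hne
  have ha : a ≠ 1 := fun ha => hne <| (omega p K).injective <| by
    rw [map_one]; ext; rw [Units.val_one, ← ZMod.natCast_zmod_val (omega p K σ : ZMod p)]
    simp [a] at ha; rw [ha, Nat.cast_one]
  have ha0 : 0 < a := Nat.pos_of_ne_zero fun h0 =>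
    Units.ne_zero (omega p K σ) ((ZMod.val_eq_zero _).mp h0)
  have halt : a < p := ZMod.val_lt _
  have hco : (a - 1).Coprime p :=
    ((hp.out.coprime_iff_not_dvd).mpr fun hd => by
      have := Nat.le_of_dvd (by omega) hd; omega).symm
  have h3 : zetaInt p K * ((zetaInt p K - 1) * geomElt p K (a - 1)) ∈ P := by
    rw [mul_comm (zetaInt p K - 1), geomElt_mul, mul_sub, ← pow_succ', mul_one,
      show a - 1 + 1 = a by omega]
    exact h2
  have hz : IsUnit (zetaInt p K) := (zetaInt_spec p K).isUnit hp.out.ne_zero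
  rcases Ideal.IsPrime.mem_or_mem inferInstance h3 with h4 | h4
  · exact Ideal.IsPrime.ne_top inferInstance (P.eq_top_of_isUnit_mem h4 hz)
  rcases Ideal.IsPrime.mem_or_mem inferInstance h4 with h4 | h4
  · exact hpP (P.mem_of_dvd ((zetaInt_spec p K).sub_one_dvd_natCast hp.out.one_lt) h4)
  · exact Ideal.IsPrime.ne_top inferInstance (P.eq_top_of_isUnit_mem h4 (isUnit_geomElt p K hco))

lemma dvd_absNorm_sub_one {ℓ : ℕ} (hℓ : ℓ.Prime) {P : Ideal (𝓞 K)} [P.IsPrime]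
    (hcard : Ideal.absNorm P = ℓ) (hpP : (p : 𝓞 K) ∉ P) : p ∣ ℓ - 1 := by
  have hP0 : P ≠ ⊥ := fun h => hℓ.ne_zero (by rw [← hcard, h, Ideal.absNorm_bot])
  have : P.IsMaximal := Ideal.IsPrime.isMaximal inferInstance hP0
  have : Finite (𝓞 K ⧸ P) := Ideal.finiteQuotientOfFreeOfNeBot P hP0
  let _ : Field (𝓞 K ⧸ P) := Ideal.Quotient.field P
  have : Fintype (𝓞 K ⧸ P) := Fintype.ofFinite _
  set z : 𝓞 K ⧸ P := Ideal.Quotient.mk P (zetaInt p K)
  have hz : z ^ p = 1 := by rw [← map_pow, (zetaInt_spec p K).pow_eq_one, map_one]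
  have hz1 : z ≠ 1 := fun h => by
    rw [← map_one (Ideal.Quotient.mk P), Ideal.Quotient.eq] at h
    exact hpP (P.mem_of_dvd ((zetaInt_spec p K).sub_one_dvd_natCast hp.out.one_lt) h)
  have hord : orderOf z = p := orderOf_eq_prime hz hz1
  have h := FiniteField.pow_card_sub_one_eq_one z
    (fun h => by rw [h, zero_pow hp.out.ne_zero] at hz; exact zero_ne_one hz)
  rw [← orderOf_dvd_iff_pow_eq_one, hord, ← Nat.card_eq_fintype_card] at h
  rwa [show Nat.card (𝓞 K ⧸ P) = ℓ by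
    rw [← hcard, Ideal.absNorm_apply, Submodule.cardQuot_apply]] at h

section Aux

variable {ℓ : ℕ} [hℓ : Fact ℓ.Prime] {F : Type} [Field F] [NumberField F] [Algebra K F]
  [IsCyclotomicExtension {ℓ} K F]

variable (ℓ K F) in
/-- The chosen primitive `ℓ`-th root of unity. -/
def auxRoot : 𝓞 F := (IsCyclotomicExtension.zeta_spec ℓ K F).toInteger

section
omit [NumberField K] [NumberField F]

lemma auxRoot_spec : IsPrimitiveRoot (auxRoot K ℓ F) ℓ :=
  (IsCyclotomicExtension.zeta_spec ℓ K F).toInteger_isPrimitiveRoot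

lemma span_natCast_eq_pow :
    Ideal.span {(ℓ : 𝓞 F)} = Ideal.span {1 - auxRoot K ℓ F} ^ (ℓ - 1) := by
  rw [Ideal.span_singleton_pow, Ideal.span_singleton_eq_span_singleton,
    ← Polynomial.eval_one_cyclotomic_prime (R := 𝓞 F) (p := ℓ),
    Polynomial.cyclotomic_eq_prod_X_sub_primitiveRoots (auxRoot_spec (K := K)),
    Polynomial.eval_prod]
  simp only [Polynomial.eval_sub, Polynomial.eval_X, Polynomial.eval_C]
  rw [← Nat.totient_prime hℓ.out, ← (auxRoot_spec (K := K) (ℓ := ℓ) (F := F)).card_primitiveRoots,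
    ← Finset.prod_const]
  refine (Associated.prod _ _ _ fun η hη => ?_).symm
  have hη' := isPrimitiveRoot_of_mem_primitiveRoots hη
  obtain ⟨i, -, hi, rfl⟩ := (auxRoot_spec (K := K) (ℓ := ℓ) (F := F)).isPrimitiveRoot_iff.mp hη'
  simpa using ((auxRoot_spec (K := K) (ℓ := ℓ) (F := F)).associated_sub_one_pow_sub_one_of_coprime
    hi).neg_left.neg_right

lemma finrank_aux_le : Module.finrank K F ≤ ℓ - 1 := by
  have : FiniteDimensional K F := IsCyclotomicExtension.finiteDimensional {ℓ} K F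
  have : IsGalois K F := IsCyclotomicExtension.isGalois {ℓ} K F
  rw [← IsGalois.card_aut_eq_finrank K F]
  refine (Nat.card_le_card_of_injective _
    ((IsCyclotomicExtension.zeta_spec ℓ K F).autToPow_injective K)).trans ?_
  rw [Nat.card_eq_fintype_card, ZMod.card_units]

lemma one_sub_auxRoot_ne_zero : (1 : 𝓞 F) - auxRoot K ℓ F ≠ 0 :=
  sub_ne_zero.mpr (auxRoot_spec.ne_one hℓ.out.one_lt).symm

end

omit [NumberField K] in
lemma ord_natCast_aux (Q : Ideal (𝓞 F)) :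
    ordIdeal Q (Ideal.span {(ℓ : 𝓞 F)}) =
      (ℓ - 1) * ordIdeal Q (Ideal.span {1 - auxRoot K ℓ F}) := by
  rw [span_natCast_eq_pow (K := K), ordIdeal_pow]

lemma ordIdeal_span_natCast_K {P : Ideal (𝓞 K)} [P.IsPrime]
    (hP : (ℓ : 𝓞 K) ∈ P) (hℓp : ¬ ℓ ∣ p) : ordIdeal P (Ideal.span {(ℓ : 𝓞 K)}) = 1 := by
  have hP0 : P ≠ ⊥ := fun h => hℓ.out.ne_zero (by simpa [h] using hP)
  have hspan : Ideal.span {(ℓ : 𝓞 K)} =
      (Ideal.span {(ℓ : ℤ)}).map (algebraMap ℤ (𝓞 K)) := by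
    rw [Ideal.map_span, Set.image_singleton, map_natCast]
  have : P.LiesOver (Ideal.span {(ℓ : ℤ)}) := ⟨by
    refine Ideal.IsMaximal.eq_of_le (Int.ideal_span_isMaximal_of_prime ℓ)
      (Ideal.IsPrime.ne_top (Ideal.comap_isPrime _ P)) ?_
    rw [Ideal.span_singleton_le_iff_mem, Ideal.mem_comap, map_natCast]
    exact hP⟩
  have h := Ideal.IsDedekindDomain.ramificationIdx_eq_normalizedFactors_count
    (Ideal.span {(ℓ : ℤ)}) P (by
    rw [← hspan, Ne, Ideal.span_singleton_eq_bot, Nat.cast_eq_zero]; exact hℓ.out.ne_zero)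
  rw [IsCyclotomicExtension.Rat.ramificationIdx_eq_of_not_dvd (m := p) ℓ K P hℓp] at h
  rw [ordIdeal, hspan, ← h]

/-- Behaviour above the split prime. -/
lemma exists_aux_prime {P : Ideal (𝓞 K)} [P.IsPrime] (hcard : Ideal.absNorm P = ℓ)
    (hP : (ℓ : 𝓞 K) ∈ P) (hℓp : ¬ ℓ ∣ p) :
    Module.finrank K F = ℓ - 1 ∧ ∃ Q : Ideal (𝓞 F), Q.IsPrime ∧ Q ≠ ⊥ ∧
      Q.comap (algebraMap (𝓞 K) (𝓞 F)) = P ∧
      P.map (algebraMap (𝓞 K) (𝓞 F)) = Q ^ (ℓ - 1) ∧
      ordIdeal Q (P.map (algebraMap (𝓞 K) (𝓞 F))) = ℓ - 1 ∧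
      ordIdeal Q (Ideal.span {1 - auxRoot K ℓ F}) = 1 ∧ Ideal.absNorm Q = ℓ := by
  have hP0 : P ≠ ⊥ := fun h => hℓ.out.ne_zero (by rw [← hcard, h, Ideal.absNorm_bot])
  have : P.IsMaximal := Ideal.IsPrime.isMaximal inferInstance hP0
  obtain ⟨Q, hQm, hQ⟩ := Ideal.exists_maximal_ideal_liesOver_of_isIntegral (S := 𝓞 F) P
  have hQc : Q.comap (algebraMap (𝓞 K) (𝓞 F)) = P := hQ.over.symm
  have hQ0 : Q ≠ ⊥ := fun h => hP0 (by
    rw [← hQc, h]; exact Ideal.comap_bot_of_injective _ (FaithfulSMul.algebraMap_injective _ _))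
  have hℓQ : (ℓ : 𝓞 F) ∈ Q := by
    have : algebraMap (𝓞 K) (𝓞 F) (ℓ : 𝓞 K) ∈ Q := Ideal.mem_comap.mp (hQc.symm ▸ hP)
    rwa [map_natCast] at this
  set m := ordIdeal Q (P.map (algebraMap (𝓞 K) (𝓞 F)))
  set t := ordIdeal Q (Ideal.span {1 - auxRoot K ℓ F})
  have hm : m = (ℓ - 1) * t := by
    rw [← ord_natCast_aux, ← one_mul m, ← ordIdeal_span_natCast_K hP hℓp,
      ← ordIdeal_map hP0 Q hQc (by
        rw [Ne, Ideal.span_singleton_eq_bot, Nat.cast_eq_zero]; exact hℓ.out.ne_zero),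
      Ideal.map_span, Set.image_singleton, map_natCast]
  have ht : 1 ≤ t := by
    refine one_le_ordIdeal hQ0 (fun h => one_sub_auxRoot_ne_zero (K := K)
      (Ideal.span_singleton_eq_bot.mp h)) ?_
    rw [Ideal.span_singleton_le_iff_mem]
    refine hQm.isPrime.mem_of_pow_mem (ℓ - 1) ?_
    rw [← Ideal.span_singleton_le_iff_mem, ← Ideal.span_singleton_pow,
      ← span_natCast_eq_pow (K := K), Ideal.span_singleton_le_iff_mem]
    exact hℓQ
  have hmap0 : P.map (algebraMap (𝓞 K) (𝓞 F)) ≠ ⊥ := fun h => hP0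
    ((Ideal.map_eq_bot_iff_of_injective (FaithfulSMul.algebraMap_injective _ _)).mp h)
  obtain ⟨J, hJ, -⟩ := exists_eq_pow_ordIdeal_mul hQ0 hmap0
  have hfr : Module.finrank (𝓞 K) (𝓞 F) = Module.finrank K F :=
    (IsFractionRing.finrank_eq (𝓞 K) K (𝓞 F) F).symm
  have hnorm := congrArg Ideal.absNorm hJ
  rw [Ideal.absNorm_algebraMap, hfr, hcard, map_mul, map_pow] at hnorm
  obtain ⟨q, f, hq, hf, hNQ, hqQ⟩ : ∃ q f : ℕ, q.Prime ∧ 0 < f ∧ Ideal.absNorm Q = q ^ f ∧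
      q = ℓ := by
    have hdvd : Ideal.absNorm Q ∣ ℓ ^ Module.finrank K F := by
      rw [hnorm]; exact (dvd_pow_self _ (show m ≠ 0 by rw [hm]; exact (Nat.mul_pos (by
        have := hℓ.out.two_le; omega) ht).ne')).mul_right _
    obtain ⟨f, -, hf⟩ := (Nat.dvd_prime_pow hℓ.out).mp hdvd
    refine ⟨ℓ, f, hℓ.out, Nat.pos_of_ne_zero fun h => ?_, hf, rfl⟩
    rw [h, pow_zero, Ideal.absNorm_eq_one_iff] at hf
    exact hQm.ne_top hf
  subst hqQ
  have hfin : Module.finrank K F ≤ q - 1 := finrank_aux_le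
  rw [hNQ] at hnorm
  have hJN : Ideal.absNorm J ≠ 0 := fun h => by
    rw [h, mul_zero] at hnorm; exact pow_ne_zero _ hq.ne_zero hnorm
  have hle : f * m ≤ Module.finrank K F := by
    rw [← Nat.pow_le_pow_iff_right hq.one_lt, pow_mul, hnorm]
    exact Nat.le_mul_of_pos_right _ (Nat.pos_of_ne_zero hJN)
  have hq1 : 0 < q - 1 := by have := hq.two_le; omega
  have hft : f * t = 1 := by
    have h1 : (q - 1) * (f * t) ≤ (q - 1) * 1 := by rw [mul_one, mul_left_comm, ← hm]; omega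
    have h2 := Nat.le_of_mul_le_mul_left h1 hq1
    have h3 : 0 < f * t := Nat.mul_pos hf ht
    omega
  obtain ⟨hf1, ht1⟩ := mul_eq_one.mp hft
  rw [ht1, mul_one] at hm
  rw [hf1, one_mul, hm] at hle
  have hfr' : Module.finrank K F = q - 1 := le_antisymm hfin hle
  rw [hf1, pow_one, show ordIdeal Q (P.map (algebraMap (𝓞 K) (𝓞 F))) = q - 1 from hm, hfr'] at hnorm
  have hJ1 : Ideal.absNorm J = 1 :=
    (mul_eq_left₀ (pow_ne_zero _ hq.ne_zero)).mp hnorm.symm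
  rw [Ideal.absNorm_eq_one_iff] at hJ1
  refine ⟨hfr', Q, hQm.isPrime, hQ0, hQc, ?_, hm, ht1, by rw [hNQ, hf1, pow_one]⟩
  rw [hJ, hJ1, show ordIdeal Q (P.map (algebraMap (𝓞 K) (𝓞 F))) = q - 1 from hm,
    ← Ideal.one_eq_top, mul_one]

lemma exists_unramified_prime {P : Ideal (𝓞 K)} [P.IsPrime] (hP0 : P ≠ ⊥)
    (hP : (ℓ : 𝓞 K) ∉ P) :
    ∃ Q : Ideal (𝓞 F), Q.IsPrime ∧ Q.comap (algebraMap (𝓞 K) (𝓞 F)) = P ∧
      ordIdeal Q (P.map (algebraMap (𝓞 K) (𝓞 F))) = 1 := by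
  have : P.IsMaximal := Ideal.IsPrime.isMaximal inferInstance hP0
  have : FiniteDimensional K F := IsCyclotomicExtension.finiteDimensional {ℓ} K F
  have : IsGalois K F := IsCyclotomicExtension.isGalois {ℓ} K F
  obtain ⟨Q, hQm, hQ⟩ := Ideal.exists_maximal_ideal_liesOver_of_isIntegral (S := 𝓞 F) P
  have := hQm.isPrime
  refine ⟨Q, inferInstance, hQ.over.symm, ?_⟩
  have hℓQ : (ℓ : 𝓞 F) ∉ Q := fun h => hP (by
    rw [hQ.over, Ideal.mem_comap, map_natCast]; exact h)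
  have hin : Q.inertia (F ≃ₐ[K] F) = ⊥ := by
    rw [Subgroup.eq_bot_iff_forall]
    intro τ hτ
    have hτ' : τ • auxRoot K ℓ F - auxRoot K ℓ F ∈ Q := hτ (auxRoot K ℓ F)
    apply (IsCyclotomicExtension.zeta_spec ℓ K F).autToPow_injective K
    rw [map_one]
    set a := ((IsCyclotomicExtension.zeta_spec ℓ K F).autToPow K τ : ZMod ℓ).val
    have hspec : τ • auxRoot K ℓ F = auxRoot K ℓ F ^ a := by
      apply RingOfIntegers.ext
      exact ((IsCyclotomicExtension.zeta_spec ℓ K F).autToPow_spec K τ).symm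
    by_contra hne
    have ha : a ≠ 1 := fun ha => hne (by
      ext; rw [Units.val_one,
        ← ZMod.natCast_zmod_val ((IsCyclotomicExtension.zeta_spec ℓ K F).autToPow K τ : ZMod ℓ)]
      simp [a] at ha; rw [ha, Nat.cast_one])
    have ha0 : 0 < a := Nat.pos_of_ne_zero fun h0 =>
      Units.ne_zero _ ((ZMod.val_eq_zero _).mp h0)
    have halt : a < ℓ := ZMod.val_lt _
    rw [hspec] at hτ'
    have hsp := auxRoot_spec (K := K) (ℓ := ℓ) (F := F)
    have hco : (a - 1).Coprime ℓ := ((hℓ.out.coprime_iff_not_dvd).mpr fun hd => by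
      have := Nat.le_of_dvd (by omega) hd; omega).symm
    obtain ⟨u, hu⟩ := hsp.associated_sub_one_pow_sub_one_of_coprime hco
    have h3 : auxRoot K ℓ F * ((auxRoot K ℓ F - 1) * u) ∈ Q := by
      rw [hu, mul_sub, ← pow_succ', mul_one, show a - 1 + 1 = a by omega]
      exact hτ'
    rcases hQm.isPrime.mem_or_mem h3 with h4 | h4
    · exact hQm.ne_top (Q.eq_top_of_isUnit_mem h4 (hsp.isUnit hℓ.out.ne_zero))
    rcases hQm.isPrime.mem_or_mem h4 with h4 | h4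
    · exact hℓQ (Q.mem_of_dvd (hsp.sub_one_dvd_natCast hℓ.out.one_lt) h4)
    · exact hQm.ne_top (Q.eq_top_of_isUnit_mem h4 u.isUnit)
  have : Finite (𝓞 K ⧸ P) := Ideal.finiteQuotientOfFreeOfNeBot P hP0
  have : Finite P.ResidueField :=
    Finite.of_surjective _ P.bijective_algebraMap_quotient_residueField.2
  have hc := Ideal.card_inertia_eq_ramificationIdxIn (G := F ≃ₐ[K] F) P Q
  rw [hin, Subgroup.card_bot, Ideal.ramificationIdxIn_eq_ramificationIdx P Q (F ≃ₐ[K] F),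
    Ideal.IsDedekindDomain.ramificationIdx_eq_normalizedFactors_count P Q (fun h => hP0
      ((Ideal.map_eq_bot_iff_of_injective (FaithfulSMul.algebraMap_injective _ _)).mp h))] at hc
  exact hc.symm

lemma norm_sub_auxRoot (hℓ1 : p ∣ ℓ - 1) (hfr : Module.finrank K F = ℓ - 1) :
    RingOfIntegers.norm K (algebraMap (𝓞 K) (𝓞 F) (zetaInt p K) - auxRoot K ℓ F) = 1 := by
  have : FiniteDimensional K F := IsCyclotomicExtension.finiteDimensional {ℓ} K F
  have : IsGalois K F := IsCyclotomicExtension.isGalois {ℓ} K F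
  set hz := IsCyclotomicExtension.zeta_spec ℓ K F
  apply RingOfIntegers.ext
  rw [RingOfIntegers.coe_norm]
  show Algebra.norm K ((algebraMap (𝓞 K) (𝓞 F) (zetaInt p K) - auxRoot K ℓ F : 𝓞 F) : F) = (1 : K)
  apply (algebraMap K F).injective
  rw [Algebra.norm_eq_prod_automorphisms, map_one]
  have hbij : Function.Bijective (hz.autToPow K) := by
    rw [Fintype.bijective_iff_injective_and_card, ZMod.card_units]
    refine ⟨hz.autToPow_injective K, ?_⟩
    rw [← Nat.card_eq_fintype_card, IsGalois.card_aut_eq_finrank, hfr]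
  have hc := congrArg (Polynomial.eval (algebraMap K F ((zetaInt p K : 𝓞 K) : K)))
    (Polynomial.cyclotomic_eq_prod_X_sub_primitiveRoots hz)
  rw [Polynomial.cyclotomic_prime, Polynomial.eval_finsetSum, Polynomial.eval_prod] at hc
  simp only [Polynomial.eval_pow, Polynomial.eval_X, Polynomial.eval_sub, Polynomial.eval_C] at hc
  have hsum : ∑ i ∈ Finset.range ℓ, algebraMap K F ((zetaInt p K : 𝓞 K) : K) ^ i = 1 := by
    simp only [← map_pow, ← map_sum]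
    rw [← map_one (algebraMap K F)]
    congr 1
    obtain ⟨k, hk⟩ := hℓ1
    have hl : ℓ = p * k + 1 := by have := hℓ.out.two_le; omega
    have hz' := zetaInt_spec p K
    have h0 : ∑ i ∈ Finset.range (p * k), zetaInt p K ^ i = 0 := by
      apply mul_right_cancel₀ (sub_ne_zero.mpr (hz'.ne_one hp.out.one_lt))
      rw [zero_mul, geom_sum_mul, pow_mul, hz'.pow_eq_one, one_pow, sub_self]
    rw [hl, Finset.sum_range_succ, h0, pow_mul, hz'.pow_eq_one, one_pow, zero_add, map_one]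
  rw [hsum] at hc
  rw [hc]
  refine Finset.prod_bij (fun τ _ => τ (IsCyclotomicExtension.zeta ℓ K F)) (fun τ _ => ?_) ?_ ?_ ?_
  · rw [mem_primitiveRoots hℓ.out.pos]; exact hz.map_of_injective τ.injective
  · intro a _ b _ h
    apply hz.autToPow_injective K
    apply Units.ext; apply ZMod.val_injective
    apply hz.pow_inj (ZMod.val_lt _) (ZMod.val_lt _)
    rw [hz.autToPow_spec K a, hz.autToPow_spec K b]; exact h
  · intro η hη
    obtain ⟨i, hi, hico, rfl⟩ :=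
      hz.isPrimitiveRoot_iff.mp (isPrimitiveRoot_of_mem_primitiveRoots hη)
    obtain ⟨τ, hτ⟩ := hbij.2 (ZMod.unitOfCoprime i hico)
    refine ⟨τ, Finset.mem_univ _, ?_⟩
    rw [← hz.autToPow_spec K τ, hτ, ZMod.coe_unitOfCoprime, ZMod.val_natCast, Nat.mod_eq_of_lt hi]
  · intro τ _
    simp only [map_sub]
    congr 1
    exact τ.commutes _

/-- Hilbert 90 for `ζₚ - ζ_ℓ`: it is `β / τ(β)` for a generator `τ` of the auxiliary extension, and
the ideal of `β` is then invariant. -/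
private lemma exists_hilbert90_aux (hℓ1 : p ∣ ℓ - 1) (hfr : Module.finrank K F = ℓ - 1) :
    ∃ (τ : F ≃ₐ[K] F) (g : ℕ) (β : 𝓞 F), τ • auxRoot K ℓ F = auxRoot K ℓ F ^ g ∧ β ≠ 0 ∧
      (algebraMap (𝓞 K) (𝓞 F) (zetaInt p K) - auxRoot K ℓ F) * τ • β = β ∧
      ∀ ν : F ≃ₐ[K] F, ν • Ideal.span {β} = Ideal.span {β} := by
  have : FiniteDimensional K F := IsCyclotomicExtension.finiteDimensional {ℓ} K F
  have : IsGalois K F := IsCyclotomicExtension.isGalois {ℓ} K F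
  set ε : 𝓞 F := algebraMap (𝓞 K) (𝓞 F) (zetaInt p K) - auxRoot K ℓ F
  have hnorm : RingOfIntegers.norm K ε = 1 := norm_sub_auxRoot hℓ1 hfr
  have hεu : IsUnit ε := (RingOfIntegers.isUnit_norm K).mp (by rw [hnorm]; exact isUnit_one)
  set hz := IsCyclotomicExtension.zeta_spec ℓ K F
  have hbij : Function.Bijective (hz.autToPow K) := by
    rw [Fintype.bijective_iff_injective_and_card, ZMod.card_units]
    refine ⟨hz.autToPow_injective K, ?_⟩
    rw [← Nat.card_eq_fintype_card, IsGalois.card_aut_eq_finrank, hfr]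
  let e : (F ≃ₐ[K] F) ≃* (ZMod ℓ)ˣ := MulEquiv.ofBijective (hz.autToPow K) hbij
  have : IsCyclic (F ≃ₐ[K] F) := isCyclic_of_surjective e.symm e.symm.surjective
  obtain ⟨τ, hτ⟩ := IsCyclic.exists_generator (α := F ≃ₐ[K] F)
  obtain ⟨β, hβ0, hβ'⟩ := groupCohomology.exists_mul_galRestrict_of_norm_eq_one (A := 𝓞 K) (K := K)
    (L := F) (B := 𝓞 F) hτ (η := ε) (by
      have h := congrArg (fun x : 𝓞 K => (x : K)) hnorm
      simp only [RingOfIntegers.coe_norm] at h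
      exact h)
  have hβ : ε * τ • β = β := by
    rw [show τ • β = galRestrict (𝓞 K) K F (𝓞 F) τ β from RingOfIntegers.ext
      ((algebraMap_galRestrict_apply (𝓞 K) τ β).symm)]
    exact hβ'
  refine ⟨τ, (hz.autToPow K τ : ZMod ℓ).val, β,
    RingOfIntegers.ext (hz.autToPow_spec K τ).symm, hβ0, hβ, fun ν => ?_⟩
  have h1 : τ • Ideal.span {β} = Ideal.span {β} := by
    rw [span_singleton_smul]
    conv_rhs => rw [← hβ, Ideal.span_singleton_mul_left_unit hεu]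
  obtain ⟨k, rfl⟩ := hτ ν
  exact MulAction.mem_stabilizer_iff.mp
    (Subgroup.zpow_mem (MulAction.stabilizer (F ≃ₐ[K] F) (Ideal.span {β}))
      (MulAction.mem_stabilizer_iff.mpr h1) k)

omit [NumberField K] hℓ [NumberField F] in
/-- The norm of a Galois invariant principal ideal is its power. -/
private lemma map_span_norm (hfr : Module.finrank K F = ℓ - 1) {β : 𝓞 F}
    (hinv : ∀ ν : F ≃ₐ[K] F, ν • Ideal.span {β} = Ideal.span {β}) :
    (Ideal.span {RingOfIntegers.norm K β}).map (algebraMap (𝓞 K) (𝓞 F)) =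
      Ideal.span {β} ^ (ℓ - 1) := by
  have : FiniteDimensional K F := IsCyclotomicExtension.finiteDimensional {ℓ} K F
  have : IsGalois K F := IsCyclotomicExtension.isGalois {ℓ} K F
  have h : algebraMap (𝓞 K) (𝓞 F) (RingOfIntegers.norm K β) = ∏ ν : F ≃ₐ[K] F, ν • β := by
    apply RingOfIntegers.ext
    rw [show ((∏ ν : F ≃ₐ[K] F, ν • β : 𝓞 F) : F) = ∏ ν : F ≃ₐ[K] F, ((ν • β : 𝓞 F) : F) from
      map_prod (algebraMap (𝓞 F) F) _ _]
    exact (Algebra.norm_eq_prod_automorphisms K (β : F)).trans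
      (Finset.prod_congr rfl fun _ _ => rfl)
  rw [Ideal.map_span, Set.image_singleton, h, ← Ideal.prod_span_singleton,
    Finset.prod_congr rfl fun ν _ => (span_singleton_smul ν β).symm.trans (hinv ν),
    Finset.prod_const, Finset.card_univ, ← Nat.card_eq_fintype_card,
    IsGalois.card_aut_eq_finrank, hfr]

/-- At a totally ramified prime of norm `ℓ` the Galois group is the inertia group. -/
private lemma smul_sub_mem {P : Ideal (𝓞 K)} {Q : Ideal (𝓞 F)} [hQp : Q.IsPrime] (hQ0 : Q ≠ ⊥)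
    (hQpow : P.map (algebraMap (𝓞 K) (𝓞 F)) = Q ^ (ℓ - 1)) (hQN : Ideal.absNorm Q = ℓ)
    (τ : F ≃ₐ[K] F) (y : 𝓞 F) : τ • y - y ∈ Q := by
  have : FiniteDimensional K F := IsCyclotomicExtension.finiteDimensional {ℓ} K F
  have : IsGalois K F := IsCyclotomicExtension.isGalois {ℓ} K F
  have hQτ : τ • Q = Q := by
    have hfix : τ • P.map (algebraMap (𝓞 K) (𝓞 F)) = P.map (algebraMap (𝓞 K) (𝓞 F)) := by
      rw [Ideal.pointwise_smul_def, Ideal.map_map]
      congr 1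
      exact RingHom.ext fun y => smul_algebraMap τ y
    rw [hQpow, smul_pow'] at hfix
    have hdvd : τ • Q ∣ Q ^ (ℓ - 1) := hfix ▸ dvd_pow_self _ (by
      have := hℓ.out.two_le; omega)
    have hprime : (τ • Q).IsPrime := by
      rw [Ideal.pointwise_smul_def]
      exact Ideal.map_isPrime_of_equiv (MulSemiringAction.toRingEquiv (F ≃ₐ[K] F) (𝓞 F) τ)
    have hle : Q ≤ τ • Q := hprime.le_of_pow_le (Ideal.le_of_dvd hdvd)
    exact ((hQp.isMaximal hQ0).eq_of_le hprime.ne_top hle).symm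
  obtain ⟨n, hn⟩ := exists_natCast_sub_mem hℓ.out
    (((Submodule.cardQuot_apply _).symm.trans (Ideal.absNorm_apply Q).symm).trans hQN) y
  have h1 := Ideal.smul_mem_pointwise_smul τ _ _ hn
  rw [hQτ, smul_sub, show τ • (n : 𝓞 F) = n from
    map_natCast (MulSemiringAction.toRingHom (F ≃ₐ[K] F) (𝓞 F) τ) n] at h1
  have := Q.sub_mem h1 hn
  rwa [sub_sub_sub_cancel_right] at this

omit [Algebra K F] [IsCyclotomicExtension {ℓ} K F] [NumberField K] in
/-- An element of order `r` is `π ^ r` times a unit at a prime where `π` has order one. -/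
private lemma exists_pow_mul_eq {Q : Ideal (𝓞 F)} [hQp : Q.IsPrime] (hQ0 : Q ≠ ⊥) {π β : 𝓞 F}
    (hπ0 : π ≠ 0) (hβ0 : β ≠ 0) (hπ1 : ordIdeal Q (Ideal.span {π}) = 1) :
    ∃ a b : 𝓞 F, a ∉ Q ∧ b ∉ Q ∧ a * β = π ^ ordIdeal Q (Ideal.span {β}) * b := by
  set r := ordIdeal Q (Ideal.span {β}) with hr
  have hπspan : Ideal.span {π} ≠ ⊥ := by rwa [Ne, Ideal.span_singleton_eq_bot]
  have hβspan : Ideal.span {β} ≠ ⊥ := by rwa [Ne, Ideal.span_singleton_eq_bot]
  obtain ⟨A, hA, hAQ⟩ := exists_eq_pow_ordIdeal_mul (P := Q) hQ0 hπspan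
  rw [hπ1, pow_one] at hA
  obtain ⟨B, hB, hBQ⟩ := exists_eq_pow_ordIdeal_mul (P := Q) hQ0 hβspan
  obtain ⟨x, hxA, hxQ⟩ := SetLike.not_le_iff_exists.mp hAQ
  set a := x ^ r
  have haQ : a ∉ Q := fun h => hxQ (hQp.mem_of_pow_mem r h)
  obtain ⟨b, hb⟩ : π ^ r ∣ a * β := by
    rw [← Ideal.mem_span_singleton, ← Ideal.span_singleton_pow, hA, mul_pow, mul_comm (Q ^ r)]
    refine Ideal.mul_mem_mul (Ideal.pow_mem_pow hxA r) ?_
    exact Ideal.mul_le_left (I := Q ^ r) (J := B) (hB ▸ Ideal.mem_span_singleton_self β)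
  refine ⟨a, b, haQ, fun hbQ => ?_, hb⟩
  have hab0 : b ≠ 0 := fun h => by
    rw [h, mul_zero] at hb
    exact mul_ne_zero (fun h' => haQ (by rw [h']; exact Q.zero_mem)) hβ0 hb
  have hbspan : Ideal.span {b} ≠ ⊥ := by rwa [Ne, Ideal.span_singleton_eq_bot]
  have h := congrArg (fun z => ordIdeal Q (Ideal.span {z})) hb
  simp only [← Ideal.span_singleton_mul_span_singleton] at h
  rw [ordIdeal_mul Q (fun h' => haQ (by rw [Ideal.span_singleton_eq_bot.mp h']; exact Q.zero_mem))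
    hβspan] at h
  simp only [← Ideal.span_singleton_pow] at h
  rw [ordIdeal_mul Q (pow_ne_zero _ hπspan) hbspan, ordIdeal_pow, hπ1, mul_one,
    ordIdeal_eq_zero (I := Ideal.span {a})
      (fun h' => haQ ((Ideal.span_singleton_le_iff_mem (I := Q)).mp h')), zero_add, ← hr] at h
  have := one_le_ordIdeal hQ0 hbspan ((Ideal.span_singleton_le_iff_mem (I := Q)).mpr hbQ)
  omega

/-- The congruence satisfied at a prime above `ℓ` by a solution of Hilbert 90. -/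
private lemma congr_at_prime {P : Ideal (𝓞 K)} [P.IsPrime] (hcard : Ideal.absNorm P = ℓ)
    (hP : (ℓ : 𝓞 K) ∈ P) (hℓp : ¬ ℓ ∣ p) {τ : F ≃ₐ[K] F} {g : ℕ}
    (hτroot : τ • auxRoot K ℓ F = auxRoot K ℓ F ^ g) {β : 𝓞 F} (hβ0 : β ≠ 0)
    (hβ : (algebraMap (𝓞 K) (𝓞 F) (zetaInt p K) - auxRoot K ℓ F) * τ • β = β)
    {I : Ideal (𝓞 K)} (hI0 : I ≠ ⊥)
    (hmap : I.map (algebraMap (𝓞 K) (𝓞 F)) = Ideal.span {β} ^ (ℓ - 1)) :
    (zetaInt p K - 1) * (g : 𝓞 K) ^ ordIdeal P I - 1 ∈ P := by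
  set ι := algebraMap (𝓞 K) (𝓞 F)
  have hP0 : P ≠ ⊥ := fun h => hℓ.out.ne_zero (by rw [← hcard, h, Ideal.absNorm_bot])
  obtain ⟨-, Q, hQp, hQ0, hQc, hQpow, hQm, hQt, hQN⟩ :=
    exists_aux_prime (ℓ := ℓ) (F := F) hcard hP hℓp
  set r := ordIdeal P I
  have hr : r = ordIdeal Q (Ideal.span {β}) := by
    have h := ordIdeal_map hP0 Q hQc hI0
    rw [hmap, ordIdeal_pow, hQm, mul_comm r] at h
    exact (Nat.eq_of_mul_eq_mul_left (by have := hℓ.out.two_le; omega) h).symm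
  set π : 𝓞 F := 1 - auxRoot K ℓ F
  have hπ0 : π ≠ 0 := one_sub_auxRoot_ne_zero (K := K)
  obtain ⟨a, b, haQ, hbQ, hb⟩ := exists_pow_mul_eq hQ0 hπ0 hβ0 hQt
  rw [← hr] at hb
  have hπQ : π ∈ Q := by
    obtain ⟨A, hA, -⟩ := exists_eq_pow_ordIdeal_mul (P := Q) hQ0
      (I := Ideal.span {π}) (by rwa [Ne, Ideal.span_singleton_eq_bot])
    rw [hQt, pow_one] at hA
    rw [← Ideal.span_singleton_le_iff_mem, hA]
    exact Ideal.mul_le_left
  set G : 𝓞 F := ∑ i ∈ Finset.range g, auxRoot K ℓ F ^ i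
  have hτπ : τ • π = π * G := by
    simp only [π, G, smul_sub, smul_one, hτroot]
    rw [mul_comm, geom_sum_mul_neg]
  have hGQ : G - (g : 𝓞 F) ∈ Q := by
    have : G - (g : 𝓞 F) = ∑ i ∈ Finset.range g, (auxRoot K ℓ F ^ i - 1) := by
      simp [G, Finset.sum_sub_distrib]
    rw [this]
    refine Q.sum_mem fun i _ => ?_
    rw [← mul_geom_sum]
    refine Q.mul_mem_right _ ?_
    rw [← Q.neg_mem_iff, neg_sub]
    exact hπQ
  set ε := ι (zetaInt p K) - auxRoot K ℓ F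
  have hbb : ε * (a * G ^ r * τ • b) = τ • a * b := by
    have h1 : τ • a * τ • β = τ • π ^ r * τ • b := by rw [← smul_mul', hb, smul_mul']
    apply mul_left_cancel₀ (pow_ne_zero r hπ0)
    calc π ^ r * (ε * (a * G ^ r * τ • b)) = ε * a * (τ • π ^ r * τ • b) := by
          rw [smul_pow', hτπ, mul_pow]; ring
      _ = ε * a * (τ • a * τ • β) := by rw [h1]
      _ = τ • a * (a * (ε * τ • β)) := by ring
      _ = τ • a * (π ^ r * b) := by rw [hβ, hb]
      _ = π ^ r * (τ • a * b) := by ring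
  -- reduce modulo `Q`
  set φ := Ideal.Quotient.mk Q
  have hφτ : ∀ y, φ (τ • y) = φ y := fun y =>
    Ideal.Quotient.eq.mpr (smul_sub_mem hQ0 hQpow hQN τ y)
  have hε : φ ε = φ (ι (zetaInt p K) - 1) := by
    rw [Ideal.Quotient.eq]
    convert hπQ using 1
    simp only [ε, π]
    ring
  have h2 := congrArg φ hbb
  simp only [map_mul, map_pow, hφτ] at h2
  rw [show φ G = φ (g : 𝓞 F) from Ideal.Quotient.eq.mpr hGQ, hε] at h2
  have hab : φ a * φ b ≠ 0 := mul_ne_zero (fun h => haQ (Ideal.Quotient.eq_zero_iff_mem.mp h))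
    (fun h => hbQ (Ideal.Quotient.eq_zero_iff_mem.mp h))
  have h3 : φ (ι (zetaInt p K) - 1) * φ (g : 𝓞 F) ^ r = 1 := by
    apply mul_right_cancel₀ hab
    rw [one_mul]; linear_combination h2
  rw [← hQc, Ideal.mem_comap, ← Ideal.Quotient.eq_zero_iff_mem, map_sub, map_mul, map_pow,
    map_natCast, map_sub, map_one]
  simp only [φ, map_sub, map_one, map_mul, map_pow, map_natCast] at h3 ⊢
  rw [h3, sub_self]

end Aux

/-- A homomorphism from the class group on which Galois acts through `ω²`. -/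
def IsOmegaSqChar (ψ : ClassGroup (𝓞 K) →* Multiplicative (ZMod p)) : Prop :=
  ∀ (σ : K ≃ₐ[ℚ] K) (I J : (Ideal (𝓞 K))⁰), (J : Ideal (𝓞 K)) = σ • (I : Ideal (𝓞 K)) →
    ψ (ClassGroup.mk0 J) = ψ (ClassGroup.mk0 I) ^ omegaSq p K σ

/-- Galois is transitive on the primes above a rational prime. -/
private lemma exists_smul_eq_of_natCast_mem [IsGalois ℚ K] {ℓ : ℕ} [Fact ℓ.Prime]
    {P R : Ideal (𝓞 K)}
    [P.IsPrime] [R.IsPrime] (hP : (ℓ : 𝓞 K) ∈ P) (hR : (ℓ : 𝓞 K) ∈ R) :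
    ∃ σ : K ≃ₐ[ℚ] K, σ • P = R := by
  have hu : ∀ (R : Ideal (𝓞 K)), R.IsPrime → (ℓ : 𝓞 K) ∈ R →
      R.under ℤ = Ideal.span {(ℓ : ℤ)} := fun R hR h => by
    refine (Ideal.IsMaximal.eq_of_le (Int.ideal_span_isMaximal_of_prime ℓ)
      (Ideal.IsPrime.ne_top (Ideal.comap_isPrime _ R)) ?_).symm
    rw [Ideal.span_singleton_le_iff_mem, Ideal.mem_comap, map_natCast]; exact h
  obtain ⟨σ, hσ⟩ := Algebra.IsInvariant.exists_smul_of_under_eq ℤ (𝓞 K) (K ≃ₐ[ℚ] K) P R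
    ((hu P inferInstance hP).trans (hu R inferInstance hR).symm)
  exact ⟨σ, hσ.symm⟩

/-- A principal ideal supported modulo `p` on the conjugates of `P` gives a relation between the
multiplicities at these conjugates. -/
private lemma sum_ord_mul_omegaSq {ψ : ClassGroup (𝓞 K) →* Multiplicative (ZMod p)}
    (hψ : IsOmegaSqChar ψ) {P : Ideal (𝓞 K)} (hP0 : P ≠ ⊥)
    (hne : ψ (ClassGroup.mk0 ⟨P, mem_nonZeroDivisors_iff_ne_zero.mpr hP0⟩) ≠ 1)
    (hinj : Function.Injective fun σ : K ≃ₐ[ℚ] K => σ • P) {m : 𝓞 K}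
    (hM0 : Ideal.span {m} ≠ ⊥)
    (hsupp : ∀ R : Ideal (𝓞 K), R.IsPrime → R ≠ ⊥ → (∀ σ : K ≃ₐ[ℚ] K, σ • P ≠ R) →
      (ordIdeal R (Ideal.span {m}) : ZMod p) = 0) :
    ∑ σ : K ≃ₐ[ℚ] K,
      (ordIdeal (σ • P) (Ideal.span {m}) : ZMod p) * (omegaSq p K σ : ZMod p) = 0 := by
  have hPσ0 : ∀ σ : K ≃ₐ[ℚ] K, σ • P ≠ 0 := fun σ h =>
    hP0 (by rw [← inv_smul_smul σ P, h, smul_zero]; rfl)
  set P0 : (Ideal (𝓞 K))⁰ := ⟨P, mem_nonZeroDivisors_iff_ne_zero.mpr hP0⟩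
  let f : Ideal (𝓞 K) → Multiplicative (ZMod p) := fun R =>
    if h : R ≠ 0 then ψ (ClassGroup.mk0 ⟨R, mem_nonZeroDivisors_iff_ne_zero.mpr h⟩) else 1
  have hm := map_mk0_eq_prod ψ hM0 f (fun R hR => dif_pos (ne_zero_of_mem_normalizedFactors hR))
  rw [show ClassGroup.mk0 ⟨Ideal.span {m}, _⟩ = 1 from
    (ClassGroup.mk0_eq_one_iff _).mpr ⟨m, rfl⟩, map_one] at hm
  set S := (normalizedFactors (Ideal.span {m})).toFinset
  set T := Finset.univ.image fun σ : K ≃ₐ[ℚ] K => σ • P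
  have hST : ∏ R ∈ S, f R ^ ordIdeal R (Ideal.span {m}) =
      ∏ R ∈ T, f R ^ ordIdeal R (Ideal.span {m}) := by
    refine (Finset.prod_subset (Finset.subset_union_left (s₁ := S) (s₂ := T)) fun R _ hR => by
        rw [ordIdeal, Multiset.count_eq_zero.mpr (fun h => hR (Multiset.mem_toFinset.mpr h)),
          pow_zero]).trans
      (Finset.prod_subset (Finset.subset_union_right (s₁ := S) (s₂ := T)) fun R hR hRT => ?_).symm
    have hRS : R ∈ S := (Finset.mem_union.mp hR).resolve_right hRT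
    have hpr := prime_of_normalized_factor R (Multiset.mem_toFinset.mp hRS)
    obtain ⟨k, hk⟩ := (ZMod.natCast_eq_zero_iff _ _).mp
      (hsupp R (Ideal.isPrime_of_prime hpr) hpr.ne_zero
        fun σ hσ => hRT (Finset.mem_image.mpr ⟨σ, Finset.mem_univ _, hσ⟩))
    rw [hk, pow_mul]
    have : f R ^ p = 1 := by
      apply Multiplicative.toAdd.injective
      rw [toAdd_pow, toAdd_one, nsmul_eq_mul, ZMod.natCast_self, zero_mul]
    rw [this, one_pow]
  rw [hST, Finset.prod_image (fun a _ b _ h => hinj h)] at hm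
  have hf : ∀ σ : K ≃ₐ[ℚ] K, f (σ • P) = ψ (ClassGroup.mk0 P0) ^ omegaSq p K σ := fun σ => by
    simp only [f]
    rw [dif_pos (hPσ0 σ)]
    exact hψ σ P0 _ rfl
  simp only [hf, ← pow_mul] at hm
  have h := congrArg Multiplicative.toAdd hm
  simp only [toAdd_one, toAdd_prod, toAdd_pow, nsmul_eq_mul, Nat.cast_mul, ← Finset.sum_mul] at h
  rcases mul_eq_zero.mp h.symm with h' | h'
  · rw [← h']; exact Finset.sum_congr rfl fun σ _ => mul_comm _ _
  · exact absurd (toAdd_eq_zero.mp h') hne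

/-- From the congruences for the quotients of `1 - ζ` to one for the cyclotomic unit. -/
private lemma exists_pow_congr_of_rel (hp5 : 5 ≤ p) {P : Ideal (𝓞 K)} [P.IsPrime] (hP0 : P ≠ ⊥)
    {g : ℕ} {v : (K ≃ₐ[ℚ] K) → ℕ}
    (hrel : ∑ σ, (v σ : ZMod p) * (omegaSq p K σ : ZMod p) = 0)
    (hσeq : ∀ σ : K ≃ₐ[ℚ] K, Ideal.Quotient.mk P (quotUnit p K σ : 𝓞 K) *
      Ideal.Quotient.mk P (zetaInt p K - 1) * Ideal.Quotient.mk P (g : 𝓞 K) ^ v σ = 1) :
    ∃ y : 𝓞 K, (cycUnit p K : 𝓞 K) - y ^ p ∈ P := by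
  set φ := Ideal.Quotient.mk P
  have hprod : (∏ σ : K ≃ₐ[ℚ] K, φ ((quotUnit p K σ : 𝓞 K)) ^ omegaSq p K σ) *
      (φ (zetaInt p K - 1) ^ (∑ σ, omegaSq p K σ) *
        φ (g : 𝓞 K) ^ (∑ σ, v σ * omegaSq p K σ)) = 1 := by
    rw [← Finset.prod_pow_eq_pow_sum, ← Finset.prod_pow_eq_pow_sum, ← Finset.prod_mul_distrib,
      ← Finset.prod_mul_distrib]
    refine Finset.prod_eq_one fun σ _ => ?_
    rw [pow_mul, ← mul_pow, ← mul_pow, ← mul_assoc, hσeq, one_pow]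
  obtain ⟨m, hm⟩ : p ∣ ∑ σ, v σ * omegaSq p K σ := by
    rw [← ZMod.natCast_eq_zero_iff]; push_cast; exact hrel
  obtain ⟨k, hk⟩ : p ∣ ∑ σ : K ≃ₐ[ℚ] K, omegaSq p K σ := by
    rw [← ZMod.natCast_eq_zero_iff]
    push_cast
    simp only [natCast_omegaSq]
    rw [← sum_units_sq (p := p) hp5]
    exact (omega p K).toEquiv.sum_comp fun u => (u : ZMod p) ^ 2
  have hc : φ (cycUnit p K : 𝓞 K) =
      ∏ σ : K ≃ₐ[ℚ] K, φ ((quotUnit p K σ : 𝓞 K)) ^ omegaSq p K σ := by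
    simp [cycUnit, Units.coe_prod]
  rw [hk, hm, ← hc, mul_comm p k, mul_comm p m, pow_mul, pow_mul, ← mul_pow] at hprod
  set w := φ (zetaInt p K - 1) ^ k * φ (g : 𝓞 K) ^ m
  have : P.IsMaximal := Ideal.IsPrime.isMaximal inferInstance hP0
  obtain ⟨y, hy⟩ := Ideal.Quotient.mk_surjective ((Ideal.Quotient.field P).inv w)
  refine ⟨y, ?_⟩
  rw [← Ideal.Quotient.eq_zero_iff_mem, map_sub, map_pow, hy, sub_eq_zero]
  let _ : Field (𝓞 K ⧸ P) := Ideal.Quotient.field P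
  show φ (cycUnit p K : 𝓞 K) = (w⁻¹) ^ p
  rw [inv_pow]
  exact eq_inv_of_mul_eq_one_left hprod

/-- **Thaine's relation.** -/
theorem exists_pow_congr_cycUnit (hp5 : 5 ≤ p) (ψ : ClassGroup (𝓞 K) →* Multiplicative (ZMod p))
    (hψ : IsOmegaSqChar ψ) (P : Ideal (𝓞 K)) [P.IsPrime] (hP0 : P ≠ ⊥)
    (hℓ' : (Ideal.absNorm P).Prime) (hpP : (p : 𝓞 K) ∉ P)
    (hne : ψ (ClassGroup.mk0 ⟨P, mem_nonZeroDivisors_iff_ne_zero.mpr hP0⟩) ≠ 1) :
    ∃ y : 𝓞 K, (cycUnit p K : 𝓞 K) - y ^ p ∈ P := by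
  set ℓ := Ideal.absNorm P with hℓdef
  have hℓ : Fact ℓ.Prime := ⟨hℓ'⟩
  have hP : (ℓ : 𝓞 K) ∈ P := Ideal.absNorm_mem P
  have hℓp : ¬ ℓ ∣ p := fun h => hpP (by
    obtain ⟨c, hc⟩ := h; rw [hc, Nat.cast_mul]; exact P.mul_mem_right _ hP)
  have hℓ1 := dvd_absNorm_sub_one hℓ' (hℓdef.symm) hpP
  let F := CyclotomicField ℓ K
  obtain ⟨hfr, -⟩ := exists_aux_prime (ℓ := ℓ) (F := F) hℓdef.symm hP hℓp
  obtain ⟨τ, g, β, hτroot, hβ0, hβ, hinv⟩ := exists_hilbert90_aux hℓ1 hfr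
  set I := Ideal.span {RingOfIntegers.norm K β}
  have hmap : I.map (algebraMap (𝓞 K) (𝓞 F)) = Ideal.span {β} ^ (ℓ - 1) := map_span_norm hfr hinv
  have hI0 : I ≠ ⊥ := fun h => pow_ne_zero (ℓ - 1)
    (show Ideal.span {β} ≠ ⊥ by rwa [Ne, Ideal.span_singleton_eq_bot])
    (by rw [← hmap, h, Ideal.map_bot]; rfl)
  -- the conjugates of `P` are the primes above `ℓ`
  have hinj : Function.Injective fun σ : K ≃ₐ[ℚ] K => σ • P := fun σ σ' h => by
    have h' : (σ'⁻¹ * σ) • P = P := by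
      rw [mul_smul]; rw [show σ • P = σ' • P from h, inv_smul_smul]
    exact (inv_mul_eq_one.mp (smul_prime_inj hℓ' hℓdef.symm hpP h')).symm
  -- the congruences
  have hσeq : ∀ σ : K ≃ₐ[ℚ] K, Ideal.Quotient.mk P (quotUnit p K σ : 𝓞 K) *
      Ideal.Quotient.mk P (zetaInt p K - 1) *
      Ideal.Quotient.mk P (g : 𝓞 K) ^ ordIdeal (σ • P) I = 1 := fun σ => by
    have hℓσ : (ℓ : 𝓞 K) ∈ σ • P := by
      simpa only [smul_natCast_ok] using Ideal.smul_mem_pointwise_smul σ _ _ hP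
    have : (σ • P).IsPrime :=
      Ideal.isPrime_of_irreducible_absNorm (by rw [absNorm_smul]; exact hℓ')
    have hram := congr_at_prime ((absNorm_smul σ P).trans hℓdef.symm) hℓσ hℓp hτroot hβ0 hβ hI0 hmap
    rw [← map_mul, quotUnit_mul, ← map_pow, ← map_mul, ← map_one (Ideal.Quotient.mk P),
      Ideal.Quotient.eq]
    have := Ideal.smul_mem_pointwise_smul σ⁻¹ _ _ hram
    rw [inv_smul_smul, smul_sub, smul_mul', smul_pow', smul_natCast_ok, smul_sub, smul_one] at this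
    exact this
  -- the relation in the class group
  refine exists_pow_congr_of_rel hp5 hP0 (sum_ord_mul_omegaSq hψ hP0 hne hinj hI0
    fun R hR hR0 hRP => ?_) hσeq
  have hℓR : (ℓ : 𝓞 K) ∉ R := fun h => by
    have : IsGalois ℚ K := IsCyclotomicExtension.isGalois {p} ℚ K
    obtain ⟨σ, hσ⟩ := exists_smul_eq_of_natCast_mem hP h
    exact hRP σ hσ
  obtain ⟨Q, hQp, hQc, hQ1⟩ := exists_unramified_prime (F := F) hR0 hℓR
  have h := ordIdeal_map hR0 Q hQc hI0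
  rw [hmap, ordIdeal_pow, hQ1, mul_one] at h
  rw [← h, Nat.cast_mul, (ZMod.natCast_eq_zero_iff _ _).mpr hℓ1, zero_mul]

end FermatAgent.CFT
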