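import Mathlib

/-!
A continuous partition of unity for the action of the unit group on the mixed space of a number
field: the weight `unitWeight x` is a product of tent functions in the coordinates of `logMap x`
with respect to a fundamental system of units.
-/

set_option autoImplicit false

noncomputable section

open NumberField NumberField.mixedEmbedding NumberField.InfinitePlace Module
open NumberField.Units NumberField.Units.dirichletUnitTheorem
open scoped Classical nonZeroDivisors

namespace FermatAgent.CFT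

/-- The tent function. -/
def tent (t : ℝ) : ℝ := max 0 (1 - |t|)

/-- The tent is nonnegative. -/
lemma tent_nonneg (t : ℝ) : 0 ≤ tent t := le_max_left _ _

/-- The tent is at most one. -/
lemma tent_le_one (t : ℝ) : tent t ≤ 1 := max_le zero_le_one (by linarith [abs_nonneg t])

/-- The tent is supported on `[-1, 1]`. -/
lemma abs_le_one_of_tent_ne_zero {t : ℝ} (h : tent t ≠ 0) : |t| ≤ 1 := by
  by_contra h'
  exact h (max_eq_left (by linarith [not_le.mp h']))

/-- The tent is one-Lipschitz. -/
lemma abs_tent_sub_tent_le (a b : ℝ) : |tent a - tent b| ≤ |a - b| := by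
  have h := abs_abs_sub_abs_le_abs_sub a b
  unfold tent
  rcases le_total (1 - |a|) 0 with ha | ha <;> rcases le_total (1 - |b|) 0 with hb | hb <;>
    simp only [max_eq_left, max_eq_right, ha, hb] <;> rw [abs_le] at * <;> constructor <;>
    linarith [abs_nonneg (a - b)]

lemma hasSum_tent (t : ℝ) : HasSum (fun n : ℤ => tent (t + n)) 1 := by
  have hz : ∀ n ∉ ({-⌊t⌋, -⌊t⌋ - 1} : Finset ℤ), tent (t + n) = 0 := by
    intro n hn
    simp only [Finset.mem_insert, Finset.mem_singleton, not_or] at hn
    by_contra h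
    have h1 : |t + n| < 1 := by
      by_contra h'
      exact h (max_eq_left (by linarith [not_lt.mp h']))
    rw [abs_lt] at h1
    have hf := Int.floor_le t
    have hf' := Int.lt_floor_add_one t
    have hlt : (n : ℝ) < ((-⌊t⌋ + 1 : ℤ) : ℝ) := by push_cast; linarith
    have hgt : ((-⌊t⌋ - 2 : ℤ) : ℝ) < (n : ℝ) := by push_cast; linarith
    have := Int.cast_lt.mp hlt
    have := Int.cast_lt.mp hgt
    omega
  have h : HasSum (fun n : ℤ => tent (t + n))
      (∑ n ∈ ({-⌊t⌋, -⌊t⌋ - 1} : Finset ℤ), tent (t + n)) := hasSum_sum_of_ne_finset_zero hz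
  convert h using 1
  have hf := Int.floor_le t
  have hf' := Int.lt_floor_add_one t
  rw [Finset.sum_pair (by omega)]
  push_cast
  unfold tent
  rw [abs_of_nonneg (by linarith : 0 ≤ t + -(⌊t⌋ : ℝ)),
    abs_of_nonpos (by linarith : t + (-(⌊t⌋ : ℝ) - 1) ≤ 0), max_eq_right (by linarith),
    max_eq_right (by linarith)]
  ring

lemma hasSum_mul_of_nonneg {ι κ : Type*} {f : ι → ℝ} {g : κ → ℝ} {a b : ℝ} (hf : HasSum f a)
    (hg : HasSum g b) (hf0 : ∀ i, 0 ≤ f i) (hg0 : ∀ j, 0 ≤ g j) :
    HasSum (fun x : ι × κ => f x.1 * g x.2) (a * b) :=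
  hf.mul hg (Summable.mul_of_nonneg hf.summable hg.summable hf0 hg0)

lemma hasSum_prod_tent {r : ℕ} (t : Fin r → ℝ) :
    HasSum (fun n : Fin r → ℤ => ∏ i, tent (t i + n i)) 1 := by
  induction r with
  | zero =>
    convert hasSum_fintype (fun n : Fin 0 → ℤ => ∏ i, tent (t i + n i)) using 1
    simp
  | succ r ih =>
    rw [← (Fin.consEquiv fun _ => ℤ).hasSum_iff]
    have h1 := hasSum_tent (t 0)
    have h2 := ih (Fin.tail t)
    have h12 := hasSum_mul_of_nonneg h1 h2 (fun n => tent_nonneg _)
      (fun n => Finset.prod_nonneg fun i _ => tent_nonneg _)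
    rw [one_mul] at h12
    convert h12 using 1
    ext x
    simp [Fin.consEquiv, Fin.prod_univ_succ, Fin.tail]

/-- Differences of products are bounded by sums of differences. -/
lemma abs_prod_sub_prod_le {ι : Type*} (s : Finset ι) (a b : ι → ℝ) (ha : ∀ i, |a i| ≤ 1)
    (hb : ∀ i, |b i| ≤ 1) : |∏ i ∈ s, a i - ∏ i ∈ s, b i| ≤ ∑ i ∈ s, |a i - b i| := by
  induction s using Finset.induction with
  | empty => simp
  | insert i s hi ih =>
    rw [Finset.prod_insert hi, Finset.prod_insert hi, Finset.sum_insert hi]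
    have hps : |∏ j ∈ s, a j| ≤ 1 := by
      rw [Finset.abs_prod]; exact Finset.prod_le_one (fun j _ => abs_nonneg _) (fun j _ => ha j)
    calc |a i * ∏ j ∈ s, a j - b i * ∏ j ∈ s, b j|
        = |(a i - b i) * ∏ j ∈ s, a j + b i * (∏ j ∈ s, a j - ∏ j ∈ s, b j)| := by ring_nf
      _ ≤ |(a i - b i) * ∏ j ∈ s, a j| + |b i * (∏ j ∈ s, a j - ∏ j ∈ s, b j)| := abs_add_le _ _
      _ ≤ |a i - b i| + ∑ j ∈ s, |a j - b j| := by
          rw [abs_mul, abs_mul]
          exact add_le_add (mul_le_of_le_one_right (abs_nonneg _) hps)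
            ((mul_le_of_le_one_left (abs_nonneg _) (hb i)).trans ih)

variable (K : Type*) [Field K] [NumberField K]

/-- The coordinates on `logSpace K` given by a fundamental system of units. -/
def unitCoord : logSpace K →L[ℝ] (Fin (Units.rank K) → ℝ) :=
  LinearMap.toContinuousLinearMap
    (((basisUnitLattice K).ofZLatticeBasis ℝ _).equivFun.toLinearMap)

variable {K}

/-- The weight function. -/
def unitWeight (x : mixedSpace K) : ℝ := ∏ i, tent (unitCoord K (logMap x) i)

/-- The unit weight is nonnegative. -/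
lemma unitWeight_nonneg (x : mixedSpace K) : 0 ≤ unitWeight x :=
  Finset.prod_nonneg fun _ _ => tent_nonneg _

/-- The unit weight is at most one. -/
lemma unitWeight_le_one (x : mixedSpace K) : unitWeight x ≤ 1 :=
  Finset.prod_le_one (fun _ _ => tent_nonneg _) fun _ _ => tent_le_one _

lemma unitCoord_logEmbedding (ζ : torsion K) (n : Fin (Units.rank K) → ℤ)
    (i : Fin (Units.rank K)) :
    unitCoord K (logEmbedding K (Additive.ofMul ((ζ : (𝓞 K)ˣ) * ∏ j, fundSystem K j ^ (n j)))) i =
      (n i : ℝ) := by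
  have h0 : logEmbedding K (Additive.ofMul (ζ : (𝓞 K)ˣ)) = 0 := logEmbedding_eq_zero_iff.mpr ζ.2
  have hb : ∀ j, unitCoord K (logEmbedding K (Additive.ofMul (fundSystem K j))) i =
      if j = i then (1 : ℝ) else 0 := by
    intro j
    rw [logEmbedding_fundSystem,
      ← Basis.ofZLatticeBasis_apply ℝ (unitLattice K) (basisUnitLattice K) j]
    simp [unitCoord, Finsupp.single_apply]
  rw [ofMul_mul, map_add, h0, zero_add, ofMul_prod, map_sum, map_sum, Finset.sum_apply,
    Finset.sum_eq_single i]
  · rw [ofMul_zpow, map_zsmul, map_zsmul, Pi.smul_apply, hb, if_pos rfl]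
    simp
  · intro j _ hj
    rw [ofMul_zpow, map_zsmul, map_zsmul, Pi.smul_apply, hb, if_neg hj, smul_zero]
  · intro h
    exact absurd (Finset.mem_univ i) h

/-- `unit ≃ torsion × ℤ^rank`. -/
def unitsEquivProd : (𝓞 K)ˣ ≃ torsion K × (Fin (Units.rank K) → ℤ) :=
  (Equiv.ofBijective
    (fun ζe : torsion K × (Fin (Units.rank K) → ℤ) =>
      (ζe.1 : (𝓞 K)ˣ) * ∏ i, fundSystem K i ^ (ζe.2 i))
    ⟨fun a b h => (exist_unique_eq_mul_prod K _).unique rfl h,
     fun x => by
      obtain ⟨a, ha, -⟩ := exist_unique_eq_mul_prod K x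
      exact ⟨a, ha.symm⟩⟩).symm

/-- The weights of the unit translates sum to the torsion order. -/
lemma tsum_unit_unitWeight {x : mixedSpace K} (hx : mixedEmbedding.norm x ≠ 0) :
    HasSum (fun u : (𝓞 K)ˣ => unitWeight (u • x)) (torsionOrder K : ℝ) := by
  rw [← unitsEquivProd.symm.hasSum_iff]
  have key : ∀ ζe : torsion K × (Fin (Units.rank K) → ℤ),
      unitWeight ((unitsEquivProd.symm ζe) • x) =
        ∏ i, tent (unitCoord K (logMap x) i + ζe.2 i) := by
    intro ζe
    unfold unitWeight
    rw [logMap_unit_smul _ hx]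
    refine Finset.prod_congr rfl fun i _ => ?_
    rw [map_add, Pi.add_apply,
      show unitsEquivProd.symm ζe = (ζe.1 : (𝓞 K)ˣ) * ∏ j, fundSystem K j ^ (ζe.2 j) from rfl,
      unitCoord_logEmbedding, add_comm]
  have : Fintype (torsion K) := Fintype.ofFinite _
  have hc : HasSum (fun _ : torsion K => (1 : ℝ)) (torsionOrder K : ℝ) := by
    convert hasSum_fintype (fun _ : torsion K => (1 : ℝ)) using 1
    simp [torsionOrder, Nat.card_eq_fintype_card]
  have hp := hasSum_prod_tent (fun i => unitCoord K (logMap x) i)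
  have h2 := hasSum_mul_of_nonneg (f := fun _ : torsion K => (1 : ℝ)) hc hp
    (fun _ => zero_le_one) (fun n => Finset.prod_nonneg fun i _ => tent_nonneg _)
  rw [mul_one] at h2
  convert h2 using 1
  ext ζe
  rw [Function.comp_apply, key ζe, one_mul]

end FermatAgent.CFT
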